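import Fermat.Agent.RT.Lift.Local
import Fermat.Agent.Lifting.Module.FreeData

/-!
# The localised part, independently of the chosen localiser

`locSub O S abar K` is the localisation of `Hom(Γ_K, O)` at the residual system. Every localiser
cuts out the same submodule, and maps which are semilinear along a surjection of the operators
compatible with the residual systems respect it.
-/

set_option autoImplicit false
set_option linter.overlappingInstances false

noncomputable section

namespace Fermat.Agent.Lifting.Degeneracy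

open IsLocalRing MvPolynomial
open Fermat.Agent.RT.GammaH

theorem localPart_le {O 𝔸 : Type} [CommRing O] [CommRing 𝔸] [Algebra O 𝔸] {m : Ideal 𝔸}
    (hm : m ≠ ⊤) {H : Type*} [AddCommGroup H] [Module 𝔸 H] [Module O H] [IsScalarTower O 𝔸 H]
    {e e' : 𝔸} (he : IsLocalizer m H e) (he' : IsLocalizer m H e') :
    localPart O e H ≤ localPart O e' H := by
  intro x (hx : e • x = x)
  show e' • x = x
  refine sub_eq_zero.1 (he.eq_zero_of_smul_eq_zero (t := e') (x := e' • x - x) ?_ ?_ ?_)
  · intro hc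
    exact hm ((Ideal.eq_top_iff_one m).2 (by simpa using sub_mem hc he'.sub_one_mem))
  · rw [smul_sub, smul_comm, hx]
  · rw [smul_sub, he'.idem, sub_self]

variable (O : Type) [CommRing O] [IsDomain O] [IsDiscreteValuationRing O]
  [IsAdicComplete (maximalIdeal O) O] {N : ℕ} [NeZero N] (S : Finset ℕ)
  (abar : ℕ → ResidueField O) (K : Subgroup (ZMod N)ˣ)

/-- A chosen localiser of `Hom(Γ_K, O)` at the residual system. -/
def locElt : OpRing O N S :=
  (exists_isLocalizer (O := O) (resIdeal S abar N) (HomMod O S K O)).choose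

theorem isLocalizer_locElt :
    IsLocalizer (resIdeal S abar N) (HomMod O S K O) (locElt O S abar K) :=
  (exists_isLocalizer (O := O) (resIdeal S abar N) (HomMod O S K O)).choose_spec

/-- The localised part of `Hom(Γ_K, O)`. -/
def locSub : Submodule O (HomMod O S K O) :=
  localPart O (locElt O S abar K) (HomMod O S K O)

variable {O S abar K}

theorem locSub_eq {e : OpRing O N S}
    (he : IsLocalizer (resIdeal S abar N) (HomMod O S K O) e) :
    locSub O S abar K = localPart O e (HomMod O S K O) :=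
  le_antisymm (localPart_le (resIdeal_ne_top S abar) (isLocalizer_locElt O S abar K) he)
    (localPart_le (resIdeal_ne_top S abar) he (isLocalizer_locElt O S abar K))

theorem smul_mem_locSub (a : OpRing O N S) {x : HomMod O S K O} (hx : x ∈ locSub O S abar K) :
    a • x ∈ locSub O S abar K := smul_mem_localPart a hx

theorem eq_zero_of_smul_eq_zero {t : OpRing O N S} (ht : t ∉ resIdeal S abar N)
    {x : HomMod O S K O} (hx : x ∈ locSub O S abar K) (h0 : t • x = 0) : x = 0 :=
  (isLocalizer_locElt O S abar K).eq_zero_of_smul_eq_zero ht hx h0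

theorem mem_locSub_of_smul {c : O} (hc : c ≠ 0) {x : HomMod O S K O}
    (hx : c • x ∈ locSub O S abar K) : x ∈ locSub O S abar K := by
  have hx' : locElt O S abar K • c • x = c • x := hx
  rw [smul_comm] at hx'
  exact smul_right_injective _ hc hx'

omit [IsAdicComplete (maximalIdeal O) O] in
theorem exists_eq_smul_of_mem_maximalIdeal_smul {ϖ : O} (hϖ : Irreducible ϖ) {H : Type*}
    [AddCommGroup H] [Module O H] {L : Submodule O H} {x : H} (hx : x ∈ maximalIdeal O • L) :
    ∃ y ∈ L, x = ϖ • y := by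
  rw [hϖ.maximalIdeal_eq] at hx
  refine Submodule.smul_induction_on hx (fun c hc y hy => ?_) ?_
  · obtain ⟨d, rfl⟩ := Ideal.mem_span_singleton'.1 hc
    exact ⟨d • y, L.smul_mem d hy, by rw [smul_smul, mul_comm]⟩
  · rintro a b ⟨y, hy, rfl⟩ ⟨z, hz, rfl⟩
    exact ⟨y + z, add_mem hy hz, (smul_add _ _ _).symm⟩

/-- A power of an element of the residual ideal maps the localised part into `ϖ` times itself. -/
theorem exists_pow_smul [Finite (ResidueField O)] {ϖ : O} (hϖ : Irreducible ϖ) {a : OpRing O N S}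
    (ha : a ∈ resIdeal S abar N) :
    ∃ n : ℕ, ∀ x ∈ locSub O S abar K, ∃ y ∈ locSub O S abar K, a ^ n • x = ϖ • y := by
  obtain ⟨n, hn⟩ := (isLocalizer_locElt O S abar K).exists_pow_smul_mem (O := O) ha
    (resIdeal_ne_top S abar)
  exact ⟨n, fun x hx => exists_eq_smul_of_mem_maximalIdeal_smul hϖ (hn x hx)⟩

section Transport

variable {N' : ℕ} [NeZero N'] {K' : Subgroup (ZMod N')ˣ} {σ : OpRing O N S →ₐ[O] OpRing O N' S}

/-- One element cuts out both localised parts. -/
theorem exists_isLocalizer_map (hσ : Function.Surjective σ)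
    (hres : ∀ a, opRes S abar N' (σ a) = opRes S abar N a) :
    ∃ e : OpRing O N S, IsLocalizer (resIdeal S abar N) (HomMod O S K O) e ∧
      IsLocalizer (resIdeal S abar N') (HomMod O S K' O) (σ e) := by
  have hmem : ∀ a, σ a ∈ resIdeal S abar N' ↔ a ∈ resIdeal S abar N := fun a => by
    rw [mem_resIdeal, mem_resIdeal, hres]
  let H := HomMod O S K O
  let H₀ := HomMod O S K' O
  let : Module (OpRing O N S) H₀ := Module.compHom _ σ.toRingHom
  have : IsScalarTower O (OpRing O N S) H₀ := ⟨fun c a x => by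
    show σ (c • a) • x = c • (σ a • x)
    rw [map_smul, smul_assoc]⟩
  obtain ⟨e, he⟩ := exists_isLocalizer (O := O) (resIdeal S abar N) (H × H₀)
  have he₀ : IsLocalizer (resIdeal S abar N) H₀ e :=
    he.of_injective (LinearMap.inr _ H H₀) LinearMap.inr_injective
  refine ⟨e, he.of_injective (LinearMap.inl _ H H₀) LinearMap.inl_injective, ?_,
    fun x => he₀.idem x, fun t ht => ?_⟩
  · rw [← map_one σ, ← map_sub, hmem]
    exact he₀.sub_one_mem
  · obtain ⟨t, rfl⟩ := hσ t
    obtain ⟨t', ht'⟩ := he₀.invert t fun hc => ht ((hmem _).2 hc)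
    refine ⟨σ t', fun x => ?_⟩
    rw [← map_mul, ← map_mul]
    exact ht' x

theorem map_mem_locSub (hσ : Function.Surjective σ)
    (hres : ∀ a, opRes S abar N' (σ a) = opRes S abar N a) (f : HomMod O S K O → HomMod O S K' O)
    (hf : ∀ (a : OpRing O N S) x, f (a • x) = σ a • f x) {x : HomMod O S K O}
    (hx : x ∈ locSub O S abar K) : f x ∈ locSub O S abar K' := by
  obtain ⟨e, he, he'⟩ := exists_isLocalizer_map (K := K) (K' := K') hσ hres
  rw [locSub_eq he, mem_localPart] at hx
  rw [locSub_eq he', mem_localPart, ← hf, hx]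

theorem map_mem_locSub' (hσ : Function.Surjective σ)
    (hres : ∀ a, opRes S abar N' (σ a) = opRes S abar N a) (f : HomMod O S K' O → HomMod O S K O)
    (hf : ∀ (a : OpRing O N S) x, f (σ a • x) = a • f x) {x : HomMod O S K' O}
    (hx : x ∈ locSub O S abar K') : f x ∈ locSub O S abar K := by
  obtain ⟨e, he, he'⟩ := exists_isLocalizer_map (K := K) (K' := K') hσ hres
  rw [locSub_eq he', mem_localPart] at hx
  rw [locSub_eq he, mem_localPart, ← hf, hx]

omit [NeZero N'] in
theorem map_mem_locSub_of_linear {K₁ : Subgroup (ZMod N)ˣ}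
    (f : HomMod O S K O →ₗ[OpRing O N S] HomMod O S K₁ O) {x : HomMod O S K O}
    (hx : x ∈ locSub O S abar K) : f x ∈ locSub O S abar K₁ :=
  map_mem_locSub (σ := AlgHom.id O _) Function.surjective_id (fun _ => rfl) f
    (fun a x => f.map_smul a x) hx

end Transport

/-- An involution which is semilinear along an endomorphism of the operators fixing the residual
system preserves the localised part. -/
theorem involution_mem_locSub {σ : OpRing O N S →ₐ[O] OpRing O N S}
    (hres : ∀ a, opRes S abar N (σ a) = opRes S abar N a) (f : HomMod O S K O → HomMod O S K O)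
    (hinv : ∀ x, f (f x) = x) (hf : ∀ a x, f (a • x) = σ a • f x)
    {x : HomMod O S K O} (hx : x ∈ locSub O S abar K) : f x ∈ locSub O S abar K := by
  have he := isLocalizer_locElt O S abar K
  set e := locElt O S abar K
  have hmem : ∀ a, σ a ∈ resIdeal S abar N ↔ a ∈ resIdeal S abar N := fun a => by
    rw [mem_resIdeal, mem_resIdeal, hres]
  have hσσ : ∀ (a : OpRing O N S) y, σ (σ a) • y = a • y := fun a y => by
    have h1 := hinv (a • y)
    rwa [hf, hf, hinv] at h1
  have he' : IsLocalizer (resIdeal S abar N) (HomMod O S K O) (σ e) := by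
    refine ⟨?_, fun y => ?_, fun t ht => ?_⟩
    · rw [← map_one σ, ← map_sub, hmem]
      exact he.sub_one_mem
    · rw [← hinv y, ← hf, ← hf, he.idem]
    · obtain ⟨t', ht'⟩ := he.invert (σ t) fun hc => ht ((hmem t).1 hc)
      refine ⟨σ t', fun y => ?_⟩
      rw [← hinv y, ← hf e, ← ht', hf (σ t * t' * e), map_mul, map_mul, mul_smul, mul_smul,
        mul_smul, mul_smul, hσσ]
  rw [locSub_eq he', mem_localPart, ← hf]
  exact congrArg f hx

section Eisenstein

/-- Restriction from `Γ₀` is injective modulo the uniformiser on the localised part. -/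
theorem exists_eq_smul_of_res {K' : Subgroup (ZMod N)ˣ} (hK' : K' = ⊤) (hle : K ≤ K')
    (hS : ∀ v : ℕ, v.Prime → v ∣ N → v ∈ S)
    (hEis : ∃ ℓ : ℕ, ℓ.Prime ∧ ℓ ∉ S ∧ abar ℓ ≠ 1 + (ℓ : ResidueField O)) {ϖ : O}
    (hϖ : Irreducible ϖ) {x : HomMod O S K' O} (hx : x ∈ locSub O S abar K')
    {y : HomMod O S K O} (hxy : toHomMod (res O (gammaH_mono hle) (toHomMod.symm x)) = ϖ • y) :
    ∃ χ : HomMod O S K' O, x = ϖ • χ := by
  subst hK'
  replace hxy : resLin S K O x = ϖ • y := hxy
  obtain ⟨ℓ, hℓp, hℓS, hℓ'⟩ := hEis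
  have : Fact ℓ.Prime := ⟨hℓp⟩
  let r : O →ₗ[O] ResidueField O := Algebra.linearMap O (ResidueField O)
  have h0 : resTop O K (mapCoeff r x) = 0 := by
    show resLin S K _ (mapCoeff r x) = 0
    rw [← mapCoeff_resLin, hxy]
    refine DFunLike.ext _ _ fun γ => ?_
    show residue O (ϖ * y γ) = 0
    rw [map_mul, (residue_eq_zero_iff ϖ).2 hϖ.not_isUnit, zero_mul]
  have hT : hecke N ⊤ ℓ O (mapCoeff r x) = (ℓ + 1) • mapCoeff r x :=
    hecke_of_resTop_eq_zero' O h0 fun hc => hℓS (hS ℓ hℓp hc)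
  set t : OpRing O N S := X (Sum.inr ⟨ℓ, hℓp, hℓS⟩) - C ((1 : O) + (ℓ : O))
  have hzero : mapCoeff r (t • x) = 0 := by
    rw [map_smul, sub_smul, X_inr_smul, hT, ← algebraMap_eq, algebraMap_smul, sub_eq_zero,
      ← Nat.cast_smul_eq_nsmul O (ℓ + 1)]
    congr 1
    push_cast
    ring
  obtain ⟨χ, hχ⟩ := exists_eq_smul S hϖ (φ := t • x) fun γ => by
    have hγ : residue O ((t • x : HomMod O S ⊤ O) γ) = 0 := DFunLike.congr_fun hzero γ
    rw [residue_eq_zero_iff, hϖ.maximalIdeal_eq, Ideal.mem_span_singleton] at hγ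
    exact hγ
  have ht : t ∉ resIdeal S abar N := by
    rw [mem_resIdeal, map_sub, opRes_inr, ← algebraMap_eq, AlgHom.commutes,
      ResidueField.algebraMap_eq, map_add, map_one, map_natCast, sub_eq_zero]
    exact hℓ'
  have he := isLocalizer_locElt O S abar (⊤ : Subgroup (ZMod N)ˣ)
  obtain ⟨t', ht'⟩ := he.invert t ht
  refine ⟨(t' * locElt O S abar ⊤) • χ, ?_⟩
  rw [smul_comm, ← hχ, smul_smul,
    show t' * locElt O S abar ⊤ * t = t * t' * locElt O S abar ⊤ by ring, mul_smul]
  have hx' : locElt O S abar ⊤ • x = x := hx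
  rw [hx']
  have h1 := ht' x
  rw [mul_smul, hx'] at h1
  exact h1.symm

end Eisenstein

section Invariants

variable {p : ℕ} [Fact p.Prime] [CharP (ResidueField O) p] [Finite (ResidueField O)]

/-- An element of the localised part fixed by the diamond operators modulo the uniformiser is
congruent to a class restricted from `Γ₀`. -/
theorem exists_resLin_of_invariant (hp2 : p ≠ 2) (hfree : Module.FreeLevel p N)
    (hpg : IsPGroup p ((ZMod N)ˣ ⧸ K)) (hS : ∀ v : ℕ, v.Prime → v ∣ N → v ∈ S)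
    (hEis : ∃ ℓ : ℕ, ℓ.Prime ∧ ℓ ∉ S ∧ abar ℓ ≠ 1 + (ℓ : ResidueField O)) {ϖ : O}
    (hϖ : Irreducible ϖ) {x : HomMod O S K O} (hx : x ∈ locSub O S abar K)
    (hinv : ∀ u : (ZMod N)ˣ, ∃ z : HomMod O S K O,
      (X (Sum.inl u) : OpRing O N S) • x - x = ϖ • z) :
    ∃ x₀ ∈ locSub O S abar (⊤ : Subgroup (ZMod N)ˣ), ∃ z ∈ locSub O S abar K,
      x = resLin S K O x₀ + ϖ • z := by
  classical
  let := Fintype.ofFinite ((ZMod N)ˣ ⧸ K)
  set ψ : (ZMod N)ˣ →* (ZMod N)ˣ ⧸ K := QuotientGroup.mk' K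
  have hK : ∀ u, u ∈ K ↔ ψ u = 1 := fun u => (QuotientGroup.eq_one_iff u).symm
  have hψ : Function.Surjective ψ := QuotientGroup.mk'_surjective K
  obtain ⟨e, he, he₀, b, hb⟩ :=
    Module.exists_freeData_odd (O := O) (K := K) (Δ := (ZMod N)ˣ ⧸ K) (ψ := ψ) S abar hp2 hfree hpg hψ hK hS hEis
  rw [locSub_eq he] at hx ⊢
  rw [locSub_eq he₀]
  obtain ⟨d, b, hb⟩ : ∃ (d : ℕ) (b : Fin d → localPart O e (HomMod O S K O)),
      Function.Bijective fun c : Fin d × ((ZMod N)ˣ ⧸ K) →₀ O => c.sum fun iq x =>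
        x • localAct O e (HomMod O S K O) (X (Sum.inl (psiInv hψ iq.2))) (b iq.1) := ⟨_, b, hb⟩
  set δ : (ZMod N)ˣ ⧸ K → OpRing O N S := fun δ => X (Sum.inl (psiInv hψ δ))
  have hδ : ∀ δ₁ δ₂ (y : HomMod O S K O), δ δ₁ • δ δ₂ • y = δ (δ₁ * δ₂) • y := fun δ₁ δ₂ y => by
    simp only [δ]
    rw [X_inl_smul, X_inl_smul, X_inl_smul]
    refine (diamond_mul O _ _ y).symm.trans (LinearMap.congr_fun (diamond_congr_ker (Δ := (ZMod N)ˣ ⧸ K) (ψ := ψ) hK ?_) y)
    rw [map_mul]
    simp only [psiInv, Function.surjInv_eq hψ]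
  let F : ((Fin d × ((ZMod N)ˣ ⧸ K)) →₀ O) → HomMod O S K O := fun c =>
    ∑ iq : Fin d × ((ZMod N)ˣ ⧸ K), c iq • δ iq.2 • (b iq.1 : HomMod O S K O)
  have hF : ∀ c, ((c.sum fun iq x => x • localAct O e (HomMod O S K O)
      (X (Sum.inl (psiInv hψ iq.2))) (b iq.1) : localPart O e (HomMod O S K O)) :
        HomMod O S K O) = F c := fun c => by
    rw [Finsupp.sum_fintype]
    · push_cast
      rfl
    · intro iq
      exact zero_smul O _
  have hFinj : Function.Injective F := fun c c' hcc =>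
    hb.1 (Subtype.ext ((hF c).trans (hcc.trans (hF c').symm)))
  have hFsurj : ∀ y ∈ localPart O e (HomMod O S K O), ∃ c, F c = y := fun y hy => by
    obtain ⟨c, hc⟩ := hb.2 ⟨y, hy⟩
    exact ⟨c, (hF c).symm.trans (congrArg Subtype.val hc)⟩
  have hFmem : ∀ c, F c ∈ localPart O e (HomMod O S K O) := fun c => by
    rw [← hF]
    exact Subtype.property _
  obtain ⟨c, rfl⟩ := hFsurj x hx
  -- the coefficients are constant along the orbits modulo `ϖ`
  have hconst : ∀ i γ, ϖ ∣ c (i, γ) - c (i, 1) := by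
    intro i γ
    obtain ⟨z, hz⟩ := hinv (psiInv hψ γ⁻¹)
    have hzmem : z ∈ localPart O e (HomMod O S K O) := by
      have h1 : ϖ • z ∈ localPart O e (HomMod O S K O) :=
        hz ▸ sub_mem (smul_mem_localPart _ hx) hx
      rw [← locSub_eq he] at h1 ⊢
      exact mem_locSub_of_smul hϖ.ne_zero h1
    obtain ⟨w, rfl⟩ := hFsurj z hzmem
    let c' : (Fin d × ((ZMod N)ˣ ⧸ K)) →₀ O :=
      Finsupp.equivFunOnFinite.symm fun iq => c (iq.1, γ * iq.2)
    have hshift : δ γ⁻¹ • F c = F c' := by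
      simp only [F, Finset.smul_sum, smul_comm (δ γ⁻¹) (_ : O), hδ]
      refine Fintype.sum_equiv ((Equiv.refl _).prodCongr (Equiv.mulLeft γ⁻¹)) _ _ fun iq => ?_
      simp [c', Finsupp.equivFunOnFinite]
    have hlin : ∀ c₁ c₂, F (c₁ - c₂) = F c₁ - F c₂ := fun c₁ c₂ => by
      simp only [F, Finsupp.coe_sub, Pi.sub_apply, sub_smul, Finset.sum_sub_distrib]
    have hsm : ∀ (a : O) c₁, F (a • c₁) = a • F c₁ := fun a c₁ => by
      simp only [F, Finsupp.coe_smul, Pi.smul_apply, smul_eq_mul, mul_smul, Finset.smul_sum]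
    have heq : c' - c = ϖ • w := hFinj (by rw [hlin, hsm, ← hshift]; exact hz)
    refine ⟨w (i, 1), ?_⟩
    have := DFunLike.congr_fun heq (i, (1 : (ZMod N)ˣ ⧸ K))
    simpa [c', Finsupp.equivFunOnFinite, mul_one γ] using this
  choose q hq using hconst
  set base : HomMod O S K O := ∑ i, c (i, 1) • (b i : HomMod O S K O)
  have hbase : base ∈ localPart O e (HomMod O S K O) :=
    sum_mem fun i _ => Submodule.smul_mem _ _ (b i).2
  refine ⟨coresLin S K O base, Module.coresLin_mem_localPart S hbase,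
    F (Finsupp.equivFunOnFinite.symm fun iq => q iq.1 iq.2), hFmem _, ?_⟩
  have hnorm : resLin S K O (coresLin S K O base) = ∑ γ, δ γ • base := by
    refine (resTop_coresTop O base).trans (Finset.sum_congr rfl fun γ _ => ?_)
    simp only [δ, X_inl_smul]
    refine LinearMap.congr_fun (diamond_congr_ker (Δ := (ZMod N)ˣ ⧸ K) (ψ := ψ) hK ?_) base
    rw [psiInv, Function.surjInv_eq hψ, QuotientGroup.mk'_apply]
    exact QuotientGroup.out_eq' γ
  rw [hnorm]
  simp only [F, base, Finset.smul_sum, Fintype.sum_prod_type_right, ← Finset.sum_add_distrib,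
    smul_comm (δ _) (_ : O)]
  refine Finset.sum_congr rfl fun γ _ => Finset.sum_congr rfl fun i _ => ?_
  rw [smul_smul, ← add_smul]
  congr 1
  simp only [Finsupp.equivFunOnFinite, Equiv.coe_fn_symm_mk]
  linear_combination hq i γ

end Invariants

end Fermat.Agent.Lifting.Degeneracy
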