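import Fermat.Agent.Lifting.Degeneracy.Step
import Fermat.Agent.Lifting.Degeneracy.Loc

/-!
# The raising step on the modules over the operators

`stepDeltaH` and `stepCorH` are semilinear along `lowerOp`; the involution `wOpH` is semilinear
along `alOp`, which fixes the residual system, so it preserves the localised part.
-/

set_option autoImplicit false
set_option linter.overlappingInstances false

noncomputable section

namespace Fermat.Agent.Lifting.Degeneracy

open IsLocalRing MvPolynomial
open Fermat.Agent.RT.GammaH Fermat.Agent.RT.Lift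

variable {O : Type} [CommRing O] {S : Finset ℕ} {A : Type} [AddCommGroup A] [Module O A]

section SameLevel

variable {N : ℕ} {K K' : Subgroup (ZMod N)ˣ}

variable (O S A) in
/-- Restriction as a map of modules over the operators. -/
def resMidH (hle : K ≤ K') : HomMod O S K' A →ₗ[OpRing O N S] HomMod O S K A :=
  upgrade (((toHomMod (O := O) (S := S) (K := K) (A := A)).toLinearMap.comp
    (resMid O hle)).comp (toHomMod (O := O) (S := S) (K := K') (A := A)).symm.toLinearMap)
    fun i φ => by
      rcases i with u | ℓ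
      · rw [X_inl_smul, X_inl_smul]
        exact (diamond_resMid O hle u φ).symm
      · haveI : Fact ℓ.1.Prime := ⟨ℓ.2.1⟩
        rw [X_inr_smul, X_inr_smul]
        exact (hecke_resMid O hle φ).symm

variable (O S A) in
/-- Corestriction as a map of modules over the operators. -/
def coresMidH (hle : K ≤ K') [Fintype (K' ⧸ K.subgroupOf K')] :
    HomMod O S K A →ₗ[OpRing O N S] HomMod O S K' A :=
  upgrade (((toHomMod (O := O) (S := S) (K := K') (A := A)).toLinearMap.comp
    (coresMid O hle)).comp (toHomMod (O := O) (S := S) (K := K) (A := A)).symm.toLinearMap)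
    fun i φ => by
      rcases i with u | ℓ
      · rw [X_inl_smul, X_inl_smul]
        exact coresMid_diamond O hle u φ
      · haveI : Fact ℓ.1.Prime := ⟨ℓ.2.1⟩
        rw [X_inr_smul, X_inr_smul]
        exact coresMid_hecke O hle φ

end SameLevel

section Involution

variable {N q M e : ℕ} {K : Subgroup (ZMod N)ˣ} (h : ALLevel N q M)
  (hS : ∀ v : ℕ, v.Prime → v ∣ N → v ∈ S)

include hS in
theorem coprime_of_hS {ℓ : ℕ} (hℓ : ℓ.Prime) (hℓS : ℓ ∉ S) : ℓ.Coprime N :=
  (hℓ.coprime_iff_not_dvd).2 fun hd => hℓS (hS ℓ hℓ hd)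

/-- The class by which the involution twists `T_ℓ`. -/
def alTwist (e ℓ : ℕ) (hℓ : ℓ.Coprime N) : (ZMod N)ˣ :=
  (h.iota (ZMod.unitOfCoprime ℓ hℓ ^ e))⁻¹ * ZMod.unitOfCoprime ℓ hℓ ^ e

variable (O) in
/-- Conjugation of the operators by the involution. -/
def alOp (e : ℕ) : OpRing O N S →ₐ[O] OpRing O N S :=
  aeval (Sum.elim (fun u => X (Sum.inl (h.iota u)))
    fun ℓ => X (Sum.inl (alTwist h e ℓ.1 (coprime_of_hS hS ℓ.2.1 ℓ.2.2))) * X (Sum.inr ℓ))

theorem opRes_alOp [IsLocalRing O] {abar : ℕ → ResidueField O} (a : OpRing O N S) :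
    opRes S abar N (alOp O h hS e a) = opRes S abar N a := by
  have : (opRes S abar N).comp (alOp O h hS e) = opRes S abar N :=
    MvPolynomial.algHom_ext fun i => by rcases i with u | ℓ <;> simp [alOp, opRes]
  exact DFunLike.congr_fun this a

theorem wOp_hecke (hK : TwistSub N K e) {n : ℕ} [Fact n.Prime] (hn : n.Coprime N)
    (φ : Additive (gammaH N K) →+ A) :
    wOp O h hK (hecke N K n O φ) =
      diamond N K O (alTwist h e n hn) (hecke N K n O (wOp O h hK φ)) := by
  set v := ZMod.unitOfCoprime n hn ^ e with hv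
  have e1 : hecke N K n O φ = diamond N K O v⁻¹ (twHecke O N K e hn φ) := by
    rw [twHecke, Module.End.mul_apply, ← hv, ← diamond_mul, inv_mul_cancel,
      diamond_of_mem O (one_mem K)]
  rw [e1, wOp_diamond, wOp_twHecke, twHecke, Module.End.mul_apply, ← hv, ← diamond_mul,
    map_inv]
  rfl

variable (O S) in
/-- The involution on the module over the operators. -/
def wOpH (hK : TwistSub N K e) : HomMod O S K A →ₗ[O] HomMod O S K A :=
  ((toHomMod (O := O) (S := S) (K := K) (A := A)).toLinearMap.comp
    (wOp O h hK)).comp (toHomMod (O := O) (S := S) (K := K) (A := A)).symm.toLinearMap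

theorem wOpH_wOpH (hK : TwistSub N K e) (φ : HomMod O S K A) :
    wOpH O S h hK (wOpH O S h hK φ) = φ := wOp_wOp O h hK φ

theorem wOpH_smul (hK : TwistSub N K e) (a : OpRing O N S) (φ : HomMod O S K A) :
    wOpH O S h hK (a • φ) = alOp O h hS e a • wOpH O S h hK φ := by
  induction a using MvPolynomial.induction_on generalizing φ with
  | C c => rw [← algebraMap_eq, AlgHom.commutes, algebraMap_smul, algebraMap_smul, map_smul]
  | add a b ha hb => rw [map_add, add_smul, map_add, ha, hb, add_smul]
  | mul_X a i ih =>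
    rw [map_mul, mul_smul, ih, mul_smul]
    congr 1
    rcases i with u | ℓ
    · rw [alOp, aeval_X, Sum.elim_inl, X_inl_smul, X_inl_smul]
      exact wOp_diamond O h hK u φ
    · have : Fact ℓ.1.Prime := ⟨ℓ.2.1⟩
      rw [alOp, aeval_X, Sum.elim_inr, mul_smul, X_inl_smul, X_inr_smul, X_inr_smul]
      exact wOp_hecke h hK (coprime_of_hS hS ℓ.2.1 ℓ.2.2) φ

theorem wOpH_mem_locSub [IsDomain O] [IsDiscreteValuationRing O]
    [IsAdicComplete (maximalIdeal O) O] [NeZero N] {abar : ℕ → ResidueField O}
    (hS : ∀ v : ℕ, v.Prime → v ∣ N → v ∈ S) (hK : TwistSub N K e) {x : HomMod O S K O}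
    (hx : x ∈ locSub O S abar K) : wOpH O S h hK x ∈ locSub O S abar K :=
  involution_mem_locSub (opRes_alOp h hS) (wOpH O S h hK) (wOpH_wOpH h hK)
    (wOpH_smul h hS hK) hx

end Involution

section Step

variable {M q e : ℕ} (h : ALLevel (M * q) q M) {K : Subgroup (ZMod (M * q))ˣ}
  (hK : TwistSub (M * q) K e)

variable (O S) in
/-- `stepDelta` on the modules over the operators. -/
def stepDeltaH (eps : O) : HomMod O S (lowSub h K) A →ₗ[O] HomMod O S K A :=
  ((toHomMod (O := O) (S := S) (K := K) (A := A)).toLinearMap.comp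
    (stepDelta h hK O eps)).comp
      (toHomMod (O := O) (S := S) (K := lowSub h K) (A := A)).symm.toLinearMap

variable (O S) in
/-- `stepCor` on the modules over the operators. -/
def stepCorH : HomMod O S K A →ₗ[O] HomMod O S (lowSub h K) A :=
  ((toHomMod (O := O) (S := S) (K := lowSub h K) (A := A)).toLinearMap.comp
    (stepCor h O)).comp (toHomMod (O := O) (S := S) (K := K) (A := A)).symm.toLinearMap

theorem stepDeltaH_smul (hq : q ∈ S) (eps : O) (a : OpRing O (M * q) S)
    (φ : HomMod O S (lowSub h K) A) :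
    stepDeltaH O S h hK eps (lowerOp O M q S a • φ) = a • stepDeltaH O S h hK eps φ := by
  induction a using MvPolynomial.induction_on generalizing φ with
  | C c => rw [lowerOp, rename_C, ← algebraMap_eq, ← algebraMap_eq, algebraMap_smul,
      algebraMap_smul, map_smul]
  | add a b ha hb => rw [map_add, add_smul, map_add, ha, hb, add_smul]
  | mul_X a i ih =>
    rw [map_mul, mul_smul, ih, mul_smul]
    congr 1
    rcases i with u | ℓ
    · simp only [lowerOp, rename_X, Sum.map_inl]
      rw [X_inl_smul, X_inl_smul]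
      exact stepDelta_diamond h hK eps u φ
    · have : Fact ℓ.1.Prime := ⟨ℓ.2.1⟩
      simp only [lowerOp, rename_X, Sum.map_inr, id]
      rw [X_inr_smul, X_inr_smul]
      exact stepDelta_hecke h hK eps (n := ℓ.1) (fun hc => ℓ.2.2 (hc ▸ hq)) φ

theorem stepCorH_smul (hq : q ∈ S) (a : OpRing O (M * q) S) (φ : HomMod O S K A) :
    stepCorH O S h (a • φ) = lowerOp O M q S a • stepCorH O S h φ := by
  induction a using MvPolynomial.induction_on generalizing φ with
  | C c => rw [lowerOp, rename_C, ← algebraMap_eq, ← algebraMap_eq, algebraMap_smul,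
      algebraMap_smul, map_smul]
  | add a b ha hb => rw [map_add, add_smul, map_add, ha, hb, add_smul]
  | mul_X a i ih =>
    rw [map_mul, mul_smul, ih, mul_smul]
    congr 1
    rcases i with u | ℓ
    · simp only [lowerOp, rename_X, Sum.map_inl]
      rw [X_inl_smul, X_inl_smul]
      exact stepCor_diamond h u φ
    · have : Fact ℓ.1.Prime := ⟨ℓ.2.1⟩
      simp only [lowerOp, rename_X, Sum.map_inr, id]
      rw [X_inr_smul, X_inr_smul]
      exact stepCor_hecke h (n := ℓ.1) (fun hc => ℓ.2.2 (hc ▸ hq)) φ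

theorem wOpH_stepDeltaH {eps : O} (he : eps * eps = 1) (φ : HomMod O S (lowSub h K) A) :
    wOpH O S h hK (stepDeltaH O S h hK eps φ) = eps • stepDeltaH O S h hK eps φ :=
  wOp_stepDelta h hK he φ

theorem stepDeltaH_wOpH (eps : O) {q' M' R' : ℕ} (h' : ALLevel (M * q) q' M')
    (hM : ALLevel M q' R') (hne : q' ≠ q) (φ : HomMod O S (lowSub h K) A) :
    stepDeltaH O S h hK eps (wOpH O S hM (hK.map_toM h) φ) =
      wOpH O S h' hK (stepDeltaH O S h hK eps φ) :=
  stepDelta_wOp h hK eps h' hM hne φ

theorem stepCorH_wOpH {q' M' R' : ℕ} (h' : ALLevel (M * q) q' M') (hM : ALLevel M q' R')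
    (φ : HomMod O S K A) :
    stepCorH O S h (wOpH O S h' hK φ) = wOpH O S hM (hK.map_toM h) (stepCorH O S h φ) :=
  stepCor_wOp h hK h' hM φ

variable [IsDomain O] [IsDiscreteValuationRing O] [IsAdicComplete (maximalIdeal O) O]
  [NeZero (M * q)] [NeZero M] {abar : ℕ → ResidueField O}

theorem stepDeltaH_mem_locSub (hq : q ∈ S) (eps : O) {x : HomMod O S (lowSub h K) O}
    (hx : x ∈ locSub O S abar (lowSub h K)) :
    stepDeltaH O S h hK eps x ∈ locSub O S abar K :=
  map_mem_locSub' lowerOp_surjective opRes_lowerOp (stepDeltaH O S h hK eps)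
    (stepDeltaH_smul h hK hq eps) hx

theorem stepCorH_mem_locSub (hq : q ∈ S) {x : HomMod O S K O} (hx : x ∈ locSub O S abar K) :
    stepCorH O S h x ∈ locSub O S abar (lowSub h K) :=
  map_mem_locSub lowerOp_surjective opRes_lowerOp (stepCorH O S h)
    (stepCorH_smul h hq) hx

end Step

end Fermat.Agent.Lifting.Degeneracy
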