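import Fermat.Agent.Lifting.Degeneracy.Surj
import Fermat.Agent.Lifting.Eigen.StepInjective

/-!
# Raising the level at a finite set of primes at once

`RaiseMaps` packages the composite maps from `Γ₀(L₀)` into the common eigenspace of the
involutions at the new primes of level `N = L₀ ∏ T`, with the properties used by the numerical
criterion. `exists_raiseMaps` constructs them prime by prime.
-/

set_option autoImplicit false
set_option linter.overlappingInstances false

noncomputable section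

namespace Fermat.Agent.Lifting.Degeneracy

open IsLocalRing MvPolynomial
open Fermat.Agent.RT.GammaH Fermat.Agent.RT.Lift
open Fermat.Agent.LevelRaising (AuxPrime)

variable {O : Type} [CommRing O] {S : Finset ℕ}

section General

variable {N e : ℕ} {K : Subgroup (ZMod N)ˣ}

theorem wOpH_comm {q M q' M' : ℕ} (h : ALLevel N q M) (h' : ALLevel N q' M') (hne : q' ≠ q)
    (hK : TwistSub N K e) (φ : HomMod O S K O) :
    wOpH O S h hK (wOpH O S h' hK φ) = wOpH O S h' hK (wOpH O S h hK φ) :=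
  wOp_comm O h h' hne hK φ

/-- The index of the component at `q`. -/
def compIndex (K : Subgroup (ZMod N)ˣ) (q : ℕ) : ℕ :=
  if hd : q ∣ N then Nat.card ((ZMod q)ˣ ⧸ K.map (ZMod.unitsMap hd)) else 1

/-- The map of operators to a lower level. -/
def lowerTo (O : Type) [CommRing O] (S : Finset ℕ) {L N : ℕ} (hd : L ∣ N) :
    OpRing O N S →ₐ[O] OpRing O L S :=
  rename (Sum.map (ZMod.unitsMap hd) id)

theorem lowerTo_lowerOp {L M q : ℕ} (hd : L ∣ M) (a : OpRing O (M * q) S) :
    lowerTo O S hd (lowerOp O M q S a) = lowerTo O S (hd.mul_right q) a := by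
  rw [lowerTo, lowerTo, lowerOp, rename_rename, Sum.map_comp_map, Function.id_comp,
    ← MonoidHom.coe_comp, ZMod.unitsMap_comp]

theorem lowerTo_self (a : OpRing O N S) : lowerTo O S (dvd_refl N) a = a := by
  rw [lowerTo, ZMod.unitsMap_self, MonoidHom.coe_id, Sum.map_id_id, rename_id, AlgHom.id_apply]

/-- The symbol of `⟨ℓ⟩ ^ e T_ℓ`. -/
def twEl (O : Type) [CommRing O] (N : ℕ) (S : Finset ℕ) (e : ℕ)
    (ℓ : {ℓ : ℕ // ℓ.Prime ∧ ℓ ∉ S}) (hℓ : ℓ.1.Coprime N) : OpRing O N S :=
  X (Sum.inl (ZMod.unitOfCoprime ℓ.1 hℓ ^ e)) * X (Sum.inr ℓ)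

theorem twEl_smul (ℓ : {ℓ : ℕ // ℓ.Prime ∧ ℓ ∉ S}) [Fact ℓ.1.Prime] (hℓ : ℓ.1.Coprime N)
    (φ : HomMod O S K O) :
    twEl O N S e ℓ hℓ • φ = toHomMod (twHecke O N K e hℓ (toHomMod.symm φ)) := by
  rw [twEl, mul_smul, X_inl_smul, X_inr_smul]
  rfl

variable [IsDomain O] [IsDiscreteValuationRing O] [IsAdicComplete (maximalIdeal O) O] [NeZero N]

variable (S) in
/-- The common eigenspace of the involutions at the primes of `T` in the localised part. -/
def wEigen (abar : ℕ → ResidueField O) (hK : TwistSub N K e) (T : Finset ℕ) (eps : ℕ → O) :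
    Submodule O (HomMod O S K O) where
  carrier := {x | x ∈ locSub O S abar K ∧
    ∀ q ∈ T, ∀ (M : ℕ) (h : ALLevel N q M), wOpH O S h hK x = eps q • x}
  zero_mem' := ⟨zero_mem _, fun _ _ _ _ => by rw [map_zero, smul_zero]⟩
  add_mem' := fun hx hy => ⟨add_mem hx.1 hy.1,
    fun q hq M h => by rw [map_add, hx.2 q hq M h, hy.2 q hq M h, smul_add]⟩
  smul_mem' := fun c x hx => ⟨Submodule.smul_mem _ c hx.1,
    fun q hq M h => by rw [map_smul, hx.2 q hq M h, smul_comm]⟩

variable {abar : ℕ → ResidueField O} {hK : TwistSub N K e} {T : Finset ℕ} {eps : ℕ → O}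

omit [IsDomain O] [IsDiscreteValuationRing O] [IsAdicComplete (maximalIdeal O) O] [NeZero N] in
theorem lowerOp_twEl {M q : ℕ} (ℓ : {ℓ : ℕ // ℓ.Prime ∧ ℓ ∉ S}) (hℓ : ℓ.1.Coprime (M * q))
    (hℓM : ℓ.1.Coprime M) :
    lowerOp O M q S (twEl O (M * q) S e ℓ hℓ) = twEl O M S e ℓ hℓM := by
  simp only [lowerOp, twEl, map_mul, rename_X, Sum.map_inl, Sum.map_inr, id, map_pow]
  congr 4
  refine Units.ext ?_
  rw [ZMod.unitsMap_def, Units.coe_map, ZMod.coe_unitOfCoprime, ZMod.coe_unitOfCoprime]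
  exact map_natCast (ZMod.castHom (dvd_mul_right M q) (ZMod M)) ℓ.1

/-- The eigenspace is stable under the twisted Hecke operators. -/
theorem twEl_smul_mem_wEigen (ℓ : {ℓ : ℕ // ℓ.Prime ∧ ℓ ∉ S}) (hℓ : ℓ.1.Coprime N)
    {x : HomMod O S K O} (hx : x ∈ wEigen S abar hK T eps) :
    twEl O N S e ℓ hℓ • x ∈ wEigen S abar hK T eps := by
  have : Fact ℓ.1.Prime := ⟨ℓ.2.1⟩
  refine ⟨smul_mem_locSub _ hx.1, fun q hq M h => ?_⟩
  rw [twEl_smul, ← (toHomMod (O := O) (S := S) (K := K) (A := O)).map_smul, ← map_smul (twHecke O N K e hℓ)]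
  show toHomMod (wOp O h hK (twHecke O N K e hℓ _)) = _
  rw [wOp_twHecke]
  exact congrArg (fun y => toHomMod (twHecke O N K e hℓ y)) (hx.2 q hq M h)

end General

section Raise

variable [IsDomain O] [IsDiscreteValuationRing O] [IsAdicComplete (maximalIdeal O) O]

/-- The composite raising maps from `Γ₀(L₀)`. -/
structure RaiseMaps (S : Finset ℕ) (abar : ℕ → ResidueField O) {L₀ N e : ℕ} [NeZero L₀] [NeZero N]
    {K : Subgroup (ZMod N)ˣ} (hK : TwistSub N K e) (hd : L₀ ∣ N) (T : Finset ℕ)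
    (eps : ℕ → O) where
  delta : HomMod O S (⊤ : Subgroup (ZMod L₀)ˣ) O →ₗ[O] HomMod O S K O
  cor : HomMod O S K O →ₗ[O] HomMod O S (⊤ : Subgroup (ZMod L₀)ˣ) O
  delta_smul : ∀ (a : OpRing O N S) (x : HomMod O S (⊤ : Subgroup (ZMod L₀)ˣ) O),
    delta (lowerTo O S hd a • x) = a • delta x
  cor_smul : ∀ (a : OpRing O N S) (y : HomMod O S K O), cor (a • y) = lowerTo O S hd a • cor y
  delta_twHecke : ∀ (n : ℕ) [Fact n.Prime] (hn : n.Coprime N)
    (x : HomMod O S (⊤ : Subgroup (ZMod L₀)ˣ) O),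
    delta (toHomMod (hecke L₀ ⊤ n O (toHomMod.symm x))) =
      toHomMod (twHecke O N K e hn (toHomMod.symm (delta x)))
  delta_mem : ∀ x ∈ locSub O S abar (⊤ : Subgroup (ZMod L₀)ˣ),
    delta x ∈ wEigen S abar hK T eps
  cor_mem : ∀ y ∈ locSub O S abar K, cor y ∈ locSub O S abar (⊤ : Subgroup (ZMod L₀)ˣ)
  delta_saturated : ∀ (ϖ : O), Irreducible ϖ →
    ∀ x ∈ locSub O S abar (⊤ : Subgroup (ZMod L₀)ˣ),
    ∀ y : HomMod O S K O, delta x = ϖ • y →
      ∃ χ ∈ locSub O S abar (⊤ : Subgroup (ZMod L₀)ˣ), x = ϖ • χ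
  cor_surjective : ∀ z ∈ locSub O S abar (⊤ : Subgroup (ZMod L₀)ˣ),
    ∃ y ∈ wEigen S abar hK T eps, cor y = z
  cor_injective : Squarefree N → ∀ (a : ℕ → O) (σ : O →+* ℂ) (L' : ℕ)
    (g : CuspForm (CongruenceSubgroup.Gamma0 L') 2), Function.Injective σ → L' ∣ L₀ →
    g.IsNormalizedEigenform →
    (∀ ℓ : ℕ, ℓ.Prime → ℓ ∉ S → ModularFormClass.qCoeff g ℓ = σ (a ℓ)) →
    ∀ y ∈ wEigen S abar hK T eps,
      (∀ (ℓ : {ℓ : ℕ // ℓ.Prime ∧ ℓ ∉ S}) (hℓ : ℓ.1.Coprime N),
        twEl O N S e ℓ hℓ • y = a ℓ.1 • y) →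
      cor y = 0 → y = 0
  cor_delta : ∀ (a : ℕ → O) (x : HomMod O S (⊤ : Subgroup (ZMod L₀)ˣ) O),
    (∀ q ∈ T, ∀ [Fact q.Prime],
      hecke L₀ ⊤ q O (toHomMod.symm x) = a q • toHomMod.symm x) →
    cor (delta x) = (∏ q ∈ T, (compIndex K q : O) * ((q : O) + 1 + eps q * a q)) • x

theorem stepIndex_eq {M q e : ℕ} (h : ALLevel (M * q) q M) {K : Subgroup (ZMod (M * q))ˣ}
    (hK : TwistSub (M * q) K e) : stepIndex h K = compIndex K q := by
  rw [compIndex, dif_pos h.dvdQ]
  let f : pullSub h K →* (ZMod q)ˣ ⧸ K.map h.toQ :=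
    ((QuotientGroup.mk' (K.map h.toQ)).comp h.toQ).comp (pullSub h K).subtype
  have hf : Function.Surjective f := fun x => by
    induction x using QuotientGroup.induction_on with | _ b => ?_
    refine ⟨⟨h.unit 1 b, ?_⟩, ?_⟩
    · show h.toM (h.unit 1 b) ∈ lowSub h K
      rw [h.toM_unit]
      exact one_mem _
    · show QuotientGroup.mk (h.toQ (h.unit 1 b)) = _
      rw [h.toQ_unit]
  have hker : f.ker = K.subgroupOf (pullSub h K) := by
    ext ⟨u, hu⟩
    rw [MonoidHom.mem_ker, Subgroup.mem_subgroupOf]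
    show QuotientGroup.mk (h.toQ u) = 1 ↔ _
    rw [QuotientGroup.eq_one_iff]
    exact ⟨fun hq => hK.split h u hu hq, fun hk => TwistSub.toQ_mem h hk⟩
  exact Nat.card_congr (((QuotientGroup.quotientMulEquivOfEq hker).symm.trans
    (QuotientGroup.quotientKerEquivOfSurjective f hf)).toEquiv)

theorem compIndex_lowSub {M q q' : ℕ} (h : ALLevel (M * q) q M) (K : Subgroup (ZMod (M * q))ˣ)
    (hd : q' ∣ M) : compIndex (lowSub h K) q' = compIndex K q' := by
  rw [compIndex, compIndex, dif_pos hd, dif_pos (hd.mul_right q), lowSub, Subgroup.map_map,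
    ALLevel.toM, ZMod.unitsMap_comp]

variable [Finite (ResidueField O)] [CharZero O] {abar : ℕ → ResidueField O}
  {p : ℕ} [Fact p.Prime] [CharP (ResidueField O) p] {L₀ : ℕ} [NeZero L₀] {e : ℕ} {eps : ℕ → O}

/-- **The composite raising maps.** -/
theorem exists_raiseMaps (hp2 : p ≠ 2) (hfree : Module.FreeLevel p L₀) (T : Finset ℕ)
    (hT : ∀ q ∈ T, q.Prime ∧ ¬ q ∣ L₀) (heps : ∀ q ∈ T, eps q * eps q = 1)
    {N : ℕ} [NeZero N] (hN : N = L₀ * ∏ q ∈ T, q) (hd : L₀ ∣ N)
    (hS : ∀ v : ℕ, v.Prime → v ∣ N → v ∈ S)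
    (haux : ∀ q ∈ T, ∀ M : ℕ, M ∣ N → ¬ q ∣ M →
      ∃ ℓ, AuxPrime q M ℓ ∧ ℓ ∉ S ∧ abar ℓ ≠ 1 + (ℓ : ResidueField O))
    {K : Subgroup (ZMod N)ˣ} (hK : TwistSub N K e) (hpg : IsPGroup p ((ZMod N)ˣ ⧸ K))
    (hbot : K.map (ZMod.unitsMap hd) = ⊤) :
    Nonempty (RaiseMaps S abar hK hd T eps) := by
  classical
  induction T using Finset.induction generalizing N with
  | empty =>
    rw [Finset.prod_empty, mul_one] at hN
    subst hN
    rw [ZMod.unitsMap_self, Subgroup.map_id] at hbot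
    subst hbot
    exact ⟨{
      delta := LinearMap.id
      cor := LinearMap.id
      delta_smul := fun a x => by rw [lowerTo_self]; rfl
      cor_smul := fun a x => by rw [lowerTo_self]; rfl
      delta_twHecke := fun n _ hn x => by
        rw [twHecke, Module.End.mul_apply, diamond_top]
        rfl
      delta_mem := fun x hx => ⟨hx, fun q hq => absurd hq (Finset.notMem_empty q)⟩
      cor_mem := fun y hy => hy
      delta_saturated := fun ϖ hϖ x hx y hy =>
        ⟨y, mem_locSub_of_smul hϖ.ne_zero (show ϖ • y ∈ _ from hy ▸ hx), hy⟩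
      cor_surjective := fun z hz => ⟨z, ⟨hz, fun q hq => absurd hq (Finset.notMem_empty q)⟩, rfl⟩
      cor_injective := fun _ _ _ _ _ _ _ _ _ y _ _ hy => hy
      cor_delta := fun a x _ => by rw [Finset.prod_empty, one_smul]; rfl }⟩
  | @insert q T hqT ih =>
    obtain ⟨hq, hqL⟩ := hT q (Finset.mem_insert_self q T)
    have hTp : ∀ q' ∈ T, q'.Prime ∧ ¬ q' ∣ L₀ := fun q' h' => hT q' (Finset.mem_insert_of_mem h')
    set M := L₀ * ∏ q ∈ T, q with hM
    obtain rfl : N = M * q := by rw [hN, Finset.prod_insert hqT, hM]; ring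
    have hqM : ¬ q ∣ M := fun hd' => (hq.dvd_mul.1 hd').elim hqL fun h' => by
      obtain ⟨q', hq', hqq'⟩ := (Nat.prime_iff.1 hq).exists_mem_finset_dvd h'
      exact hqT ((Nat.prime_dvd_prime_iff_eq hq (hTp q' hq').1).1 hqq' ▸ hq')
    have h : ALLevel (M * q) q M := ⟨hq, rfl, hqM⟩
    have : NeZero M := ⟨h.raise.level_ne_zero⟩
    have hdM : L₀ ∣ M := dvd_mul_right L₀ _
    have hqS : q ∈ S := hS q hq h.dvdQ
    have hbot' : (lowSub h K).map (ZMod.unitsMap hdM) = ⊤ := by
      rw [lowSub, Subgroup.map_map, ALLevel.toM, ZMod.unitsMap_comp]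
      exact hbot
    obtain ⟨P⟩ := ih hTp (fun q' h' => heps q' (Finset.mem_insert_of_mem h')) rfl hdM
      (fun v hv hd' => hS v hv (hd'.mul_right q))
      (fun q' h' M' hd' hn => haux q' (Finset.mem_insert_of_mem h') M' (hd'.mul_right q) hn)
      (hK.map_toM h) (isPGroup_lowSub h hpg) hbot'
    obtain ⟨ℓ, a, hℓS, hℓ⟩ := haux q (Finset.mem_insert_self q T) M (dvd_mul_right M q) hqM
    have hfreeM := hfree.mono hdM
    have hε := heps q (Finset.mem_insert_self q T)
    have hne : ∀ q' ∈ T, q' ≠ q := fun q' h' hc => hqT (hc ▸ h')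
    have hlev : ∀ q' ∈ T, ∀ M', ALLevel (M * q) q' M' → ∃ R', ALLevel M q' R' := by
      intro q' h' M' hM'
      obtain ⟨R, hR, -, hR'⟩ := h.exists_common hM' (hne q' h')
      exact ⟨R, hM'.prime, hR, hR'⟩
    refine ⟨{
      delta := stepDeltaH O S h hK (eps q) ∘ₗ P.delta
      cor := P.cor ∘ₗ stepCorH O S h
      delta_smul := fun b x => by
        rw [LinearMap.comp_apply, ← lowerTo_lowerOp hdM, P.delta_smul,
          stepDeltaH_smul h hK hqS]
        rfl
      cor_smul := fun b y => by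
        rw [LinearMap.comp_apply, stepCorH_smul h hqS, P.cor_smul, lowerTo_lowerOp hdM]
        rfl
      delta_twHecke := fun n _ hn x => ?_
      delta_mem := fun x hx => ?_
      cor_mem := fun y hy => P.cor_mem _ (stepCorH_mem_locSub h hqS hy)
      delta_saturated := fun ϖ hϖ x hx y hy => ?_
      cor_surjective := fun z hz => ?_
      cor_injective := fun hsq b σ L' g hσ hL' hg hgb y hy hsys hy0 => ?_
      cor_delta := fun b x hx => ?_ }⟩
    · simp only [LinearMap.comp_apply]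
      rw [P.delta_twHecke n (hn.coprime_dvd_right (dvd_mul_right M q)) x]
      exact stepDelta_twHecke h hK (eps q) hn _
    · obtain ⟨hl, hw⟩ := P.delta_mem x hx
      refine ⟨stepDeltaH_mem_locSub h hK hqS _ hl, fun q' hq' M' hM' => ?_⟩
      rcases Finset.mem_insert.1 hq' with rfl | hq'T
      · obtain rfl : M' = M := Nat.eq_of_mul_eq_mul_right hq.pos hM'.eq.symm
        exact wOpH_stepDeltaH h hK hε (P.delta x)
      · obtain ⟨R', hR'⟩ := hlev q' hq'T M' hM'
        rw [LinearMap.comp_apply, ← stepDeltaH_wOpH h hK (eps q) hM' hR' (hne q' hq'T),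
          hw q' hq'T R' hR', map_smul]
    · obtain ⟨χ, -, hχ⟩ := exists_eq_smul_of_stepDeltaH h hK a hℓS hℓ hp2 hfreeM hS hϖ hpg (eps q)
        (P.delta_mem x hx).1 hy
      exact P.delta_saturated ϖ hϖ x hx χ hχ
    · obtain ⟨y₁, ⟨hy₁, hw₁⟩, hy₁z⟩ := P.cor_surjective z hz
      obtain ⟨y, hy, hyq, hyy₁⟩ := exists_stepCorH_eq h hK a hℓS hℓ hp2 hfreeM hS hε hy₁
      obtain ⟨u, hu⟩ := Module.isUnit_two' (O := O) (p := p) hp2
      set half : O := ((u⁻¹ : Oˣ) : O)
      have h2 : half * 2 = 1 := by rw [← hu]; exact Units.inv_mul u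
      suffices ∀ T' ⊆ T, ∃ y ∈ wEigen S abar hK (insert q T') eps, stepCorH O S h y = y₁ by
        obtain ⟨y', hy', hy'1⟩ := this T (Finset.Subset.refl T)
        exact ⟨y', hy', by rw [LinearMap.comp_apply, hy'1, hy₁z]⟩
      intro T' hT'
      induction T' using Finset.induction with
      | empty =>
        refine ⟨y, ⟨hy, fun q' hq' M' hM' => ?_⟩, hyy₁⟩
        obtain rfl : q' = q := by simpa using hq'
        obtain rfl : M' = M := Nat.eq_of_mul_eq_mul_right hq.pos hM'.eq.symm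
        exact hyq
      | @insert r T' hrT' ihT' =>
        obtain ⟨hrT, hT''⟩ := Finset.insert_subset_iff.1 hT'
        obtain ⟨y', ⟨hy', hw'⟩, hy'1⟩ := ihT' hT''
        obtain ⟨Mr, hMr⟩ : ∃ Mr, ALLevel (M * q) r Mr := by
          obtain ⟨R, hR⟩ := (Finset.dvd_prod_of_mem (fun q => q) hrT).trans (dvd_mul_left _ L₀)
          refine ⟨R * q, (hTp r hrT).1, by rw [hM, hR]; ring, fun hd' => ?_⟩
          rcases (hTp r hrT).1.dvd_mul.1 hd' with h' | h'
          · have hMR : L₀ * ∏ q ∈ T, q = L₀ * (r * ∏ q ∈ T.erase r, q) := by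
              rw [Finset.mul_prod_erase T (fun q => q) hrT]
            rw [hR] at hMR
            have hR' : R = L₀ * ∏ q ∈ T.erase r, q := by
              refine Nat.eq_of_mul_eq_mul_left (hTp r hrT).1.pos ?_
              rw [hMR]
              ring
            rw [hR'] at h'
            rcases (hTp r hrT).1.dvd_mul.1 h' with h'' | h''
            · exact (hTp r hrT).2 h''
            · obtain ⟨q', hq', hqq'⟩ :=
                (Nat.prime_iff.1 (hTp r hrT).1).exists_mem_finset_dvd h''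
              obtain ⟨hne', hq'T⟩ := Finset.mem_erase.1 hq'
              exact hne' ((Nat.prime_dvd_prime_iff_eq (hTp r hrT).1 (hTp q' hq'T).1).1 hqq').symm
          · exact hne r hrT ((Nat.prime_dvd_prime_iff_eq (hTp r hrT).1 hq).1 h')
        obtain ⟨Rr, hRr⟩ := hlev r hrT Mr hMr
        have hεr := heps r (Finset.mem_insert_of_mem hrT)
        refine ⟨half • (y' + eps r • wOpH O S hMr hK y'),
          ⟨Submodule.smul_mem _ _ (add_mem hy'
            (Submodule.smul_mem _ _ (wOpH_mem_locSub hMr hS hK hy'))),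
            fun q' hq' M' hM' => ?_⟩, ?_⟩
        · rw [map_smul, map_add, map_smul, smul_comm (eps q') half]
          congr 1
          by_cases hqr : q' = r
          · subst hqr
            obtain rfl : M' = Mr := Nat.eq_of_mul_eq_mul_right hMr.prime.pos
              (hM'.eq.symm.trans hMr.eq)
            rw [wOpH_wOpH, smul_add, smul_smul, hεr, one_smul, add_comm]
          · have hq'' : q' ∈ insert q T' := by
              simp only [Finset.mem_insert] at hq' ⊢
              tauto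
            rw [wOpH_comm hM' hMr (Ne.symm hqr) hK, hw' q' hq'' M' hM', map_smul, smul_add,
              smul_comm (eps r) (eps q')]
        · rw [map_smul, map_add, map_smul, stepCorH_wOpH h hK hMr hRr, hy'1, hw₁ r hrT Rr hRr,
            smul_smul, hεr, one_smul, ← two_smul O y₁, smul_smul, h2, one_smul]
    · let : Algebra O ℂ := σ.toAlgebra
      have hEis : ∃ ℓ : ℕ, ℓ.Prime ∧ ℓ ∉ S ∧ abar ℓ ≠ 1 + (ℓ : ResidueField O) :=
        ⟨ℓ, a.prime, hℓS, hℓ⟩
      have h1 : stepCorH O S h y = 0 := by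
        refine P.cor_injective (hsq.squarefree_of_dvd (dvd_mul_right M q)) b σ L' g hσ hL' hg hgb _
          ⟨stepCorH_mem_locSub h hqS hy.1, fun q' hq' R' hR' => ?_⟩ (fun n hn => ?_) hy0
        · have hM' : ALLevel (M * q) q' (R' * q) :=
            ⟨hR'.prime, by rw [hR'.eq]; ring, fun hd' => (hR'.prime.dvd_mul.1 hd').elim hR'.not_dvd
              fun h' => hne q' hq' ((Nat.prime_dvd_prime_iff_eq hR'.prime hq).1 h')⟩
          rw [← stepCorH_wOpH h hK hM' hR', hy.2 q' (Finset.mem_insert_of_mem hq') _ hM', map_smul]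
        · have hnN : n.1.Coprime (M * q) := hn.mul_right
            ((Nat.coprime_primes n.2.1 hq).2 fun hc => n.2.2 (hc ▸ hqS))
          rw [← lowerOp_twEl n hnN hn, ← stepCorH_smul h hqS, hsys n hnN, map_smul]
      exact Eigen.eq_zero_of_stepCorH_eq_zero hσ h hK hsq hS hEis hε hy.1
        (hy.2 q (Finset.mem_insert_self q T) M h) hsys h1 (hL'.trans hdM) hg hgb
    · have hqp : Fact q.Prime := ⟨hq⟩
      have hxq := hx q (Finset.mem_insert_self q T)
      have hT'x : toHomMod (twHecke O M (lowSub h K) e (coprime_of_level h)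
          (toHomMod.symm (P.delta x))) = b q • P.delta x := by
        rw [← P.delta_twHecke q (coprime_of_level h) x, hxq, ← map_smul P.delta]
        rfl
      have hstep : stepCorH O S h (stepDeltaH O S h hK (eps q) (P.delta x)) =
          ((compIndex K q : O) * ((q : O) + 1 + eps q * b q)) • P.delta x := by
        refine (stepCor_stepDelta h hK (eps q) _).trans ?_
        rw [stepIndex_eq h hK]
        show compIndex K q • (((q + 1) • P.delta x : HomMod O S (lowSub h K) O) + eps q •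
          (toHomMod (twHecke O M (lowSub h K) e (coprime_of_level h)
            (toHomMod.symm (P.delta x))) : HomMod O S (lowSub h K) O)) = _
        rw [hT'x, ← Nat.cast_smul_eq_nsmul O, ← Nat.cast_smul_eq_nsmul O, smul_smul, ← add_smul,
          smul_smul, Nat.cast_add, Nat.cast_one]
      rw [LinearMap.comp_apply, LinearMap.comp_apply, hstep, map_smul,
        P.cor_delta b x (fun q' hq' => @fun i => hx q' (Finset.mem_insert_of_mem hq')),
        smul_smul, Finset.prod_insert hqT]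
      congr 2
      refine Finset.prod_congr rfl fun q' hq' => ?_
      rw [compIndex_lowSub h K ((Finset.dvd_prod_of_mem (fun q => q) hq').trans
        (dvd_mul_left _ L₀))]

end Raise

end Fermat.Agent.Lifting.Degeneracy
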