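import Fermat.Agent.Lifting.Degeneracy.Composite

/-!
# The old part at auxiliary primes

For `q ∤ M` prime the composite of the two degeneracy maps between `Γ₀(M)` and `Γ₀(M q)` is
`(q + 1, T_q; T_q, q + 1)`. If its determinant is invertible on the localised part of level `M` and
no nonzero element of the localised part of level `M q` is killed by both corestrictions, the
localised part of level `M q` is two copies of that of level `M`. `OldIso` iterates this.
-/

set_option autoImplicit false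
set_option linter.overlappingInstances false

noncomputable section

namespace Fermat.Agent.Lifting.Degeneracy

open IsLocalRing MvPolynomial
open Fermat.Agent.RT.GammaH Fermat.Agent.RT.Lift
open Fermat.Agent.LevelRaising (RaiseData)

variable {O : Type} [CommRing O] {S : Finset ℕ} {A : Type} [AddCommGroup A] [Module O A]

section Ops

variable {N : ℕ} {K K' : Subgroup (ZMod N)ˣ}

variable (O S A) in
/-- Equal groups give the same module. -/
def congrH (hK : K = K') : HomMod O S K A ≃ₗ[OpRing O N S] HomMod O S K' A :=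
  hK ▸ LinearEquiv.refl _ _

variable (O S) in
/-- `T_n` as a map of the module over the operators. -/
def heckeH (n : ℕ) [Fact n.Prime] : Module.End O (HomMod O S K A) :=
  ((toHomMod (O := O) (S := S) (K := K) (A := A)).toLinearMap.comp
    (hecke N K n O)).comp (toHomMod (O := O) (S := S) (K := K) (A := A)).symm.toLinearMap

theorem heckeH_smul (n : ℕ) [Fact n.Prime] (a : OpRing O N S) (φ : HomMod O S K A) :
    heckeH O S n (a • φ) = a • heckeH O S n φ := by
  induction a using MvPolynomial.induction_on generalizing φ with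
  | C c => rw [← algebraMap_eq, algebraMap_smul, algebraMap_smul, map_smul]
  | add a b ha hb => rw [add_smul, map_add, ha, hb, add_smul]
  | mul_X a i ih =>
    rw [mul_smul, ih, mul_smul]
    congr 1
    rcases i with u | ℓ
    · rw [X_inl_smul, X_inl_smul]
      exact hecke_diamond (M := N) (K := K) O u φ
    · have : Fact ℓ.1.Prime := ⟨ℓ.2.1⟩
      rw [X_inr_smul, X_inr_smul]
      exact hecke_comm (M := N) (K := K) O n φ

theorem congrH_heckeH (hK : K = K') (n : ℕ) [Fact n.Prime] (φ : HomMod O S K A) :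
    congrH O S A hK (heckeH O S n φ) = heckeH O S n (congrH O S A hK φ) := by
  subst hK
  rfl

variable (O S) in
/-- `(n + 1) ^ 2 - T_n ^ 2`. -/
def crossDet (n : ℕ) [Fact n.Prime] : Module.End O (HomMod O S K A) :=
  ((n : O) + 1) ^ 2 • 1 - heckeH O S n * heckeH O S n

theorem crossDet_apply (n : ℕ) [Fact n.Prime] (φ : HomMod O S K A) :
    crossDet O S n φ = ((n : O) + 1) ^ 2 • φ - heckeH O S n (heckeH O S n φ) := rfl

variable [IsDomain O] [IsDiscreteValuationRing O] [IsAdicComplete (maximalIdeal O) O] [NeZero N]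
  {abar : ℕ → ResidueField O}

theorem congrH_mem_locSub (hK : K = K') {x : HomMod O S K O} (hx : x ∈ locSub O S abar K) :
    congrH O S O hK x ∈ locSub O S abar K' := by
  subst hK
  exact hx

theorem heckeH_mem_locSub (n : ℕ) [Fact n.Prime] {x : HomMod O S K O}
    (hx : x ∈ locSub O S abar K) : heckeH O S n x ∈ locSub O S abar K :=
  map_mem_locSub (σ := AlgHom.id O _) Function.surjective_id (fun _ => rfl) (heckeH O S n)
    (heckeH_smul n) hx

theorem crossDet_mem_locSub (n : ℕ) [Fact n.Prime] {x : HomMod O S K O}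
    (hx : x ∈ locSub O S abar K) : crossDet O S n x ∈ locSub O S abar K :=
  sub_mem (Submodule.smul_mem _ _ hx) (heckeH_mem_locSub n (heckeH_mem_locSub n hx))

/-- A surjective `(n + 1) ^ 2 - T_n ^ 2` is injective. -/
theorem eq_zero_of_crossDet (n : ℕ) [Fact n.Prime]
    (hdet : ∀ x ∈ locSub O S abar K, ∃ y ∈ locSub O S abar K, crossDet O S n y = x)
    {x : HomMod O S K O} (hx : x ∈ locSub O S abar K) (h0 : crossDet O S n x = 0) : x = 0 := by
  let D : Module.End O (locSub O S abar K) :=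
    (crossDet O S n).restrict fun _ h => crossDet_mem_locSub n h
  have hD : Function.Surjective D := fun z => by
    obtain ⟨y, hy, hyz⟩ := hdet z.1 z.2
    exact ⟨⟨y, hy⟩, Subtype.ext hyz⟩
  have h1 : D ⟨x, hx⟩ = D 0 := by
    rw [map_zero]
    exact Subtype.ext h0
  exact congrArg Subtype.val (OrzechProperty.injective_of_surjective_endomorphism D hD h1)

/-- An operator of residue `a` with `a ^ 2 ≠ (n + 1) ^ 2` which is `T_n` on the localised part
makes `(n + 1) ^ 2 - T_n ^ 2` surjective there. -/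
theorem crossDet_surjOn_of_op (n : ℕ) [Fact n.Prime] (t : OpRing O N S)
    (ht : ∀ x ∈ locSub O S abar K, heckeH O S n x = t • x)
    (ha : opRes S abar N t ^ 2 ≠ ((n : ResidueField O) + 1) ^ 2) :
    ∀ x ∈ locSub O S abar K, ∃ y ∈ locSub O S abar K, crossDet O S n y = x := by
  intro x hx
  set c : O := ((n : O) + 1) ^ 2
  have hc : algebraMap O (OpRing O N S) c - t * t ∉ resIdeal S abar N := by
    rw [mem_resIdeal, map_sub, map_mul, AlgHom.commutes, ResidueField.algebraMap_eq, sub_eq_zero,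
      ← pow_two, map_pow, map_add, map_natCast, map_one]
    exact Ne.symm ha
  obtain ⟨t', ht'⟩ := (isLocalizer_locElt O S abar K).invert _ hc
  have hy : t' • x ∈ locSub O S abar K := smul_mem_locSub t' hx
  refine ⟨t' • x, hy, ?_⟩
  have hx' : locElt O S abar K • x = x := hx
  rw [crossDet_apply, ht _ hy, ht _ (smul_mem_locSub t hy), ← algebraMap_smul (OpRing O N S) c,
    ← mul_smul t, ← sub_smul]
  have h1 := ht' x
  rwa [mul_smul, hx', mul_smul] at h1

end Ops

section Step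

variable {M q : ℕ} (h : RaiseData q M)

variable (O S) in
/-- The two degeneracy maps to `Γ₀(M q)`. -/
def degTop : HomMod O S (⊤ : Subgroup (ZMod M)ˣ) A × HomMod O S (⊤ : Subgroup (ZMod M)ˣ) A →ₗ[O]
    HomMod O S (⊤ : Subgroup (ZMod (M * q))ˣ) A :=
  ((congrH O S A (liftSub_top (M := M) (q := q))).restrictScalars O).toLinearMap ∘ₗ
    degH O S h ⊤ 0

variable (O S) in
/-- The two corestrictions to `Γ₀(M)`. -/
def starTop : HomMod O S (⊤ : Subgroup (ZMod (M * q))ˣ) A →ₗ[O]
    HomMod O S (⊤ : Subgroup (ZMod M)ˣ) A × HomMod O S (⊤ : Subgroup (ZMod M)ˣ) A :=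
  degStarH O S h ⊤ 0 ∘ₗ
    ((congrH O S A (liftSub_top (M := M) (q := q))).symm.restrictScalars O).toLinearMap

theorem degTop_smul (hq : q ∈ S) (a : OpRing O (M * q) S)
    (φ : HomMod O S (⊤ : Subgroup (ZMod M)ˣ) A × HomMod O S (⊤ : Subgroup (ZMod M)ˣ) A) :
    degTop O S h (lowerOp O M q S a • φ) = a • degTop O S h φ := by
  show congrH O S A (liftSub_top (M := M) (q := q)) (degH O S h ⊤ 0 _) = _
  rw [degH_smul h hq, map_smul]
  rfl

theorem starTop_smul (hq : q ∈ S) (a : OpRing O (M * q) S)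
    (x : HomMod O S (⊤ : Subgroup (ZMod (M * q))ˣ) A) :
    starTop O S h (a • x) = lowerOp O M q S a • starTop O S h x := by
  show degStarH O S h ⊤ 0 ((congrH O S A (liftSub_top (M := M) (q := q))).symm (a • x)) = _
  rw [map_smul, degStarH_smul h hq]
  rfl

theorem heckeH_degTop {n : ℕ} [Fact n.Prime] (hnq : n ≠ q)
    (φ : HomMod O S (⊤ : Subgroup (ZMod M)ˣ) A × HomMod O S (⊤ : Subgroup (ZMod M)ˣ) A) :
    heckeH O S n (degTop O S h φ) = degTop O S h (heckeH O S n φ.1, heckeH O S n φ.2) := by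
  show heckeH O S n (congrH O S A (liftSub_top (M := M) (q := q)) (degH O S h ⊤ 0 φ)) = congrH O S A (liftSub_top (M := M) (q := q)) _
  rw [← congrH_heckeH]
  exact congrArg _ (hecke_degMap h O hnq 0 φ)

theorem starTop_degTop [Fact q.Prime]
    (φ : HomMod O S (⊤ : Subgroup (ZMod M)ˣ) A × HomMod O S (⊤ : Subgroup (ZMod M)ˣ) A) :
    starTop O S h (degTop O S h φ) =
      (((q : O) + 1) • φ.1 + heckeH O S q φ.2, heckeH O S q φ.1 + ((q : O) + 1) • φ.2) := by
  show degStarH O S h ⊤ 0 ((congrH O S A (liftSub_top (M := M) (q := q))).symm (congrH O S A (liftSub_top (M := M) (q := q)) (degH O S h ⊤ 0 φ))) = _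
  rw [LinearEquiv.symm_apply_apply, ← Nat.cast_one, ← Nat.cast_add, Nat.cast_smul_eq_nsmul,
    Nat.cast_smul_eq_nsmul]
  refine (degStar_degMap h O (e := 0) (Subgroup.mem_top _) φ).trans ?_
  simp only [symT, Module.End.mul_apply, diamond_top]
  rfl

variable [IsDomain O] [IsDiscreteValuationRing O] [IsAdicComplete (maximalIdeal O) O]
  [NeZero M] [NeZero (M * q)] {abar : ℕ → ResidueField O}

theorem degTop_mem_locSub (hq : q ∈ S)
    {φ : HomMod O S (⊤ : Subgroup (ZMod M)ˣ) O × HomMod O S (⊤ : Subgroup (ZMod M)ˣ) O}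
    (h1 : φ.1 ∈ locSub O S abar (⊤ : Subgroup (ZMod M)ˣ))
    (h2 : φ.2 ∈ locSub O S abar (⊤ : Subgroup (ZMod M)ˣ)) :
    degTop O S h φ ∈ locSub O S abar (⊤ : Subgroup (ZMod (M * q))ˣ) := by
  rw [show φ = (φ.1, 0) + (0, φ.2) by simp, map_add]
  refine add_mem
    (map_mem_locSub' lowerOp_surjective opRes_lowerOp (fun x => degTop O S h (x, 0))
      (fun a x => ?_) h1)
    (map_mem_locSub' lowerOp_surjective opRes_lowerOp (fun x => degTop O S h (0, x))
      (fun a x => ?_) h2) <;>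
  rw [← degTop_smul h hq, Prod.smul_mk, smul_zero]

theorem starTop_mem_locSub (hq : q ∈ S) {x : HomMod O S (⊤ : Subgroup (ZMod (M * q))ˣ) O}
    (hx : x ∈ locSub O S abar (⊤ : Subgroup (ZMod (M * q))ˣ)) :
    (starTop O S h x).1 ∈ locSub O S abar (⊤ : Subgroup (ZMod M)ˣ) ∧
      (starTop O S h x).2 ∈ locSub O S abar (⊤ : Subgroup (ZMod M)ˣ) :=
  ⟨map_mem_locSub lowerOp_surjective opRes_lowerOp (fun x => (starTop O S h x).1)
      (fun a x => by rw [starTop_smul h hq]; rfl) hx,
    map_mem_locSub lowerOp_surjective opRes_lowerOp (fun x => (starTop O S h x).2)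
      (fun a x => by rw [starTop_smul h hq]; rfl) hx⟩

variable [Fact q.Prime]
  (hdet : ∀ x ∈ locSub O S abar (⊤ : Subgroup (ZMod M)ˣ),
    ∃ y ∈ locSub O S abar (⊤ : Subgroup (ZMod M)ˣ), crossDet O S q y = x)

include hdet

omit [NeZero (M * q)] in
theorem eq_zero_of_degTop
    {φ : HomMod O S (⊤ : Subgroup (ZMod M)ˣ) O × HomMod O S (⊤ : Subgroup (ZMod M)ˣ) O}
    (h1 : φ.1 ∈ locSub O S abar (⊤ : Subgroup (ZMod M)ˣ))
    (h2 : φ.2 ∈ locSub O S abar (⊤ : Subgroup (ZMod M)ˣ)) (h0 : degTop O S h φ = 0) : φ = 0 := by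
  have hs := starTop_degTop h φ
  rw [h0, map_zero, eq_comm, Prod.mk_eq_zero] at hs
  obtain ⟨e1, e2⟩ := hs
  set c : O := (q : O) + 1
  set T : Module.End O (HomMod O S (⊤ : Subgroup (ZMod M)ˣ) O) := heckeH O S q
  have k1 : crossDet O S q φ.1 = c • (c • φ.1 + T φ.2) - T (T φ.1 + c • φ.2) := by
    rw [crossDet_apply, smul_add, map_add, map_smul, pow_two, mul_smul]
    abel
  have k2 : crossDet O S q φ.2 = c • (T φ.1 + c • φ.2) - T (c • φ.1 + T φ.2) := by
    rw [crossDet_apply, smul_add, map_add, map_smul, pow_two, mul_smul]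
    abel
  rw [e1, e2, smul_zero, map_zero, sub_zero] at k1 k2
  exact Prod.ext (eq_zero_of_crossDet q hdet h1 k1) (eq_zero_of_crossDet q hdet h2 k2)

/-- The localised part of level `M q` is old at `q`. -/
theorem exists_degTop_eq (hq : q ∈ S)
    (hnew : ∀ x ∈ locSub O S abar (⊤ : Subgroup (ZMod (M * q))ˣ), starTop O S h x = 0 → x = 0)
    {x : HomMod O S (⊤ : Subgroup (ZMod (M * q))ˣ) O}
    (hx : x ∈ locSub O S abar (⊤ : Subgroup (ZMod (M * q))ˣ)) :
    ∃ φ₁ ∈ locSub O S abar (⊤ : Subgroup (ZMod M)ˣ),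
      ∃ φ₂ ∈ locSub O S abar (⊤ : Subgroup (ZMod M)ˣ), degTop O S h (φ₁, φ₂) = x := by
  obtain ⟨hw1, hw2⟩ := starTop_mem_locSub h hq hx
  obtain ⟨z₁, hz1, e1⟩ := hdet _ hw1
  obtain ⟨z₂, hz2, e2⟩ := hdet _ hw2
  set c : O := (q : O) + 1
  set T : Module.End O (HomMod O S (⊤ : Subgroup (ZMod M)ˣ) O) := heckeH O S q
  have hu1 := sub_mem (Submodule.smul_mem _ c hz1) (heckeH_mem_locSub q hz2)
  have hu2 := sub_mem (Submodule.smul_mem _ c hz2) (heckeH_mem_locSub q hz1)
  refine ⟨_, hu1, _, hu2, (sub_eq_zero.1 (hnew _ (sub_mem hx (degTop_mem_locSub h hq hu1 hu2))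
    ?_)).symm⟩
  rw [map_sub, starTop_degTop, sub_eq_zero]
  refine Prod.ext (e1.symm.trans ?_) (e2.symm.trans ?_) <;>
  · show crossDet O S q _ = _
    simp only [crossDet_apply, map_sub, map_smul, smul_sub, pow_two, mul_smul]
    abel

end Step

section Iterate

variable [IsDomain O] [IsDiscreteValuationRing O] [IsAdicComplete (maximalIdeal O) O]

/-- `2 ^ r` copies of the localised part of `Γ₀(L₀)` make up that of `Γ₀(N)`. -/
structure OldIso (O : Type) [CommRing O] [IsDomain O] [IsDiscreteValuationRing O]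
    [IsAdicComplete (maximalIdeal O) O] (S : Finset ℕ) (abar : ℕ → ResidueField O) {L₀ N : ℕ}
    [NeZero L₀] [NeZero N] (hd : L₀ ∣ N) (Q : Finset ℕ) where
  deg : (Fin (2 ^ Q.card) → HomMod O S (⊤ : Subgroup (ZMod L₀)ˣ) O) →ₗ[O]
    HomMod O S (⊤ : Subgroup (ZMod N)ˣ) O
  deg_smul : ∀ (a : OpRing O N S) v, deg (lowerTo O S hd a • v) = a • deg v
  deg_hecke : ∀ (n : ℕ) [Fact n.Prime], n ∉ Q →
    ∀ v, heckeH O S n (deg v) = deg fun i => heckeH O S n (v i)
  deg_mem : ∀ v, (∀ i, v i ∈ locSub O S abar (⊤ : Subgroup (ZMod L₀)ˣ)) →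
    deg v ∈ locSub O S abar (⊤ : Subgroup (ZMod N)ˣ)
  deg_eq_zero : ∀ v, (∀ i, v i ∈ locSub O S abar (⊤ : Subgroup (ZMod L₀)ˣ)) →
    deg v = 0 → v = 0
  deg_surj : ∀ x ∈ locSub O S abar (⊤ : Subgroup (ZMod N)ˣ),
    ∃ v, (∀ i, v i ∈ locSub O S abar (⊤ : Subgroup (ZMod L₀)ˣ)) ∧ deg v = x

variable {abar : ℕ → ResidueField O} {L₀ N : ℕ} [NeZero L₀] [NeZero N]

/-- The isomorphism of the localised parts. -/
def OldIso.equiv {hd : L₀ ∣ N} {Q : Finset ℕ} (P : OldIso O S abar hd Q) :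
    (Fin (2 ^ Q.card) → locSub O S abar (⊤ : Subgroup (ZMod L₀)ˣ)) ≃ₗ[O]
      locSub O S abar (⊤ : Subgroup (ZMod N)ˣ) :=
  LinearEquiv.ofBijective
    ((P.deg ∘ₗ LinearMap.pi fun i => (Submodule.subtype _) ∘ₗ LinearMap.proj i).codRestrict
      (locSub O S abar (⊤ : Subgroup (ZMod N)ˣ)) fun v => P.deg_mem _ fun i => (v i).2)
    ⟨(injective_iff_map_eq_zero _).2 fun v hv => funext fun i => Subtype.ext
        (congrFun (P.deg_eq_zero _ (fun i => (v i).2) (congrArg Subtype.val hv)) i),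
      fun x => by
        obtain ⟨v, hv, hvx⟩ := P.deg_surj x.1 x.2
        exact ⟨fun i => ⟨v i, hv i⟩, Subtype.ext hvx⟩⟩

theorem OldIso.equiv_apply {hd : L₀ ∣ N} {Q : Finset ℕ} (P : OldIso O S abar hd Q)
    (v : Fin (2 ^ Q.card) → locSub O S abar (⊤ : Subgroup (ZMod L₀)ˣ)) :
    (P.equiv v : HomMod O S (⊤ : Subgroup (ZMod N)ˣ) O) = P.deg fun i => (v i).1 := rfl

theorem OldIso.finrank_eq {hd : L₀ ∣ N} {Q : Finset ℕ} (P : OldIso O S abar hd Q) :
    Module.finrank O (locSub O S abar (⊤ : Subgroup (ZMod N)ˣ)) =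
      2 ^ Q.card * Module.finrank O (locSub O S abar (⊤ : Subgroup (ZMod L₀)ˣ)) := by
  rw [← P.equiv.finrank_eq, Module.finrank_pi_fintype]
  simp

/-- **The localised part is old at the auxiliary primes.** -/
theorem exists_oldIso (Q : Finset ℕ) (hQ : ∀ q ∈ Q, q.Prime ∧ ¬ q ∣ L₀ ∧ q ∈ S)
    (hN : N = L₀ * ∏ q ∈ Q, q) (hd : L₀ ∣ N)
    (hdet : ∀ q ∈ Q, ∀ [Fact q.Prime], ∀ x ∈ locSub O S abar (⊤ : Subgroup (ZMod L₀)ˣ),
      ∃ y ∈ locSub O S abar (⊤ : Subgroup (ZMod L₀)ˣ), crossDet O S q y = x)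
    (hnew : ∀ q ∈ Q, ∀ (M : ℕ) [NeZero M] [NeZero (M * q)] [Fact q.Prime] (h : RaiseData q M),
      L₀ ∣ M → M * q ∣ N →
      (∀ x ∈ locSub O S abar (⊤ : Subgroup (ZMod M)ˣ),
        ∃ y ∈ locSub O S abar (⊤ : Subgroup (ZMod M)ˣ), crossDet O S q y = x) →
      ∀ x ∈ locSub O S abar (⊤ : Subgroup (ZMod (M * q))ˣ), starTop O S h x = 0 → x = 0) :
    Nonempty (OldIso O S abar hd Q) := by
  classical
  induction Q using Finset.induction generalizing N with
  | empty =>
    rw [Finset.prod_empty, mul_one] at hN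
    subst hN
    exact ⟨{
      deg := LinearMap.proj 0
      deg_smul := fun a v => by rw [lowerTo_self]; rfl
      deg_hecke := fun n _ _ v => rfl
      deg_mem := fun v hv => hv _
      deg_eq_zero := fun v _ h0 => funext fun i => by
        have hi : i = 0 := by
          ext
          have := i.2
          simp only [Finset.card_empty, pow_zero] at this
          simp only [Fin.val_zero]
          omega
        subst hi
        exact h0
      deg_surj := fun x hx => ⟨fun _ => x, fun _ => hx, rfl⟩ }⟩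
  | @insert q T hqT ih =>
    obtain ⟨hq, hqL, hqS⟩ := hQ q (Finset.mem_insert_self q T)
    have hTp : ∀ q' ∈ T, q'.Prime ∧ ¬ q' ∣ L₀ ∧ q' ∈ S := fun q' h' =>
      hQ q' (Finset.mem_insert_of_mem h')
    set M := L₀ * ∏ q ∈ T, q with hM
    obtain rfl : N = M * q := by rw [hN, Finset.prod_insert hqT, hM]; ring
    have hqM : ¬ q ∣ M := fun hd' => (hq.dvd_mul.1 hd').elim hqL fun h' => by
      obtain ⟨q', hq', hqq'⟩ := (Nat.prime_iff.1 hq).exists_mem_finset_dvd h'
      exact hqT ((Nat.prime_dvd_prime_iff_eq hq (hTp q' hq').1).1 hqq' ▸ hq')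
    have h : RaiseData q M := (⟨hq, rfl, hqM⟩ : ALLevel (M * q) q M).raise
    have : NeZero M := ⟨h.level_ne_zero⟩
    have hdM : L₀ ∣ M := dvd_mul_right L₀ _
    obtain ⟨P⟩ := ih hTp rfl hdM (fun q' h' => hdet q' (Finset.mem_insert_of_mem h'))
      fun q' h' M' _ _ _ hr hL hN' hu =>
        hnew q' (Finset.mem_insert_of_mem h') M' hr hL (hN'.mul_right q) hu
    have : Fact q.Prime := ⟨hq⟩
    have hdetM : ∀ x ∈ locSub O S abar (⊤ : Subgroup (ZMod M)ˣ),
        ∃ y ∈ locSub O S abar (⊤ : Subgroup (ZMod M)ˣ), crossDet O S q y = x := fun x hx => by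
      obtain ⟨v, hv, rfl⟩ := P.deg_surj x hx
      choose w hw hwv using fun i => hdet q (Finset.mem_insert_self q T) (v i) (hv i)
      refine ⟨P.deg w, P.deg_mem w hw, ?_⟩
      rw [crossDet_apply, P.deg_hecke q hqT, P.deg_hecke q hqT, ← map_smul, ← map_sub]
      exact congrArg P.deg (funext hwv)
    have hcard : 2 ^ T.card + 2 ^ T.card = 2 ^ (insert q T).card := by
      rw [Finset.card_insert_of_notMem hqT, pow_succ]; ring
    let l : Fin (2 ^ T.card) → Fin (2 ^ (insert q T).card) := fun i =>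
      Fin.cast hcard (Fin.castAdd _ i)
    let r : Fin (2 ^ T.card) → Fin (2 ^ (insert q T).card) := fun i =>
      Fin.cast hcard (Fin.natAdd _ i)
    have hcases : ∀ j, (∃ i, j = l i) ∨ ∃ i, j = r i := fun j => by
      obtain ⟨j, rfl⟩ : ∃ j', Fin.cast hcard j' = j := ⟨Fin.cast hcard.symm j, by simp⟩
      induction j using Fin.addCases with
      | left i => exact Or.inl ⟨i, rfl⟩
      | right i => exact Or.inr ⟨i, rfl⟩
    refine ⟨{
      deg := degTop O S h ∘ₗ (P.deg ∘ₗ LinearMap.funLeft O _ l).prod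
        (P.deg ∘ₗ LinearMap.funLeft O _ r)
      deg_smul := fun a v => ?_
      deg_hecke := fun n _ hn v => ?_
      deg_mem := fun v hv => degTop_mem_locSub h hqS (P.deg_mem _ fun _ => hv _)
        (P.deg_mem _ fun _ => hv _)
      deg_eq_zero := fun v hv h0 => ?_
      deg_surj := fun x hx => ?_ }⟩
    · show degTop O S h (P.deg _, P.deg _) = a • degTop O S h (P.deg _, P.deg _)
      rw [← degTop_smul h hqS, Prod.smul_mk, ← P.deg_smul, ← P.deg_smul, lowerTo_lowerOp hdM]
      rfl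
    · rw [Finset.mem_insert, not_or] at hn
      show heckeH O S n (degTop O S h (P.deg _, P.deg _)) = degTop O S h (P.deg _, P.deg _)
      rw [heckeH_degTop h hn.1, P.deg_hecke n hn.2, P.deg_hecke n hn.2]
      rfl
    · obtain ⟨e1, e2⟩ := Prod.mk_eq_zero.1 (eq_zero_of_degTop h hdetM
        (φ := (P.deg (v ∘ l), P.deg (v ∘ r))) (P.deg_mem _ fun _ => hv _)
        (P.deg_mem _ fun _ => hv _) h0)
      have f1 := P.deg_eq_zero _ (fun _ => hv _) e1
      have f2 := P.deg_eq_zero _ (fun _ => hv _) e2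
      refine funext fun j => ?_
      rcases hcases j with ⟨i, rfl⟩ | ⟨i, rfl⟩
      exacts [congrFun f1 i, congrFun f2 i]
    · obtain ⟨φ₁, h1, φ₂, h2, rfl⟩ := exists_degTop_eq h hdetM hqS
        (hnew q (Finset.mem_insert_self q T) M h hdM (dvd_refl _) hdetM) hx
      obtain ⟨v₁, hv1, rfl⟩ := P.deg_surj φ₁ h1
      obtain ⟨v₂, hv2, rfl⟩ := P.deg_surj φ₂ h2
      have hl : ∀ i, Fin.append v₁ v₂ (Fin.cast hcard.symm (l i)) = v₁ i := fun i => by
        rw [show Fin.cast hcard.symm (l i) = Fin.castAdd _ i from Fin.ext rfl, Fin.append_left]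
      have hr : ∀ i, Fin.append v₁ v₂ (Fin.cast hcard.symm (r i)) = v₂ i := fun i => by
        rw [show Fin.cast hcard.symm (r i) = Fin.natAdd _ i from Fin.ext rfl, Fin.append_right]
      refine ⟨fun j => Fin.append v₁ v₂ (Fin.cast hcard.symm j), fun j => ?_, ?_⟩
      · rcases hcases j with ⟨i, rfl⟩ | ⟨i, rfl⟩
        · simp only [hl]; exact hv1 i
        · simp only [hr]; exact hv2 i
      · show degTop O S h (P.deg _, P.deg _) = _
        congr 2 <;> refine congrArg P.deg (funext fun i => ?_)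
        exacts [hl i, hr i]

end Iterate

end Fermat.Agent.Lifting.Degeneracy
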