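import Fermat.Agent.Lifting.Degeneracy.TraceAtQ
import Fermat.Agent.Lifting.Degeneracy.OldIso
import Fermat.Agent.Lifting.Setup.Algebra
import Fermat.Agent.Lifting.Eigen.Degeneracy
import Fermat.Agent.Lifting.Module.Parabolic
import Fermat.Agent.RT.GammaH.Eigen
import Fermat.Agent.RT.Glue.Points

/-!
# `T_q` on the localised part is the trace of Frobenius at `q`

For `q` not dividing the squarefree level times `p`, `T_q` is the element `trace ρ(Frob q)` of the
Hecke algebra of the level: both have the value `a_q(g)` on every system.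
-/

set_option autoImplicit false
set_option linter.overlappingInstances false
set_option linter.style.haveILetI false

noncomputable section

open CongruenceSubgroup ModularFormClass MvPolynomial IsLocalRing
open ModularCurve.Period

namespace Fermat.Agent.Lifting.Degeneracy

open Fermat.Agent.RT.GammaH
open Fermat.Agent.RT.Glue (KBar nonempty_ringEquiv_complex)

/-- A finite local algebra is local over its base. -/
theorem isLocalHom_of_finite (O : Type) [CommRing O] [IsLocalRing O] (T : Type) [CommRing T]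
    [IsLocalRing T] [Algebra O T] [_root_.Module.Finite O T] : IsLocalHom (algebraMap O T) where
  map_nonunit c hc := by
    by_contra h
    have hmax : ((maximalIdeal T).comap (algebraMap O T)).IsMaximal :=
      Ideal.isMaximal_comap_of_isIntegral_of_isMaximal (R := O) _
    have hcm : c ∈ (maximalIdeal T).comap (algebraMap O T) := by
      rw [eq_maximalIdeal hmax]
      exact h
    exact (mem_maximalIdeal _).1 (Ideal.mem_comap.1 hcm) hc

variable {O : Type} [CommRing O] [IsDomain O] [IsDiscreteValuationRing O]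
  [IsAdicComplete (maximalIdeal O) O] {L e : ℕ} [NeZero L] {S : Finset ℕ}
  {abar : ℕ → ResidueField O} (hK : TwistSub L (⊤ : Subgroup (ZMod L)ˣ) e) (eps : ℕ → O)

variable (S abar) in
/-- The operators of `Γ₀(L)` in the algebra of the level. -/
def toLevelT : OpRing O L S →ₐ[O] levelT S abar hK ∅ eps :=
  aeval (Sum.elim (fun _ => 1) fun ℓ => levelOp S abar hK ∅ eps ℓ.1)

variable (hS : ∀ v : ℕ, v.Prime → v ∣ L → v ∈ S)

include hS

theorem toLevelT_apply (a : OpRing O L S) (x : wEigen S abar hK ∅ eps) :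
    ((toLevelT S abar hK eps a : _root_.Module.End O (wEigen S abar hK ∅ eps)) x :
      HomMod O S (⊤ : Subgroup (ZMod L)ˣ) O) = a • (x : HomMod O S _ O) := by
  induction a using MvPolynomial.induction_on generalizing x with
  | C c =>
    rw [← algebraMap_eq, AlgHom.commutes, algebraMap_smul]
    rfl
  | add a b ha hb =>
    rw [map_add, add_smul, ← ha, ← hb]
    rfl
  | mul_X a i ih =>
    rw [map_mul, mul_smul]
    show ((toLevelT S abar hK eps a : _root_.Module.End O (wEigen S abar hK ∅ eps))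
      ((toLevelT S abar hK eps (X i) : _root_.Module.End O (wEigen S abar hK ∅ eps)) x) :
        HomMod O S (⊤ : Subgroup (ZMod L)ˣ) O) = _
    rw [ih]
    congr 1
    rw [toLevelT, aeval_X]
    rcases i with u | ℓ
    · rw [Sum.elim_inl, X_inl_smul]
      exact (diamond_top O u _).symm
    · have : Fact ℓ.1.Prime := ⟨ℓ.2.1⟩
      have hℓL : ℓ.1.Coprime L :=
        ℓ.2.1.coprime_iff_not_dvd.2 fun h => ℓ.2.2 (hS _ ℓ.2.1 h)
      rw [Sum.elim_inr, coe_levelOp S abar hK ∅ eps ℓ.2.1 ℓ.2.2 hℓL, coe_twAct, twEl, mul_smul,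
        X_inl_smul]
      exact diamond_top O _ _

theorem toLevelT_surjective : Function.Surjective (toLevelT S abar hK eps) := by
  refine (AlgHom.range_eq_top _).mp (top_le_iff.mp ?_)
  rw [← adjoin_levelOp S abar hK ∅ eps hS]
  refine Algebra.adjoin_le ?_
  rintro _ ⟨ℓ, hℓ, rfl⟩
  exact ⟨X (Sum.inr ⟨ℓ, hℓ⟩), by simp [toLevelT]⟩

variable [Finite (ResidueField O)] [CharZero O] {p : ℕ} [Fact p.Prime]
  (hp : (p : O) ∈ maximalIdeal O) (hsq : Squarefree L)
  (hEis : ∃ ℓ : ℕ, ℓ.Prime ∧ ℓ ∉ S ∧ abar ℓ ≠ 1 + (ℓ : ResidueField O))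
  [IsLocalRing (levelT S abar hK ∅ eps)] (ρ : GaloisRepAdic (levelT S abar hK ∅ eps))
  (htr : ∀ ℓ : ℕ, ℓ.Prime → ℓ ∉ S → ∀ P : ValuationSubring (AlgebraicClosure ℚ),
    P.LiesOverPrime ℓ → ∀ σ : Deform.Gal, P.IsFrobeniusAt σ ℓ →
      ρ.trace σ = levelOp S abar hK ∅ eps ℓ)
  {q : ℕ} [Fact q.Prime] (hqL : ¬ q ∣ L) (hqp : q ≠ p)
  {A : ValuationSubring (AlgebraicClosure ℚ)} (hA : A.LiesOverPrime q)
  {σ : Deform.Gal} (hσ : A.IsFrobeniusAt σ q)

include hp hsq hEis htr hqL hqp hA hσ

/-- **`T_q` is the trace of Frobenius at `q`.** -/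
theorem heckeH_eq_trace (x : wEigen S abar hK ∅ eps) :
    heckeH O S q (x : HomMod O S (⊤ : Subgroup (ZMod L)ˣ) O) =
      ((ρ.trace σ : _root_.Module.End O (wEigen S abar hK ∅ eps)) x :
        HomMod O S (⊤ : Subgroup (ZMod L)ˣ) O) := by
  classical
  set K : Subgroup (ZMod L)ˣ := ⊤
  obtain ⟨a, ha⟩ := toLevelT_surjective hK eps hS (ρ.trace σ)
  rw [← ha, toLevelT_apply hK eps hS]
  obtain ⟨ι₀⟩ := GaloisReps.exists_padicHom O hp
  obtain ⟨E⟩ := nonempty_ringEquiv_complex O ι₀
  letI : Algebra O ℂ := (E.toRingHom.comp (algebraMap O (KBar O))).toAlgebra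
  have hinj : Function.Injective (algebraMap O ℂ) :=
    E.injective.comp ((algebraMap (FractionRing O) (AlgebraicClosure (FractionRing O))).injective.comp
      (IsFractionRing.injective O (FractionRing O)))
  set e₀ := locElt O S abar K
  have he := isLocalizer_locElt O S abar K
  have hneg : -1 ∈ K := Subgroup.mem_top _
  have hodd : Odd (Nat.card ((ZMod L)ˣ ⧸ K)) := by
    rw [← Subgroup.index_eq_card, Subgroup.index_top]
    exact odd_one
  refine toHomC_injective hinj ?_
  rw [toHomC_smul, show toHomC (heckeH O S q (x : HomMod O S K O)) =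
    hecke L K q ℂ (toHomC (x : HomMod O S K O)) from
      (opOf_comp_coeff (R := O) (S := ℂ) (admissible_hRep (n := q) (M := L) (K := K))
        (algebraMap O ℂ).toAddMonoidHom _).symm]
  let U : Submodule ℂ (HomC K) := LinearMap.eqLocus (opC O S K e₀) LinearMap.id
  have hxU : toHomC (x : HomMod O S K O) ∈ U := by
    show opC O S K e₀ _ = _
    rw [← toHomC_smul, show e₀ • (x : HomMod O S K O) = x from x.2.1]
    rfl
  have hUpar : U ≤ parabolicHoms ℂ (gammaH L K) ℂ := fun z hz =>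
    Module.mem_parabolicHoms_of_localizer hsq hneg hS hEis he hz
  have hUinv : ∀ a : OpRing O L S, ∀ z ∈ U, opC O S K a z ∈ U := fun a z hz => by
    show opC O S K e₀ (opC O S K a z) = opC O S K a z
    rw [← _root_.Module.End.mul_apply, ← map_mul, mul_comm e₀ a, map_mul,
      _root_.Module.End.mul_apply, show opC O S K e₀ z = z from hz]
  have hfdP := finiteDimensional_parabolicHoms (M := L) hneg
  have hfdU : FiniteDimensional ℂ U := Submodule.finiteDimensional_of_le hUpar
  let B : {ℓ : ℕ // ℓ.Prime ∧ ℓ ∉ S} → _root_.Module.End ℂ U := fun s =>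
    (opC O S K (X (Sum.inr s))).restrict (hUinv (X (Sum.inr s)))
  have hB : ∀ s (z : U), (B s z : HomC K) = opC O S K (X (Sum.inr s)) z := fun _ _ => rfl
  have htop := _root_.Module.End.iSup_iInf_maxGenEigenspace_eq_top_of_forall_mapsTo B
    (fun i j μ => _root_.Module.End.mapsTo_maxGenEigenspace_of_comm (LinearMap.ext fun z =>
      Subtype.ext (by
        simp only [_root_.Module.End.mul_apply, hB]
        rw [← _root_.Module.End.mul_apply, ← map_mul, mul_comm (X (Sum.inr j) : OpRing O L S),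
          map_mul, _root_.Module.End.mul_apply])) μ)
    fun i => _root_.Module.End.iSup_maxGenEigenspace_eq_top (B i)
  suffices hkey : ∀ z : U, hecke L K q ℂ (z : HomC K) = opC O S K a z from hkey ⟨_, hxU⟩
  intro z
  refine Submodule.iSup_induction _
    (motive := fun z : U => hecke L K q ℂ (z : HomC K) = opC O S K a z)
    (htop.symm ▸ Submodule.mem_top : z ∈ ⨆ lam : {ℓ : ℕ // ℓ.Prime ∧ ℓ ∉ S} → ℂ,
      ⨅ s, (B s).maxGenEigenspace (lam s)) (fun lam ψ hψ => ?_)
    (by rw [Submodule.coe_zero, map_zero, map_zero])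
    fun y z hy hz => by rw [Submodule.coe_add, map_add, map_add, hy, hz]
  rcases eq_or_ne ψ 0 with rfl | hψ0
  · rw [Submodule.coe_zero, map_zero, map_zero]
  rw [Submodule.mem_iInf] at hψ
  have heig : ∀ s, opC O S K (X (Sum.inr s)) (ψ : HomC K) = lam s • (ψ : HomC K) := fun s => by
    obtain ⟨n, hn⟩ := (_root_.Module.End.mem_maxGenEigenspace _ _ _).1 (hψ s)
    set T := opPar hneg (X (Sum.inr s) : OpRing O L S)
    set ψ' : parabolicHoms ℂ (gammaH L K) ℂ := ⟨_, hUpar ψ.2⟩
    have hpow : ∀ (m : ℕ) (y : U), ((((B s - lam s • 1) ^ m) y : U) : HomC K) =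
        (((T - lam s • 1) ^ m) ⟨_, hUpar y.2⟩ : parabolicHoms ℂ (gammaH L K) ℂ) := fun m => by
      induction m with
      | zero => intro y; simp
      | succ m ih =>
        intro y
        rw [pow_succ, pow_succ, _root_.Module.End.mul_apply, _root_.Module.End.mul_apply, ih]
        congr 2
    have hn' : ((T - lam s • 1) ^ n) ψ' = 0 := Subtype.ext (by rw [← hpow, hn]; rfl)
    have hmem : ψ' ∈ T.maxGenEigenspace (lam s) :=
      (_root_.Module.End.mem_maxGenEigenspace _ _ _).2 ⟨n, hn'⟩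
    rw [(opPar_isSemisimple (O := O) hneg hsq hodd hS _).isFinitelySemisimple.maxGenEigenspace_eq_eigenspace,
      _root_.Module.End.mem_eigenspace_iff] at hmem
    exact congrArg Subtype.val hmem
  let θ : OpRing O L S →ₐ[O] ℂ := aeval (Sum.elim (fun _ => 1) lam)
  have hθψ : ∀ a, opC O S K a (ψ : HomC K) = θ a • (ψ : HomC K) := fun a => by
    induction a using MvPolynomial.induction_on with
    | C c => rw [opC_C, _root_.Module.algebraMap_end_apply, ← algebraMap_eq, AlgHom.commutes]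
    | add a b ha hb => rw [map_add, map_add, LinearMap.add_apply, ha, hb, add_smul]
    | mul_X a i ha =>
      have hi : opC O S K (X i) (ψ : HomC K) = θ (X i) • (ψ : HomC K) := by
        rcases i with u | s
        · rw [opC_inl, show θ (X (Sum.inl u)) = 1 by simp [θ], one_smul]
          exact diamond_top ℂ u _
        · rw [heig s, show θ (X (Sum.inr s)) = lam s by simp [θ]]
      rw [map_mul, map_mul, _root_.Module.End.mul_apply, hi, map_smul, ha, smul_smul,
        mul_comm (θ (X i))]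
  have hθ : ∀ b, toLevelT S abar hK eps b = 0 → θ b = 0 := fun b hb => by
    have hz : ∀ y : HomMod O S K O, (b * e₀) • y = (0 : OpRing O L S) • y := fun y => by
      rw [zero_smul, mul_smul]
      have h1 := toLevelT_apply hK eps hS b
        ⟨e₀ • y, he.smul_self_mem y, fun r hr => absurd hr (Finset.notMem_empty r)⟩
      rw [hb] at h1
      exact h1.symm
    have h0 := Module.opC_eq_of_smul_eq hz (ψ : HomC K)
    rw [map_mul, map_zero, _root_.Module.End.mul_apply,
      show opC O S K e₀ (ψ : HomC K) = ψ from ψ.2, LinearMap.zero_apply, hθψ] at h0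
    exact (smul_eq_zero.1 h0).resolve_right fun h => hψ0 (Subtype.ext h)
  -- the newform of the system
  set lamN : ℕ → ℂ := fun ℓ => if h : ℓ.Prime ∧ ℓ ∉ S then lam ⟨ℓ, h⟩ else 0 with hlamN
  obtain ⟨M, g, hg, hML, hcoef, -⟩ := exists_newform_of_eigen hsq hneg hodd S hS 1
    (fun _ _ => rfl) lamN (hUpar ψ.2) (fun h => hψ0 (Subtype.ext h))
    (fun u => by rw [MonoidHom.one_apply, Units.val_one, one_smul, diamond_top])
    (fun ℓ hℓ hℓS => by
      rw [hlamN]
      simp only
      rw [dif_pos ⟨hℓ.out, hℓS⟩, ← heig ⟨ℓ, hℓ.out, hℓS⟩, opC_inr])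
  have hMpos : M ≠ 0 := fun h =>
    pow_ne_zero 2 (NeZero.ne L) (Nat.eq_zero_of_zero_dvd (h ▸ hML))
  haveI : NeZero M := ⟨hMpos⟩
  have hg' : ∀ ℓ (hℓ : ℓ.Prime) (hℓS : ℓ ∉ S), qCoeff g ℓ = lam ⟨ℓ, hℓ, hℓS⟩ := by
    intro ℓ hℓ hℓS
    have hu := (ZMod.isUnit_iff_coprime ℓ L).2
      (hℓ.coprime_iff_not_dvd.2 fun hd => hℓS (hS ℓ hℓ hd))
    rw [hcoef ℓ hℓ hℓS hu.unit hu.unit_spec, MonoidHom.one_apply, Units.val_one, one_pow, one_mul,
      hlamN]
    simp only [dif_pos (⟨hℓ, hℓS⟩ : ℓ.Prime ∧ ℓ ∉ S)]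
  have hq : q.Prime := Fact.out
  have hqM : ¬ q ∣ M := fun h => hqL (hq.dvd_of_dvd_pow (h.trans hML))
  rw [hθψ, Eigen.hecke_eq_of_system hsq hS hg.1 hqL hqM (hUpar ψ.2) fun ℓ hℓ hℓS => by
    rw [hg' ℓ hℓ.out hℓS, ← heig ⟨ℓ, hℓ.out, hℓS⟩, opC_inr]]
  congr 1
  -- the point of the algebra
  let θ' : levelT S abar hK ∅ eps →ₐ[O] ℂ :=
    AlgHom.liftOfSurjective (toLevelT S abar hK eps) (toLevelT_surjective hK eps hS) θ
      fun b hb => hθ b hb
  have hθ' : ∀ b, θ' (toLevelT S abar hK eps b) = θ b := fun b =>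
    AlgHom.liftOfSurjective_apply _ _ _ _ b
  let θK : levelT S abar hK ∅ eps →ₐ[O] KBar O :=
    { E.symm.toRingHom.comp θ'.toRingHom with
      commutes' := fun c => by
        show E.symm (θ' (algebraMap O _ c)) = _
        rw [AlgHom.commutes]
        exact E.symm_apply_apply _ }
  have hθK : ∀ t, E (θK t) = θ' t := fun t => E.apply_symm_apply _
  haveI : _root_.Module.Finite O (levelT S abar hK ∅ eps) :=
    _root_.Module.Finite.of_injective (levelT S abar hK ∅ eps).val.toLinearMap Subtype.val_injective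
  haveI := isLocalHom_of_finite O (levelT S abar hK ∅ eps)
  have key := trace_eq_qCoeff hp ρ θK E hg.1 S (fun ℓ hℓ hℓS P hP s hs => by
    rw [htr ℓ hℓ hℓS P hP s hs, hθK,
      show levelOp S abar hK ∅ eps ℓ = toLevelT S abar hK eps (X (Sum.inr ⟨ℓ, hℓ, hℓS⟩)) by
        simp [toLevelT], hθ', hg' ℓ hℓ hℓS]
    simp [θ]) hq (fun h => (hq.dvd_mul.1 h).elim hqM fun h' =>
      hqp ((Nat.prime_dvd_prime_iff_eq hq Fact.out).1 h')) hA hσ
  rw [← key, hθK, ← ha, hθ']

/-- On the part where the algebra acts through a point, `T_q` is the value at the trace. -/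
theorem hecke_eq_smul_of_eigen (x : levelT S abar hK ∅ eps →ₐ[O] O)
    (v : wEigen S abar hK ∅ eps)
    (hv : ∀ t : levelT S abar hK ∅ eps,
      (t : _root_.Module.End O (wEigen S abar hK ∅ eps)) v = x t • v) :
    hecke L ⊤ q O (toHomMod.symm (v : HomMod O S (⊤ : Subgroup (ZMod L)ˣ) O)) =
      x (ρ.trace σ) • toHomMod.symm (v : HomMod O S (⊤ : Subgroup (ZMod L)ˣ) O) := by
  refine (congrArg toHomMod.symm
    (heckeH_eq_trace hK eps hS hp hsq hEis ρ htr hqL hqp hA hσ v)).trans ?_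
  rw [hv]
  rfl

/-- When `(q + 1) ^ 2 - trace ρ(Frob q) ^ 2` is a unit, so is the determinant of the composite of
the degeneracy maps at `q`. -/
theorem crossDet_surjOn_of_trace
    (hu : IsUnit (((q : levelT S abar hK ∅ eps) + 1) ^ 2 - ρ.trace σ ^ 2)) :
    ∀ x ∈ locSub O S abar (⊤ : Subgroup (ZMod L)ˣ),
      ∃ y ∈ locSub O S abar (⊤ : Subgroup (ZMod L)ˣ), crossDet O S q y = x := by
  intro x hx
  obtain ⟨u, hu'⟩ := hu
  let v : wEigen S abar hK ∅ eps := ⟨x, hx, fun r hr => absurd hr (Finset.notMem_empty r)⟩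
  let w : wEigen S abar hK ∅ eps :=
    ((u⁻¹ : (levelT S abar hK ∅ eps)ˣ) : levelT S abar hK ∅ eps).1 v
  refine ⟨w, w.2.1, ?_⟩
  obtain ⟨a, ha⟩ := toLevelT_surjective hK eps hS (ρ.trace σ)
  have hT : ∀ z : wEigen S abar hK ∅ eps, heckeH O S q (z : HomMod O S (⊤ : Subgroup (ZMod L)ˣ) O) =
      a • (z : HomMod O S (⊤ : Subgroup (ZMod L)ˣ) O) := fun z => by
    rw [heckeH_eq_trace hK eps hS hp hsq hEis ρ htr hqL hqp hA hσ z, ← ha,
      toLevelT_apply hK eps hS]
  have h2 : toLevelT S abar hK eps (algebraMap O _ (((q : O) + 1) ^ 2) - a * a) =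
      (u : levelT S abar hK ∅ eps) := by
    rw [hu', map_sub, map_mul, AlgHom.commutes, ha, map_pow, map_add, map_natCast, map_one]
    ring
  have h3 : ((u : levelT S abar hK ∅ eps).1 w : HomMod O S (⊤ : Subgroup (ZMod L)ˣ) O) = x := by
    show (((u : levelT S abar hK ∅ eps) *
      ((u⁻¹ : (levelT S abar hK ∅ eps)ˣ) : levelT S abar hK ∅ eps)).1 v :
        HomMod O S (⊤ : Subgroup (ZMod L)ˣ) O) = x
    rw [Units.mul_inv]
    rfl
  have h4 := toLevelT_apply hK eps hS (algebraMap O _ (((q : O) + 1) ^ 2) - a * a) w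
  rw [h2, h3, sub_smul, algebraMap_smul, mul_smul, ← hT w] at h4
  rw [crossDet_apply, h4]
  congr 1
  have h5 : a • (w : HomMod O S (⊤ : Subgroup (ZMod L)ˣ) O) = heckeH O S q w.1 := (hT w).symm
  rw [← heckeH_smul, h5]

end Fermat.Agent.Lifting.Degeneracy
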