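import Fermat.Agent.Lifting.Degeneracy.ALMat

/-!
# The coset of the normalised Atkin–Lehner matrices: uniqueness, normalisation, squares
-/

set_option autoImplicit false

noncomputable section

namespace Fermat.Agent.Lifting.Degeneracy

open CongruenceSubgroup Matrix.SpecialLinearGroup
open Fermat.Agent.RT.GammaH
open Fermat.Agent.RT.Lift (qUnit)
open scoped MatrixGroups

variable {N q M : ℕ} {K : Subgroup (ZMod N)ˣ} {e : ℕ}

theorem natCast_level_toQ (h : ALLevel N q M) : ((N : ℕ) : ZMod q) = 0 :=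
  (ZMod.natCast_eq_zero_iff _ _).2 h.dvdQ

/-- An integral matrix of determinant one with the right congruences lies in `Γ_H`. -/
theorem mem_img_of_classes (h : ALLevel N q M) (hK : TwistSub N K e) {t : GLR}
    {C : Matrix (Fin 2) (Fin 2) ℤ} (ht : IsIntMat t C) (hdet : C.det = 1)
    (hc : (N : ℤ) ∣ C 1 0) {uM : (ZMod M)ˣ} (huM : uM ∈ K.map h.toM) {uQ : (ZMod q)ˣ}
    (huQ : uQ ∈ K.map h.toQ) (haM : (C 0 0 : ZMod M) = uM) (haQ : (C 0 0 : ZMod q) = uQ) :
    t ∈ img (gammaH N K) :=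
  ⟨⟨C, hdet⟩, hK.mem_gammaH h hc huM huQ haM haQ, (isIntMat_mapGL (⟨C, hdet⟩ : SL(2, ℤ))).ext ht⟩

/-- The lower right entry of an element of `Γ_H` at `q`. -/
theorem lowerRight_toQ (h : ALLevel N q M) {a b c d n : ℤ} {k : (ZMod N)ˣ}
    (hdet : a * d - b * ((N : ℤ) * c) = n) (ha : (a : ZMod N) = k) :
    (d : ZMod q) = ((h.toQ k)⁻¹ : (ZMod q)ˣ) * (n : ZMod q) := by
  have := congrArg (Int.cast : ℤ → ZMod q) hdet
  push_cast [natCast_level_toQ h] at this
  rw [h.intCast_toQ ha] at this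
  rw [← this]
  simp

theorem alSet_conj_mem (h : ALLevel N q M) (hK : TwistSub N K e) {g t : GLR}
    (hg : g ∈ alSet h K e) (ht : t ∈ img (gammaH N K)) :
    g * t * g⁻¹ ∈ img (gammaH N K) ∧ g⁻¹ * t * g ∈ img (gammaH N K) := by
  obtain ⟨γ, rfl⟩ := exists_of_mem_img ht
  obtain ⟨hγc, k, hk, hka⟩ := γ.2
  obtain ⟨a, b, c, d, hγe⟩ := exists_entries (B := ((γ : SL(2, ℤ)) : Matrix (Fin 2) (Fin 2) ℤ)) hγc
  have ha : (γ : SL(2, ℤ)) 0 0 = a := by rw [hγe]; simp
  have hdet : a * d - b * ((N : ℤ) * c) = 1 := by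
    rw [← Matrix.det_fin_two_of, ← hγe]
    exact (γ : SL(2, ℤ)).det_coe
  rw [ha] at hka
  have hd := lowerRight_toQ h hdet hka
  rw [Int.cast_one, mul_one] at hd
  have hmat : IsIntMat (mapGL ℝ (γ : SL(2, ℤ))) !![a, b; (N : ℤ) * c, d] :=
    hγe ▸ isIntMat_mapGL _
  obtain ⟨x, y, z, w, hgA, hA, -⟩ := hg
  have hA' : (q : ℤ) * w * x - M * -z * -y = 1 := by linear_combination hA
  constructor
  · exact mem_img_of_classes h hK (isIntMat_conj h hA hgA hmat)
      (by rw [det_conjInt h hA, hdet]) (by simp [conjInt]) (TwistSub.toM_mem h hk)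
      (inv_mem (TwistSub.toQ_mem h hk))
      (by rw [(conjInt_classes h hA a b c d).1, h.intCast_toM hka])
      (by rw [(conjInt_classes h hA a b c d).2, hd])
  · exact mem_img_of_classes h hK (isIntMat_conj' h hA hgA hmat)
      (by rw [det_conjInt h hA', hdet]) (by simp [conjInt]) (TwistSub.toM_mem h hk)
      (inv_mem (TwistSub.toQ_mem h hk))
      (by rw [(conjInt_classes h hA' a b c d).1, h.intCast_toM hka])
      (by rw [(conjInt_classes h hA' a b c d).2, hd])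

theorem alSet_mul_inv_mem (h : ALLevel N q M) (hK : TwistSub N K e) {g g' : GLR}
    (hg : g ∈ alSet h K e) (hg' : g' ∈ alSet h K e) : g * g'⁻¹ ∈ img (gammaH N K) := by
  obtain ⟨x, y, z, w, hgA, hA, ⟨v, hv, hxv⟩, ⟨u, hu, hyu⟩⟩ := hg
  obtain ⟨x', y', z', w', hgA', hA', ⟨v', hv', hxv'⟩, ⟨u', hu', hyu'⟩⟩ := hg'
  set E : Matrix (Fin 2) (Fin 2) ℤ :=
    !![(q : ℤ) * x * w' - y * M * z', -(x * y') + y * x';
      (N : ℤ) * (z * w' - w * z'), -((M : ℤ) * z * y') + (q : ℤ) * w * x'] with hE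
  have hEA : alMat N q x y z w = E * alMat N q x' y' z' w' := by
    ext i j
    fin_cases i <;> fin_cases j <;>
      simp [alMat, hE, Matrix.mul_apply, Fin.sum_univ_two, h.natCast_eq]
    · linear_combination (-((q : ℤ) * x)) * hA'
    · linear_combination (-y) * hA'
    · linear_combination (-((M : ℤ) * q * z)) * hA'
    · linear_combination (-((q : ℤ) * w)) * hA'
  have hdet : E.det = 1 := by
    have := congrArg Matrix.det hEA
    rw [Matrix.det_mul, det_alMat h hA, det_alMat h hA'] at this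
    exact mul_right_cancel₀ h.raise.ne_zero (by rw [one_mul]; exact this.symm)
  have ht : g = mapGL ℝ (⟨E, hdet⟩ : SL(2, ℤ)) * g' :=
    hgA.ext (hEA ▸ (isIntMat_mapGL (⟨E, hdet⟩ : SL(2, ℤ))).mul hgA')
  rw [ht, mul_inv_cancel_right]
  refine mapGL_mem_img.2 (hK.mem_gammaH h ?_ (mul_mem hv (inv_mem hv'))
    (mul_mem hu (inv_mem hu')) ?_ ?_)
  · simp [hE]
  · show ((E 0 0 : ℤ) : ZMod M) = _
    have e1 := toM_qx_mul hA'
    rw [hxv'] at e1
    have e2 : ((E 0 0 : ℤ) : ZMod M) = (((q : ℤ) * x : ℤ) : ZMod M) * (w' : ZMod M) := by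
      simp [hE]
    rw [e2, hxv, Units.val_mul]
    linear_combination (v : ZMod M) * ((v'⁻¹ : (ZMod M)ˣ) : ZMod M) * e1 -
      (qUnit h.raise : ZMod M) ^ (e + 1) * (v : ZMod M) * (w' : ZMod M) * Units.inv_mul v'
  · show ((E 0 0 : ℤ) : ZMod q) = _
    have e1 := toQ_zy hA'
    rw [hyu'] at e1
    have e2 : ((E 0 0 : ℤ) : ZMod q) = -((y : ZMod q) * (((M : ℤ) * z' : ℤ) : ZMod q)) := by
      simp [hE]
      ring
    rw [e2, hyu, Units.val_mul]
    linear_combination (-((u : ZMod q) * ((u'⁻¹ : (ZMod q)ˣ) : ZMod q))) * e1 +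
      (u : ZMod q) * (((M : ℤ) * z' : ℤ) : ZMod q) * Units.inv_mul u'

/-- The square of an Atkin–Lehner matrix is central times an element of `Γ_H`. -/
theorem alSet_sq (h : ALLevel N q M) (hK : TwistSub N K e) {g : GLR} (hg : g ∈ alSet h K e) :
    g * g * (1 * (RT.Lift.aRep q () * RT.Lift.sRep h.raise (some ⟨0, h.prime.pos⟩)))⁻¹ ∈
      img (gammaH N K) := by
  obtain ⟨x, y, z, w, hgA, hA, ⟨v, hv, hxv⟩, -⟩ := hg
  set Z := RT.Lift.aRep q () * RT.Lift.sRep h.raise (some ⟨0, h.prime.pos⟩)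
  have hZ : IsIntMat Z !![(q : ℤ), 0; 0, (q : ℤ)] := by
    convert (RT.Lift.isIntMat_aRep h.raise).mul (RT.Lift.isIntMat_sRep_some h.raise _) using 1
    ext a b
    fin_cases a <;> fin_cases b <;> simp [Matrix.mul_apply, Fin.sum_univ_two]
  set E : Matrix (Fin 2) (Fin 2) ℤ :=
    !![(q : ℤ) * x ^ 2 + y * M * z, y * (x + w); (N : ℤ) * (z * (x + w)),
      (M : ℤ) * z * y + (q : ℤ) * w ^ 2] with hE
  have hEA : alMat N q x y z w * alMat N q x y z w = E * !![(q : ℤ), 0; 0, (q : ℤ)] := by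
    ext i j
    fin_cases i <;> fin_cases j <;>
      simp [alMat, hE, Matrix.mul_apply, Fin.sum_univ_two, h.natCast_eq] <;> ring
  have hdet : E.det = 1 := by
    rw [hE, Matrix.det_fin_two_of, h.natCast_eq]
    linear_combination ((q : ℤ) * x * w - M * z * y + 1) * hA
  have ht : g * g = mapGL ℝ (⟨E, hdet⟩ : SL(2, ℤ)) * Z :=
    (hgA.mul hgA).ext (hEA ▸ (isIntMat_mapGL (⟨E, hdet⟩ : SL(2, ℤ))).mul hZ)
  rw [one_mul, ht, mul_inv_cancel_right]
  refine mapGL_mem_img.2 (hK.mem_gammaH h ?_ (mul_mem (hK.pow_mem_toM h (qUnit h.raise))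
    (pow_mem hv 2)) (hK.neg_one_mem_toQ h) ?_ ?_)
  · simp [hE]
  · show ((E 0 0 : ℤ) : ZMod M) = _
    have hu : IsUnit (q : ZMod M) := natCast_qUnit h ▸ (qUnit h.raise).isUnit
    refine hu.mul_left_cancel ?_
    have e2 : ((E 0 0 : ℤ) : ZMod M) = (q : ZMod M) * (x : ZMod M) ^ 2 := by simp [hE]
    rw [e2, Units.val_mul, Units.val_pow_eq_pow_val, Units.val_pow_eq_pow_val]
    have e3 : (((q : ℤ) * x : ℤ) : ZMod M) = (q : ZMod M) * (x : ZMod M) := by push_cast; ring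
    rw [e3] at hxv
    rw [natCast_qUnit h] at hxv ⊢
    linear_combination ((qUnit h.raise : ZMod M) * (x : ZMod M) +
      (qUnit h.raise : ZMod M) ^ (e + 1) * (v : ZMod M)) * hxv
  · show ((E 0 0 : ℤ) : ZMod q) = _
    have e1 := toQ_zy hA
    simp [hE]
    push_cast at e1
    linear_combination e1

variable {q' M' : ℕ}

theorem ALLevel.exists_common (h : ALLevel N q M) (h' : ALLevel N q' M') (hne : q' ≠ q) :
    ∃ R : ℕ, M = R * q' ∧ M' = R * q ∧ ¬ q' ∣ R := by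
  obtain ⟨R, hR⟩ : q ∣ M' := ((Nat.prime_iff.1 h.prime).dvd_or_dvd
    (show q ∣ M' * q' from h'.eq ▸ h.dvdQ)).resolve_right fun hd =>
      hne ((Nat.prime_dvd_prime_iff_eq h.prime h'.prime).1 hd).symm
  refine ⟨R, Nat.eq_of_mul_eq_mul_right h.prime.pos ?_, by rw [hR, mul_comm],
    fun hd => h'.not_dvd (hR ▸ hd.mul_left q)⟩
  rw [← h.eq, h'.eq, hR]
  ring

/-- Atkin–Lehner matrices at different primes commute up to `Γ_H`. -/
theorem alSet_conj_alSet (h : ALLevel N q M) (h' : ALLevel N q' M') (hne : q' ≠ q)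
    (hK : TwistSub N K e) {g g' : GLR} (hg : g ∈ alSet h K e) (hg' : g' ∈ alSet h' K e) :
    g' * g * g'⁻¹ ∈ alSet h K e := by
  obtain ⟨x, y, z, w, hgA, hA, ⟨v, hv, hxv⟩, ⟨u, hu, hyu⟩⟩ := hg
  obtain ⟨x', y', z', w', hgA', hA', ⟨v', hv', hxv'⟩, -⟩ := hg'
  obtain ⟨R, rfl, rfl, hR'⟩ := h.exists_common h' hne
  have hNZ : (N : ℤ) = R * q * q' := by rw [h'.natCast_eq]; push_cast; ring
  set a : ℤ := (q : ℤ) * x
  set d : ℤ := (q : ℤ) * w
  set C := conjInt N q' (R * q) x' y' z' w' a y z d with hC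
  set X : ℤ := (q' : ℤ) * x' * w' * x + y' * (R * q') * z * w' - (q' : ℤ) * R * x' * z' * y -
    R * y' * z' * ((q : ℤ) * w)
  set Z : ℤ := z' * w' * (a - d) + (q' : ℤ) * w' ^ 2 * z - ((R * q : ℕ) : ℤ) * z' ^ 2 * y
  set W : ℤ := -((R : ℤ) * z' * ((q : ℤ) * x) * y') - w' * (R * q') * z * y' +
    (R : ℤ) * q' * z' * y * x' + (q' : ℤ) * w' * x' * w
  set Y : ℤ := (q' : ℤ) * x' ^ 2 * y - ((R * q : ℕ) : ℤ) * z * y' ^ 2 + x' * y' * (d - a)
  have hCe : C = alMat N q X Y Z W := by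
    ext i j
    fin_cases i <;> fin_cases j <;>
      simp [hC, conjInt, alMat, X, Y, Z, W, a, d, hNZ] <;> ring
  have hgt : IsIntMat (g' * g * g'⁻¹) (alMat N q X Y Z W) :=
    hCe ▸ isIntMat_conj h' hA' hgA' hgA
  have hdet : (q : ℤ) * X * W - ((R * q' : ℕ) : ℤ) * Z * Y = 1 := by
    refine mul_left_cancel₀ h.raise.ne_zero ?_
    have hd := det_conjInt h' hA' a y z d
    rw [← hC, hCe, alMat, Matrix.det_fin_two_of, hNZ] at hd
    simp only [a, d] at hd ⊢
    push_cast at hA hd ⊢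
    linear_combination hd + (q : ℤ) * hA
  refine ⟨X, Y, Z, W, hgt, hdet, ?_, ?_⟩
  · -- the class at level `M`
    have hR : ALLevel (R * q') q' R := ⟨h'.prime, rfl, hR'⟩
    set s : (ZMod (R * q'))ˣ := qUnit h.raise ^ (e + 1) with hs
    set k : (ZMod (R * q'))ˣ := (qUnit h.raise ^ (2 * e + 1))⁻¹ * v⁻¹
    have hk : k ∈ K.map h.toM := mul_mem (inv_mem (hK.pow_mem_toM h _)) (inv_mem hv)
    have hd' : (d : ZMod (R * q')) = s * k := by
      have e1 := toM_qx_mul hA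
      rw [hxv] at e1
      have e2 : ((d : ℤ) : ZMod (R * q')) = (qUnit h.raise : ZMod (R * q')) * (w : ZMod (R * q')) := by
        simp [d, natCast_qUnit h]
      refine ((s * v * qUnit h.raise ^ (2 * e + 1) : (ZMod (R * q'))ˣ)).isUnit.mul_left_cancel ?_
      have h1 := Units.inv_mul (qUnit h.raise ^ (2 * e + 1))
      have h2 := Units.inv_mul v
      rw [Units.val_pow_eq_pow_val] at h1
      simp only [k, hs, Units.val_mul, Units.val_pow_eq_pow_val]
      rw [e2]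
      linear_combination (qUnit h.raise : ZMod (R * q')) ^ (2 * e + 2) * e1 -
        (qUnit h.raise : ZMod (R * q')) ^ (2 * e + 2) * (v : ZMod (R * q')) *
          ((v⁻¹ : (ZMod (R * q'))ˣ) : ZMod (R * q')) * h1 -
        (qUnit h.raise : ZMod (R * q')) ^ (2 * e + 2) * h2
    obtain ⟨k', hk', he⟩ := (hK.map_toM h).exists_mem_eq hR s (a := (q : ℤ) * X)
      (TwistSub.toM_mem hR hv) (TwistSub.toQ_mem hR hk) (by
        have h1 := (conjInt_classes h' hA' a y z d).1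
        rw [← hC, hCe] at h1
        have h2 := congrArg (ZMod.castHom (dvd_mul_right R q) (ZMod R)) h1
        rw [map_intCast, map_intCast] at h2
        simp only [alMat, Matrix.cons_val', Matrix.cons_val_zero, Matrix.of_apply,
          Matrix.cons_val_fin_one] at h2
        rw [h2, ← Units.val_mul, ← map_mul]
        exact hR.intCast_toM hxv) (by
        have h1 := (conjInt_classes h' hA' a y z d).2
        rw [← hC, hCe] at h1
        simp only [alMat, Matrix.cons_val', Matrix.cons_val_zero, Matrix.of_apply,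
          Matrix.cons_val_fin_one] at h1
        rw [h1, ← Units.val_mul, ← map_mul]
        exact hR.intCast_toQ hd')
    exact ⟨k', hk', he.trans (by rw [hs, Units.val_pow_eq_pow_val])⟩
  · -- the class at `q`
    let π : (ZMod (R * q))ˣ →* (ZMod q)ˣ := ZMod.unitsMap (dvd_mul_left q R)
    set ρ := π (qUnit h'.raise) with hρ
    have hπ : π v' ∈ K.map h.toQ := by
      obtain ⟨k, hk, rfl⟩ := hv'
      refine ⟨k, hk, ?_⟩
      simp only [π, ALLevel.toM, ALLevel.toQ]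
      rw [← MonoidHom.comp_apply, ZMod.unitsMap_comp]
    refine ⟨ρ ^ (2 * e + 1) * π v' ^ 2 * u,
      mul_mem (mul_mem (hK.pow_mem_toQ h ρ) (pow_mem hπ 2)) hu, ?_⟩
    have hρv : (q' : ZMod q) = ρ := by
      have := congrArg (ZMod.castHom (dvd_mul_left q R) (ZMod q)) (natCast_qUnit h')
      rwa [map_natCast] at this
    have hx' := congrArg (ZMod.castHom (dvd_mul_left q R) (ZMod q)) hxv'
    rw [map_intCast, map_mul, map_pow] at hx'
    replace hx' : (((q' : ℤ) * x' : ℤ) : ZMod q) = (ρ : ZMod q) ^ (e + 1) * (π v' : ZMod q) := hx'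
    push_cast at hx'
    rw [hρv] at hx'
    have e2 : ((Y : ℤ) : ZMod q) = (ρ : ZMod q) * (x' : ZMod q) ^ 2 * (y : ZMod q) := by
      simp [Y, a, d, hρv]
    rw [e2, hyu, Units.val_mul, Units.val_mul, Units.val_pow_eq_pow_val, Units.val_pow_eq_pow_val]
    refine ρ.isUnit.mul_left_cancel ?_
    linear_combination (u : ZMod q) * ((ρ : ZMod q) * (x' : ZMod q) +
      (ρ : ZMod q) ^ (e + 1) * (π v' : ZMod q)) * hx'

end Fermat.Agent.Lifting.Degeneracy
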