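import Fermat.Agent.Lifting.Degeneracy.Split

/-!
# Normalised Atkin–Lehner matrices at `q` for `Γ_H` of level `N = M q`

`alSet` consists of the matrices `!![q x, y; N z, q w]` of determinant `q` with `q x` in the class
of `q ^ (e + 1)` modulo the `M`-component of `K` and `y` in its `q`-component. They form one left
coset of `Γ_H` and normalise it.
-/

set_option autoImplicit false

noncomputable section

namespace Fermat.Agent.Lifting.Degeneracy

open CongruenceSubgroup Matrix.SpecialLinearGroup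
open Fermat.Agent.RT.GammaH
open Fermat.Agent.LevelRaising (bezQ bezN)
open Fermat.Agent.RT.Lift (qUnit)
open scoped MatrixGroups

theorem intCast_eq_zero_of_dvd {n : ℕ} {a : ℤ} (h : (n : ℤ) ∣ a) : (a : ZMod n) = 0 :=
  (ZMod.intCast_zmod_eq_zero_iff_dvd _ _).2 h

variable {N q M : ℕ} {K : Subgroup (ZMod N)ˣ} {e : ℕ}

/-- The matrix `!![q x, y; N z, q w]`. -/
def alMat (N q : ℕ) (x y z w : ℤ) : Matrix (Fin 2) (Fin 2) ℤ :=
  !![(q : ℤ) * x, y; (N : ℤ) * z, (q : ℤ) * w]

/-- The conjugate of `!![a, b; N c, d]` by `alMat N q x y z w`. -/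
def conjInt (N q M : ℕ) (x y z w a b c d : ℤ) : Matrix (Fin 2) (Fin 2) ℤ :=
  !![(q : ℤ) * x * w * a + y * N * c * w - (q : ℤ) * M * x * z * b - M * y * z * d,
     (q : ℤ) * x ^ 2 * b - M * c * y ^ 2 + x * y * (d - a);
     (N : ℤ) * (z * w * (a - d) + (q : ℤ) * w ^ 2 * c - M * z ^ 2 * b),
     -((M : ℤ) * z * a * y) - w * N * c * y + N * z * b * x + (q : ℤ) * w * x * d]

theorem det_alMat (h : ALLevel N q M) {x y z w : ℤ}
    (hA : (q : ℤ) * x * w - M * z * y = 1) : (alMat N q x y z w).det = q := by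
  rw [alMat, Matrix.det_fin_two_of, h.natCast_eq]
  linear_combination (q : ℤ) * hA

theorem alMat_mul (h : ALLevel N q M) {x y z w : ℤ} (hA : (q : ℤ) * x * w - M * z * y = 1)
    (a b c d : ℤ) :
    alMat N q x y z w * !![a, b; (N : ℤ) * c, d] =
      conjInt N q M x y z w a b c d * alMat N q x y z w := by
  ext i j
  fin_cases i <;> fin_cases j <;>
    simp [alMat, conjInt, Matrix.mul_apply, Fin.sum_univ_two, h.natCast_eq]
  · linear_combination (-((q : ℤ) * x * a + y * (M * q) * c)) * hA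
  · linear_combination (-((q : ℤ) * x * b + y * d)) * hA
  · linear_combination (-((M : ℤ) * q * z * a + q * w * (M * q) * c)) * hA
  · linear_combination (-((M : ℤ) * q * z * b + q * w * d)) * hA

theorem det_conjInt (h : ALLevel N q M) {x y z w : ℤ} (hA : (q : ℤ) * x * w - M * z * y = 1)
    (a b c d : ℤ) :
    (conjInt N q M x y z w a b c d).det = a * d - b * ((N : ℤ) * c) := by
  have := congrArg Matrix.det (alMat_mul h hA a b c d)
  rw [Matrix.det_mul, Matrix.det_mul, det_alMat h hA, Matrix.det_fin_two_of] at this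
  refine mul_right_cancel₀ h.raise.ne_zero ?_
  linear_combination -this

theorem conjInt_classes (h : ALLevel N q M) {x y z w : ℤ}
    (hA : (q : ℤ) * x * w - M * z * y = 1) (a b c d : ℤ) :
    (((conjInt N q M x y z w a b c d) 0 0 : ℤ) : ZMod M) = a ∧
    (((conjInt N q M x y z w a b c d) 0 0 : ℤ) : ZMod q) = d := by
  constructor <;>
    refine (ZMod.intCast_eq_intCast_iff_dvd_sub _ _ _).2 ?_
  · refine ⟨z * y * (-a) - y * q * c * w + (q : ℤ) * x * z * b + y * z * d, ?_⟩
    simp [conjInt, h.natCast_eq]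
    linear_combination (-a) * hA
  · refine ⟨-(x * w * a) - y * M * c * w + (M : ℤ) * x * z * b + x * w * d, ?_⟩
    simp [conjInt, h.natCast_eq]
    linear_combination (-d) * hA

/-- Conjugation by an Atkin–Lehner matrix. -/
theorem isIntMat_conj (h : ALLevel N q M) {g t : GLR} {x y z w a b c d : ℤ}
    (hA : (q : ℤ) * x * w - M * z * y = 1) (hg : IsIntMat g (alMat N q x y z w))
    (ht : IsIntMat t !![a, b; (N : ℤ) * c, d]) :
    IsIntMat (g * t * g⁻¹) (conjInt N q M x y z w a b c d) := by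
  have h1 : IsIntMat (g * t) (conjInt N q M x y z w a b c d * alMat N q x y z w) :=
    alMat_mul h hA a b c d ▸ hg.mul ht
  unfold IsIntMat at *
  rw [Units.val_mul, h1, Matrix.map_mul, ← hg, mul_assoc, ← Units.val_mul, mul_inv_cancel,
    Units.val_one, mul_one]

/-- Conjugation by the inverse. -/
theorem isIntMat_conj' (h : ALLevel N q M) {g t : GLR} {x y z w a b c d : ℤ}
    (hA : (q : ℤ) * x * w - M * z * y = 1) (hg : IsIntMat g (alMat N q x y z w))
    (ht : IsIntMat t !![a, b; (N : ℤ) * c, d]) :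
    IsIntMat (g⁻¹ * t * g) (conjInt N q M w (-y) (-z) x a b c d) := by
  have hA' : (q : ℤ) * w * x - M * -z * -y = 1 := by linear_combination hA
  set Ad := alMat N q w (-y) (-z) x with hAd
  set C := conjInt N q M w (-y) (-z) x a b c d
  have hprod : alMat N q x y z w * Ad = (q : ℤ) • (1 : Matrix (Fin 2) (Fin 2) ℤ) := by
    ext i j
    fin_cases i <;> fin_cases j <;>
      simp [alMat, hAd, Matrix.mul_apply, Fin.sum_univ_two, h.natCast_eq]
    · linear_combination (q : ℤ) * hA
    · ring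
    · ring
    · linear_combination (q : ℤ) * hA
  have hprod' : Ad * alMat N q x y z w = (q : ℤ) • (1 : Matrix (Fin 2) (Fin 2) ℤ) := by
    ext i j
    fin_cases i <;> fin_cases j <;>
      simp [alMat, hAd, Matrix.mul_apply, Fin.sum_univ_two, h.natCast_eq]
    · linear_combination (q : ℤ) * hA
    · ring
    · ring
    · linear_combination (q : ℤ) * hA
  have key : alMat N q x y z w * C = !![a, b; (N : ℤ) * c, d] * alMat N q x y z w := by
    have e := congrArg (fun X => alMat N q x y z w * X * alMat N q x y z w)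
      (alMat_mul h hA' a b c d)
    simp only [← hAd, ← mul_assoc, hprod] at e
    simp only [mul_assoc, hprod'] at e
    simp only [smul_mul_assoc, mul_smul_comm, one_mul, mul_one, ← mul_assoc] at e
    exact (smul_right_injective _ h.raise.ne_zero e).symm
  have h1 : IsIntMat (t * g) (alMat N q x y z w * C) := key ▸ ht.mul hg
  unfold IsIntMat at *
  rw [mul_assoc, Units.val_mul g⁻¹, h1, Matrix.map_mul, ← hg, ← mul_assoc, ← Units.val_mul,
    inv_mul_cancel, Units.val_one, one_mul]

theorem exists_entries {B : Matrix (Fin 2) (Fin 2) ℤ} (hc : (B 1 0 : ZMod N) = 0) :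
    ∃ a b c d : ℤ, B = !![a, b; (N : ℤ) * c, d] := by
  obtain ⟨c, hc⟩ := (ZMod.intCast_zmod_eq_zero_iff_dvd _ _).1 hc
  exact ⟨B 0 0, B 0 1, c, B 1 1, by ext i j; fin_cases i <;> fin_cases j <;> simp [hc]⟩

theorem toM_qx_mul {x y z w : ℤ}
    (hA : (q : ℤ) * x * w - M * z * y = 1) :
    (((q : ℤ) * x : ℤ) : ZMod M) * (w : ZMod M) = 1 := by
  have := congrArg (Int.cast : ℤ → ZMod M) hA
  push_cast [ZMod.natCast_self] at this ⊢
  linear_combination this

theorem toQ_zy {x y z w : ℤ} (hA : (q : ℤ) * x * w - M * z * y = 1) :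
    (y : ZMod q) * (((M : ℤ) * z : ℤ) : ZMod q) = -1 := by
  have := congrArg (Int.cast : ℤ → ZMod q) hA
  push_cast [ZMod.natCast_self] at this ⊢
  linear_combination -this

/-- The coset of the normalised Atkin–Lehner matrices. -/
def alSet (h : ALLevel N q M) (K : Subgroup (ZMod N)ˣ) (e : ℕ) : Set GLR :=
  {g | ∃ x y z w : ℤ, IsIntMat g (alMat N q x y z w) ∧ (q : ℤ) * x * w - M * z * y = 1 ∧
    (∃ v ∈ K.map h.toM, (((q : ℤ) * x : ℤ) : ZMod M) = qUnit h.raise ^ (e + 1) * v) ∧
    ∃ v ∈ K.map h.toQ, (y : ZMod q) = v}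

theorem natCast_qUnit (h : ALLevel N q M) : (q : ZMod M) = qUnit h.raise :=
  (ZMod.coe_unitOfCoprime _ _).symm

/-- A normalised Atkin–Lehner matrix exists. -/
theorem exists_mem_alSet (h : ALLevel N q M) (K : Subgroup (ZMod N)ˣ) (e : ℕ) :
    ∃ g : GLR, g ∈ alSet h K e := by
  have hq : Fact q.Prime := ⟨h.prime⟩
  have hM : IsUnit (((-(M : ℤ)) : ℤ) : ZMod q) := by
    rw [ZMod.coe_int_isUnit_iff_isCoprime]
    exact h.raise.isCoprime.neg_right
  set u := h.unit (qUnit h.raise ^ (e + 1)) hM.unit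
  obtain ⟨γ, hγ, hu⟩ := exists_gamma0_upperLeft u
  obtain ⟨a, b, c, d, hγe⟩ :=
    exists_entries (B := (γ : Matrix (Fin 2) (Fin 2) ℤ)) (N := N) (Gamma0_mem.1 hγ)
  have ha : γ 0 0 = a := by rw [hγe]; simp
  have hdet : a * d - b * ((N : ℤ) * c) = 1 := by
    rw [← Matrix.det_fin_two_of, ← hγe]
    exact γ.det_coe
  set bN := bezN q M with hbN
  set bQ := bezQ q M with hbQ
  let g₀ : GLR := mapGL ℝ (RT.Lift.wSL h.raise) * ModularForm.heckeDiagMatrix q
  have hg₀ : IsIntMat g₀ (alMat N q bQ (-bN) 1 1) := by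
    convert RT.Lift.isIntMat_sRep_none h.raise using 1
    · rfl
    · simp [alMat, h.natCast_eq, bN, bQ, mul_comm]
  set x' := a * bQ + b * M
  set y' := -(a * bN) + b * q
  set z' := c * q * bQ + d
  set w' := -((M : ℤ) * c * bN) + d
  have hmat : IsIntMat (mapGL ℝ γ * g₀) (alMat N q x' y' z' w') := by
    have := (isIntMat_mapGL γ).mul hg₀
    rw [hγe] at this
    convert this using 1
    ext i j
    fin_cases i <;> fin_cases j <;>
      simp [alMat, x', y', z', w', Matrix.mul_apply, Fin.sum_univ_two, h.natCast_eq] <;> ring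
  have hbez := h.raise.bez
  have hA : (q : ℤ) * x' * w' - M * z' * y' = 1 := by
    simp only [x', y', z', w']
    rw [h.natCast_eq] at hdet
    linear_combination ((q : ℤ) * bQ + bN * M) * hdet + hbez
  refine ⟨_, x', y', z', w', hmat, hA, ⟨1, one_mem _, ?_⟩, ⟨1, one_mem _, ?_⟩⟩
  · have h1 : ((a : ℤ) : ZMod M) = qUnit h.raise ^ (e + 1) := by
      rw [← ha, h.intCast_toM hu, h.toM_unit, Units.val_pow_eq_pow_val]
    have h2 := congrArg (Int.cast : ℤ → ZMod M) hbez
    simp only [x'] at h2 ⊢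
    push_cast [ZMod.natCast_self] at h2 ⊢
    rw [← hbQ] at h2
    simp only [mul_one, ← h1]
    linear_combination (a : ZMod M) * h2
  · have h1 : ((a : ℤ) : ZMod q) = -(M : ZMod q) := by
      rw [← ha, h.intCast_toQ hu, h.toQ_unit, IsUnit.unit_spec]
      push_cast
      ring
    have h2 := congrArg (Int.cast : ℤ → ZMod q) hbez
    simp only [y'] at h2 ⊢
    push_cast [ZMod.natCast_self] at h2 ⊢
    rw [← hbN] at h2
    rw [h1]
    linear_combination h2

end Fermat.Agent.Lifting.Degeneracy
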