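import Fermat.Agent.Lifting.Degeneracy.Mid

/-!
# Atkin–Lehner involutions and the degeneracy maps

On classes coming from level `M` the involution at `q` is `conjDeg` after `⟨q⟩ ^ (e + 1)`, and
`corDeg` after it is `⟨q⟩ ^ e starDeg`; the involutions at the other primes commute with `resDeg`
and `corDeg`.
-/

set_option autoImplicit false

noncomputable section

namespace Fermat.Agent.Lifting.Degeneracy

open CongruenceSubgroup Matrix.SpecialLinearGroup
open Fermat.Agent.RT.GammaH Fermat.Agent.RT.Lift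
open Fermat.Agent.LevelRaising (RaiseData)
open scoped MatrixGroups

variable {M q : ℕ} {K : Subgroup (ZMod M)ˣ} {e : ℕ}

theorem map_toM_liftSub_le (h : ALLevel (M * q) q M) :
    (liftSub q K).map h.toM ≤ K := Subgroup.map_comap_le _ _

variable {A : Type*} [AddCommGroup A] (R : Type*) [Semiring R] [Module R A]

theorem wOp_resDeg (h : ALLevel (M * q) q M) (hK : TwistSub M K e)
    (φ : Additive (gammaH M K) →+ A) :
    wOp R h (hK.liftSub h) (resDeg R q K φ) =
      conjDeg h.raise R K (diamond M K R (qUnit h.raise ^ (e + 1)) φ) := by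
  unfold wOp resDeg conjDeg diamond
  rw [opOf_comp, opOf_comp]
  refine LinearMap.congr_fun (opOf_congr _ _ (Equiv.prodComm Unit Unit) fun p => ?_) φ
  obtain ⟨x, y, z, w, hgA, hA, ⟨v, hv, hxv⟩, -⟩ := wElt_mem h (liftSub q K) e
  set g := wElt h (liftSub q K) e
  set σ := gamma0Elt (M := M) (qUnit h.raise ^ (e + 1))⁻¹
  show (1 : GLR) * g * (mapGL ℝ σ * aRep q ())⁻¹ ∈ _
  have hdet : (!![x, y; (M : ℤ) * z, (q : ℤ) * w] : Matrix (Fin 2) (Fin 2) ℤ).det = 1 := by
    rw [Matrix.det_fin_two_of]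
    linear_combination hA
  let t : SL(2, ℤ) := ⟨_, hdet⟩
  have hg : g = mapGL ℝ t * aRep q () := by
    refine hgA.ext ?_
    convert (isIntMat_mapGL t).mul (isIntMat_aRep h.raise) using 1
    ext i j
    fin_cases i <;> fin_cases j <;> simp [alMat, t, Matrix.mul_apply, Fin.sum_univ_two] <;> ring
  rw [one_mul, hg, mul_inv_rev, ← mul_assoc, mul_inv_cancel_right, ← map_inv, ← map_mul]
  refine mapGL_mem_img.2 (gamma0_mul_inv_mem
    (Gamma0_mem.2 (show (((M : ℤ) * z : ℤ) : ZMod M) = 0 by simp)) (gamma0Elt_mem _)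
    (mul_mem (hK.pow (qUnit h.raise)) (map_toM_liftSub_le h hv)) ?_)
  show ((x : ℤ) : ZMod M) = _
  rw [gamma0Elt_upperLeft]
  refine (qUnit h.raise).isUnit.mul_left_cancel ?_
  have h1 : (((q : ℤ) * x : ℤ) : ZMod M) = (qUnit h.raise : ZMod M) * (x : ZMod M) := by
    simp [natCast_qUnit h]
  rw [h1] at hxv
  have h2 := Units.mul_inv (qUnit h.raise ^ (e + 1))
  simp only [Units.val_mul, Units.val_pow_eq_pow_val] at h2 ⊢
  linear_combination hxv -
    (qUnit h.raise : ZMod M) ^ (e + 1) * (v : ZMod M) * h2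

theorem corDeg_wOp (h : ALLevel (M * q) q M) (hK : TwistSub M K e)
    (φ : Additive (gammaH (M * q) (liftSub q K)) →+ A) :
    corDeg h.raise R K (wOp R h (hK.liftSub h) φ) =
      diamond M K R (qUnit h.raise ^ e) (starDeg h.raise R K φ) := by
  have hK' := hK.liftSub h
  have hg := wElt_mem h (liftSub q K) e
  set g := wElt h (liftSub q K) e
  set v := qUnit h.raise ^ e
  set σ := gamma0Elt (M := M) v⁻¹
  have hb : IsReps (gammaH (M * q) (liftSub q K)) {t | t * (mapGL ℝ σ)⁻¹ ∈ starSet M q K 1}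
      fun p : Option (Fin q) × Unit => sRep h.raise p.1 * diaRep v p.2 :=
    ⟨fun p => by simpa [diaRep, σ] using sRep_mem (K := K) h.raise p.1,
      fun i j hij => Prod.ext ((isReps_sRep h.raise).inj i.1 j.1
        (by simpa [diaRep, mul_assoc] using hij)) rfl,
      fun t ht => (((isReps_sRep h.raise).surj _ ht).elim fun i hi =>
        ⟨(i, ()), by simpa [diaRep, mul_assoc] using hi⟩)⟩
  unfold corDeg starDeg diamond wOp
  rw [opOf_comp, opOf_comp]
  refine LinearMap.congr_fun (opOf_eq_of_isReps _ _ (hb.of_card (fun p => ?_) (fun i j hij => ?_)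
    (le_of_eq (Nat.card_congr (Equiv.prodComm _ _)))) hb) φ
  · obtain ⟨x, y, z, w, hgA, hA, ⟨v', hv', hxv⟩, -⟩ := hg
    show g * cRep h.raise p.2 * (mapGL ℝ σ)⁻¹ ∈ starSet M q K 1
    rw [← map_inv]
    set c : SL(2, ℤ) := cSL h.raise p.2 * σ⁻¹
    rw [mul_assoc, cRep, ← map_mul]
    have hc : c ∈ Gamma0 M :=
      mul_mem (gammaH_le_Gamma0 (cSL_mem (K := K) h.raise p.2)) (inv_mem (gamma0Elt_mem _))
    have hcc := Gamma0_mem.1 hc
    have hc00 : (c 0 0 : ZMod M) = v := by
      have e0 := gamma0_mul_apply_upperLeft c σ (gamma0Elt_mem _)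
      obtain ⟨-, u, hu, hua⟩ := cSL_mem (K := (⊥ : Subgroup (ZMod M)ˣ)) h.raise p.2
      rw [Subgroup.mem_bot] at hu
      subst hu
      simp only [c] at e0 ⊢
      rw [inv_mul_cancel_right, hua, gamma0Elt_upperLeft, Units.val_one] at e0
      have h1 := Units.inv_mul v
      linear_combination ((cSL h.raise p.2 * σ⁻¹) 0 0 : ZMod M) * (-h1) - (v : ZMod M) * e0
    refine ⟨⟨alMat (M * q) q x y z w * (c : Matrix (Fin 2) (Fin 2) ℤ),
      hgA.mul (isIntMat_mapGL c), ?_, ?_,
      qUnit h.raise ^ (2 * e + 1) * v', mul_mem (hK.pow _) (map_toM_liftSub_le h hv'), ?_⟩,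
      fun G hG => ?_⟩
    · rw [Matrix.det_mul, det_alMat h hA, c.det_coe, mul_one, mul_one]
    · simp [alMat, Matrix.mul_apply, Fin.sum_univ_two, hcc]
    · have e1 : (((alMat (M * q) q x y z w * (c : Matrix (Fin 2) (Fin 2) ℤ)) 0 0 : ℤ) : ZMod M) =
          (((q : ℤ) * x : ℤ) : ZMod M) * (c 0 0 : ZMod M) := by
        simp [alMat, Matrix.mul_apply, Fin.sum_univ_two, hcc]
      rw [e1, hxv, hc00]
      simp only [Units.val_mul, Units.val_pow_eq_pow_val, v]
      ring
    · rw [hG.unique (hgA.mul (isIntMat_mapGL c))]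
      have hrow : (q : ℤ) ∣ alMat (M * q) q x y z w 1 0 ∧ (q : ℤ) ∣ alMat (M * q) q x y z w 1 1 := by
        simp only [alMat, Matrix.of_apply, Matrix.cons_val', Matrix.cons_val_zero,
          Matrix.cons_val_one, Matrix.cons_val_fin_one, Nat.cast_mul]
        exact ⟨(dvd_mul_left _ _).mul_right _, dvd_mul_right _ _⟩
      exact ⟨dvd_mul_row hrow 0, dvd_mul_row hrow 1⟩
  · refine Prod.ext rfl ((isReps_cRep h.raise (K := K)).inj _ _ ?_)
    have := (alSet_conj_mem h hK' hg hij).2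
    simpa [g, mul_assoc] using this

variable {q' M' R' : ℕ}

theorem alSet_lower (h : ALLevel (M * q) q M) (h' : ALLevel (M * q) q' M')
    (hM : ALLevel M q' R') {g : GLR} (hg : g ∈ alSet h' (liftSub q K) e) :
    g ∈ alSet hM K e := by
  obtain rfl : M' = R' * q := Nat.eq_of_mul_eq_mul_right hM.prime.pos
    (by rw [← h'.eq, hM.eq]; ring)
  obtain ⟨x, y, z, w, hgA, hA, ⟨v, hv, hxv⟩, ⟨u, hu, hyu⟩⟩ := hg
  refine ⟨x, y, (q : ℤ) * z, w, ?_, by push_cast at hA; linear_combination hA, ?_, ⟨u, ?_, hyu⟩⟩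
  · convert hgA using 1
    simp [alMat, mul_assoc]
  · let π : (ZMod (R' * q))ˣ →* (ZMod R')ˣ := ZMod.unitsMap (dvd_mul_right R' q)
    refine ⟨π v, ?_, ?_⟩
    · obtain ⟨k, hk, rfl⟩ := hv
      refine ⟨h.toM k, hk, ?_⟩
      simp only [π, ALLevel.toM]
      rw [← MonoidHom.comp_apply, ← MonoidHom.comp_apply, ZMod.unitsMap_comp, ZMod.unitsMap_comp]
    · have h1 := congrArg (ZMod.castHom (dvd_mul_right R' q) (ZMod R')) hxv
      rw [map_intCast, map_mul, map_pow] at h1
      rw [h1, ← natCast_qUnit h', map_natCast, natCast_qUnit hM]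
      rfl
  · obtain ⟨k, hk, rfl⟩ := hu
    refine ⟨h.toM k, hk, ?_⟩
    simp only [ALLevel.toM, ALLevel.toQ]
    rw [← MonoidHom.comp_apply, ZMod.unitsMap_comp]

theorem wOp_resDeg_old (h : ALLevel (M * q) q M) (h' : ALLevel (M * q) q' M')
    (hM : ALLevel M q' R') (hK : TwistSub M K e) (φ : Additive (gammaH M K) →+ A) :
    wOp R h' (hK.liftSub h) (resDeg R q K φ) = resDeg R q K (wOp R hM hK φ) := by
  rw [wOp_eq R hM hK (alSet_lower h h' hM (wElt_mem h' (liftSub q K) e))]
  unfold wOp resDeg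
  rw [opOf_comp, opOf_comp]
  exact LinearMap.congr_fun (opOf_congr _ _ (Equiv.prodComm Unit Unit) fun p => by
    simp) φ

theorem corDeg_wOp_old (h : ALLevel (M * q) q M) (h' : ALLevel (M * q) q' M')
    (hM : ALLevel M q' R') (hK : TwistSub M K e)
    (φ : Additive (gammaH (M * q) (liftSub q K)) →+ A) :
    corDeg h.raise R K (wOp R h' (hK.liftSub h) φ) = wOp R hM hK (corDeg h.raise R K φ) := by
  have hg := alSet_lower h h' hM (wElt_mem h' (liftSub q K) e)
  rw [wOp_eq R hM hK hg]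
  obtain ⟨E, hE⟩ := exists_twist_equiv (isReps_cRep h.raise (K := K))
    (wElt h' (liftSub q K) e) (fun t ht => (alSet_conj_mem hM hK hg ht).1)
    (fun t ht => (alSet_conj_mem h' (hK.liftSub h) (wElt_mem h' (liftSub q K) e) ht).2)
  unfold corDeg wOp
  rw [opOf_comp, opOf_comp]
  refine (LinearMap.congr_fun (opOf_congr _ _
    ((E.prodCongr (Equiv.refl Unit)).trans (Equiv.prodComm _ _)) fun p => ?_) φ).symm
  simpa [mul_assoc] using hE p.1

end Fermat.Agent.Lifting.Degeneracy
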