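import Fermat.Agent.Lifting.Degeneracy.Equiv

/-!
# The raising map is injective modulo the uniformiser on the localised parts

A class in the kernel modulo `ϖ` may be taken fixed by the diamond operators, hence restricted
from `Γ₀`, where this is the lemma of Ihara.
-/

set_option autoImplicit false
set_option linter.overlappingInstances false

noncomputable section

namespace Fermat.Agent.Lifting.Degeneracy

open IsLocalRing MvPolynomial
open Fermat.Agent.RT.GammaH Fermat.Agent.RT.Lift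
open Fermat.Agent.LevelRaising (AuxPrime)

variable {M q e : ℕ} (h : ALLevel (M * q) q M) {K : Subgroup (ZMod (M * q))ˣ}
  (hK : TwistSub (M * q) K e)

include h in
theorem isPGroup_lowSub [NeZero (M * q)] {p : ℕ} (hpg : IsPGroup p ((ZMod (M * q))ˣ ⧸ K)) :
    IsPGroup p ((ZMod M)ˣ ⧸ lowSub h K) := by
  intro x
  induction x using QuotientGroup.induction_on with | _ u => ?_
  obtain ⟨v, rfl⟩ := ZMod.unitsMap_surjective (dvd_mul_right M q) u
  obtain ⟨k, hk⟩ := hpg (QuotientGroup.mk v)
  refine ⟨k, ?_⟩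
  rw [← QuotientGroup.mk_pow, QuotientGroup.eq_one_iff] at hk ⊢
  rw [← map_pow]
  exact Subgroup.mem_map_of_mem h.toM hk

theorem le_liftSub_top : K ≤ liftSub q (⊤ : Subgroup (ZMod M)ˣ) := by
  rw [liftSub_top]
  exact le_top

variable {O : Type} [CommRing O] {S : Finset ℕ}

theorem conjDeg_resTop {K₁ : Subgroup (ZMod M)ˣ}
    (φ : Additive (gammaH M (⊤ : Subgroup (ZMod M)ˣ)) →+ O) :
    conjDeg h.raise O K₁ (resTop O K₁ φ) =
      res O (gammaH_mono (show liftSub q K₁ ≤ liftSub q (⊤ : Subgroup (ZMod M)ˣ) from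
        Subgroup.comap_mono le_top)) (conjDeg h.raise O ⊤ φ) := by
  unfold conjDeg resTop
  rw [res_eq_opOf, res_eq_opOf, opOf_comp, opOf_comp]
  exact LinearMap.congr_fun (opOf_congr _ _ (Equiv.prodComm Unit Unit) fun p => by
    simp) φ

/-- On classes restricted from `Γ₀(M)` the raising map is `degMap` at the top. -/
theorem stepDeltaH_resLin (eps : O)
    (x : HomMod O S (⊤ : Subgroup (ZMod M)ˣ) O) :
    stepDeltaH O S h hK eps (resLin S (lowSub h K) O x) =
      resMidH O S O (le_liftSub_top (M := M) (q := q) (K := K))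
        (degH O S h.raise ⊤ e (x, eps • x)) := by
  show stepDelta h hK O eps (resTop O (lowSub h K) (toHomMod.symm x)) = _
  set φ := (toHomMod (O := O) (S := S)).symm x
  rw [stepDelta_eq_degMap, degMap_apply, ← map_smul (resTop O (lowSub h K)),
    diamond_resTop, conjDeg_resTop h]
  show _ = resMid O (le_liftSub_top (M := M) (q := q) (K := K))
    (degMap h.raise O ⊤ e (φ, eps • φ))
  rw [degMap_apply, diamond_top, resDeg_eq_res, resDeg_eq_res]
  rfl

variable [IsDomain O] [IsDiscreteValuationRing O] [IsAdicComplete (maximalIdeal O) O]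
  [Finite (ResidueField O)] [CharZero O] {abar : ℕ → ResidueField O}
  {p : ℕ} [Fact p.Prime] [CharP (ResidueField O) p] [NeZero M] [NeZero (M * q)]
  {ℓ : ℕ} (a : AuxPrime q M ℓ) (hℓS : ℓ ∉ S) (hℓ : abar ℓ ≠ 1 + (ℓ : ResidueField O))
  (hp2 : p ≠ 2) (hfree : Module.FreeLevel p M) (hS : ∀ v : ℕ, v.Prime → v ∣ M * q → v ∈ S)
  {ϖ : O} (hϖ : Irreducible ϖ)

include hfree a hℓS hℓ hp2 hS hϖ in
/-- **Ihara's lemma for the raising map**: it is injective modulo the uniformiser on the localised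
part. -/
theorem exists_eq_smul_of_stepDeltaH (hpg : IsPGroup p ((ZMod (M * q))ˣ ⧸ K)) (eps : O)
    {x : HomMod O S (lowSub h K) O} (hx : x ∈ locSub O S abar (lowSub h K))
    {y : HomMod O S K O} (hxy : stepDeltaH O S h hK eps x = ϖ • y) :
    ∃ χ ∈ locSub O S abar (lowSub h K), x = ϖ • χ := by
  classical
  have hq : q ∈ S := hS q h.prime h.dvdQ
  have hSM : ∀ v : ℕ, v.Prime → v ∣ M → v ∈ S := fun v hv hd => hS v hv (hd.mul_right q)
  have hEis : ∃ ℓ : ℕ, ℓ.Prime ∧ ℓ ∉ S ∧ abar ℓ ≠ 1 + (ℓ : ResidueField O) :=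
    ⟨ℓ, a.prime, hℓS, hℓ⟩
  have hpgM := isPGroup_lowSub h hpg
  set Ker : HomMod O S (lowSub h K) O → Prop := fun z =>
    z ∈ locSub O S abar (lowSub h K) ∧ ∃ y : HomMod O S K O, stepDeltaH O S h hK eps z = ϖ • y
  -- the classes fixed modulo `ϖ`
  have hfix : ∀ z, Ker z → (∀ u : (ZMod M)ˣ, ∃ w : HomMod O S (lowSub h K) O,
      (X (Sum.inl u) : OpRing O M S) • z - z = ϖ • w) →
      ∃ χ ∈ locSub O S abar (lowSub h K), z = ϖ • χ := by
    rintro z ⟨hz, y, hy⟩ hinv
    obtain ⟨x₀, hx₀, w, hw, rfl⟩ := exists_resLin_of_invariant (p := p) hp2 hfree hpgM hSM hEis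
      hϖ hz hinv
    obtain ⟨e', he', he'₀⟩ := exists_isLocalizer_map (N := M * q) (N' := M)
      (σ := lowerOp O M q S) (K := liftSub q (⊤ : Subgroup (ZMod M)ˣ))
      (K' := (⊤ : Subgroup (ZMod M)ˣ)) (abar := abar) lowerOp_surjective opRes_lowerOp
    rw [locSub_eq he'₀] at hx₀
    have hx₀' : eps • x₀ ∈ localPart O (lowerOp O M q S e')
        (HomMod O S (⊤ : Subgroup (ZMod M)ˣ) O) := Submodule.smul_mem _ _ hx₀
    have hdeg : degH O S h.raise ⊤ e (x₀, eps • x₀) ∈
        locSub O S abar (liftSub q (⊤ : Subgroup (ZMod M)ˣ)) := by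
      rw [locSub_eq he']
      exact degH_mem_localPart h.raise hq e hx₀ hx₀'
    rw [map_add, map_smul, stepDeltaH_resLin] at hy
    obtain ⟨χ', hχ'⟩ := exists_eq_smul_of_res (K := K) (abar := abar) (liftSub_top (M := M) (q := q))
      le_liftSub_top hS hEis hϖ hdeg
      (y := y - stepDeltaH O S h hK eps w) (by
        rw [smul_sub, ← hy, add_sub_cancel_right]
        rfl)
    obtain ⟨⟨χ₁, χ₂⟩, hm, -, hχ⟩ := exists_eq_smul_of_degH h.raise a Fact.out hp2 hℓS hℓ hϖ
      he'₀ e (φ := (x₀, eps • x₀)) hx₀ hx₀' hχ'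
    have h1 : x₀ = ϖ • χ₁ := congrArg Prod.fst hχ
    rw [← locSub_eq he'₀] at hm
    refine ⟨resLin S (lowSub h K) O χ₁ + w, add_mem (map_mem_locSub_of_linear _ hm) hw, ?_⟩
    rw [h1, smul_add, LinearMap.map_smul_of_tower]
  -- descend to the fixed classes
  have key : ∀ (s : Finset (ZMod M)ˣ) (z : HomMod O S (lowSub h K) O), Ker z →
      (∀ u ∉ s, ∃ w, (X (Sum.inl u) : OpRing O M S) • z - z = ϖ • w) →
      ∃ χ ∈ locSub O S abar (lowSub h K), z = ϖ • χ := by
    intro s
    induction s using Finset.induction with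
    | empty => exact fun z hz hu => hfix z hz fun u => hu u (Finset.notMem_empty u)
    | @insert u s _ ih =>
      intro z hz hu
      set A : OpRing O M S := X (Sum.inl u) - 1
      have hA : A ∈ resIdeal S abar M := by
        rw [mem_resIdeal, map_sub, opRes_inl, map_one, sub_self]
      obtain ⟨n, hn⟩ := exists_pow_smul (K := lowSub h K) hϖ hA
      suffices ∀ j ≤ n, ∃ χ ∈ locSub O S abar (lowSub h K), A ^ (n - j) • z = ϖ • χ by
        simpa using this n le_rfl
      intro j hj
      induction j with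
      | zero => exact hn z hz.1
      | succ j ihj =>
        obtain ⟨χ, -, hχ⟩ := ihj (Nat.le_of_succ_le hj)
        refine ih _ ⟨smul_mem_locSub _ hz.1, ?_⟩ fun v hv => ?_
        · obtain ⟨y, hy⟩ := hz.2
          obtain ⟨B, hB⟩ := lowerOp_surjective (O := O) (S := S) (M := M) (q := q)
            (A ^ (n - (j + 1)))
          exact ⟨B • y, by rw [← hB, stepDeltaH_smul h hK hq eps, hy, smul_comm]⟩
        · rcases eq_or_ne v u with rfl | hne
          · refine ⟨χ, ?_⟩
            rw [← hχ, show n - j = n - (j + 1) + 1 by omega, pow_succ', mul_smul]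
            show _ = A • _
            simp only [A, sub_smul, one_smul]
          · obtain ⟨w, hw⟩ := hu v (by simp [hne, hv])
            refine ⟨A ^ (n - (j + 1)) • w, ?_⟩
            rw [smul_comm ϖ, ← hw, smul_sub, smul_smul, smul_smul,
              mul_comm (X (Sum.inl v) : OpRing O M S)]
  exact key Finset.univ x ⟨hx, y, hxy⟩ fun u hu => absurd (Finset.mem_univ u) hu

end Fermat.Agent.Lifting.Degeneracy
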