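import Fermat.Agent.Lifting.Degeneracy.WOp

/-!
# Restriction and corestriction between two subgroups `K ≤ K'` at one level
-/

set_option autoImplicit false

noncomputable section

namespace Fermat.Agent.Lifting.Degeneracy

open CongruenceSubgroup Matrix.SpecialLinearGroup
open Fermat.Agent.RT.GammaH
open scoped MatrixGroups

variable {N : ℕ} {K K' : Subgroup (ZMod N)ˣ}

/-- The representatives of `Γ_K \ Γ_K'`. -/
def midRep (K K' : Subgroup (ZMod N)ˣ) (p : K' ⧸ K.subgroupOf K') : SL(2, ℤ) :=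
  gamma0Elt ((p.out : K') : (ZMod N)ˣ)⁻¹

theorem midRep_mem (p : K' ⧸ K.subgroupOf K') : midRep K K' p ∈ gammaH N K' :=
  ⟨gamma0Elt_lowerLeft _, _, inv_mem p.out.2, gamma0Elt_upperLeft _⟩

theorem midRep_eq_of_upperLeft {p p' : K' ⧸ K.subgroupOf K'} {u : (ZMod N)ˣ} (hu : u ∈ K)
    (he : ((midRep K K' p) 0 0 : ZMod N) = u * (midRep K K' p') 0 0) : p = p' := by
  rw [midRep, midRep, gamma0Elt_upperLeft, gamma0Elt_upperLeft, ← Units.val_mul, Units.val_inj,
    eq_mul_inv_iff_mul_eq] at he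
  rw [← QuotientGroup.out_eq' p, ← QuotientGroup.out_eq' p', QuotientGroup.eq,
    Subgroup.mem_subgroupOf, Subgroup.coe_mul, Subgroup.coe_inv, he]
  exact hu

theorem isCoreps_midRep (hle : K ≤ K') :
    IsCoreps (gammaH N K) (gammaH N K') (midRep K K') where
  le := gammaH_mono hle
  mem := midRep_mem
  conj p γ := ⟨gammaH_conj (gamma0Elt_mem _), fun h => by
    have := gammaH_conj (inv_mem (gamma0Elt_mem (M := N) ((p.out : K') : (ZMod N)ˣ)⁻¹)) h
    simpa [mul_assoc, midRep] using this⟩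
  inj p p' h := by
    obtain ⟨-, u, hu, ha⟩ := h
    refine midRep_eq_of_upperLeft hu ?_
    rw [← ha, ← gamma0_mul_apply_upperLeft _ _ (gammaH_le_Gamma0 (midRep_mem p')),
      inv_mul_cancel_right]
  surj g hg := by
    obtain ⟨hc, u, hu', ha⟩ := hg
    refine ⟨QuotientGroup.mk ⟨u⁻¹, inv_mem hu'⟩, ?_⟩
    set p : K' ⧸ K.subgroupOf K' := QuotientGroup.mk ⟨u⁻¹, inv_mem hu'⟩
    have hw : u * (p.out : (ZMod N)ˣ) ∈ K := by
      have h := QuotientGroup.out_eq' p
      rw [eq_comm, QuotientGroup.eq, Subgroup.mem_subgroupOf] at h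
      simpa using h
    refine gamma0_mul_inv_mem (Gamma0_mem.2 hc) (gamma0Elt_mem _) hw ?_
    rw [ha, midRep, gamma0Elt_upperLeft, Units.val_mul, mul_assoc, Units.mul_inv, mul_one]

variable {A : Type*} [AddCommGroup A] (R : Type*) [Semiring R] [Module R A]

/-- Restriction from `K'` to `K`. -/
def resMid (hle : K ≤ K') :
    (Additive (gammaH N K') →+ A) →ₗ[R] (Additive (gammaH N K) →+ A) :=
  res R (gammaH_mono hle)

variable [Fintype (K' ⧸ K.subgroupOf K')]

/-- Corestriction from `K` to `K'`. -/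
def coresMid (hle : K ≤ K') :
    (Additive (gammaH N K) →+ A) →ₗ[R] (Additive (gammaH N K') →+ A) :=
  (isCoreps_midRep hle).cores R

theorem coresMid_resMid (hle : K ≤ K') (φ : Additive (gammaH N K') →+ A) :
    coresMid R hle (resMid R hle φ) = Fintype.card (K' ⧸ K.subgroupOf K') • φ := by
  unfold coresMid IsCoreps.cores resMid
  rw [res_eq_opOf, opOf_comp]
  refine (LinearMap.congr_fun (opOf_congr _
    (admissible_id.copies (κ := K' ⧸ K.subgroupOf K'))
    (Equiv.prodComm Unit _) fun p => ?_) φ).trans ?_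
  · simpa using mapGL_mem_img.2 (midRep_mem p.2)
  · refine (LinearMap.congr_fun (opOf_copies admissible_id) φ).trans ?_
    rw [LinearMap.smul_apply, opOf_id]

theorem resMid_coresMid (hle : K ≤ K') (φ : Additive (gammaH N K) →+ A) :
    resMid R hle (coresMid R hle φ) =
      ∑ p : K' ⧸ K.subgroupOf K', diamond N K R ((p.out : K') : (ZMod N)ˣ) φ :=
  (isCoreps_midRep hle).res_cores (R := R) φ

omit [Fintype (K' ⧸ K.subgroupOf K')] in
theorem diamond_resMid (hle : K ≤ K') (u : (ZMod N)ˣ) (φ : Additive (gammaH N K') →+ A) :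
    diamond N K R u (resMid R hle φ) = resMid R hle (diamond N K' R u φ) := by
  refine AddMonoidHom.ext fun x => ?_
  obtain ⟨γ, rfl⟩ := Additive.ofMul.surjective x
  rw [diamond_apply, resMid, res_apply, res_apply, diamond_apply]
  rfl

omit [Fintype (K' ⧸ K.subgroupOf K')] in
theorem hecke_resMid (hle : K ≤ K') {n : ℕ} [Fact n.Prime]
    (φ : Additive (gammaH N K') →+ A) :
    hecke N K n R (resMid R hle φ) = resMid R hle (hecke N K' n R φ) := by
  unfold hecke resMid
  rw [res_eq_opOf, opOf_comp, opOf_comp]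
  exact LinearMap.congr_fun (opOf_congr _ _ (Equiv.prodComm Unit (HIdx N n)) fun p => by
    simp) φ

theorem coresMid_diamond (hle : K ≤ K') (u : (ZMod N)ˣ) (φ : Additive (gammaH N K) →+ A) :
    coresMid R hle (diamond N K R u φ) = diamond N K' R u (coresMid R hle φ) := by
  obtain ⟨E, hE⟩ := exists_twist_equiv (isCoreps_midRep hle).isReps
    (mapGL ℝ (gamma0Elt (M := N) u⁻¹))
    (fun g hg => by
      obtain ⟨γ, rfl⟩ := exists_of_mem_img hg
      rw [← map_inv, ← map_mul, ← map_mul]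
      exact mapGL_mem_img.2 (gammaH_conj (gamma0Elt_mem _) γ.2))
    (fun g hg => by
      obtain ⟨γ, rfl⟩ := exists_of_mem_img hg
      rw [← map_inv, ← map_mul, ← map_mul]
      refine mapGL_mem_img.2 ?_
      simpa using gammaH_conj (inv_mem (gamma0Elt_mem (M := N) u⁻¹)) γ.2)
  unfold coresMid IsCoreps.cores diamond
  rw [opOf_comp, opOf_comp]
  refine (LinearMap.congr_fun (opOf_congr _ _
    ((E.prodCongr (Equiv.refl Unit)).trans (Equiv.prodComm _ _)) fun p => ?_) φ).symm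
  simpa [diaRep, mul_assoc] using hE p.1

theorem coresMid_hecke (hle : K ≤ K') {n : ℕ} [Fact n.Prime]
    (φ : Additive (gammaH N K) →+ A) :
    coresMid R hle (hecke N K n R φ) = hecke N K' n R (coresMid R hle φ) := by
  have hr : IsReps (gammaH N K) (heckeSet N K' n)
      (fun p : (K' ⧸ K.subgroupOf K') × HIdx N n =>
        mapGL ℝ (midRep K K' p.1) * hRep N n p.2) :=
    RT.Lift.isReps_tower (gammaH_mono hle) (isCoreps_midRep hle).isReps isReps_hRep
      fun g hg y hy => by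
        obtain ⟨γ, rfl⟩ := exists_of_mem_img hg
        exact gammaH_mul_heckeSet hy γ.2
  unfold hecke coresMid IsCoreps.cores
  rw [opOf_comp, opOf_comp]
  refine LinearMap.congr_fun (opOf_eq_of_isReps (D := heckeSet N K' n) _ _ ?_ hr) φ
  refine hr.of_card (fun p => ?_) ?_ (le_of_eq (Nat.card_congr (Equiv.prodComm _ _)))
  · exact heckeSet_mul_gammaH (hRep_mem_heckeSet p.1) ⟨_, midRep_mem p.2⟩
  · rintro ⟨i, p⟩ ⟨j, p'⟩ h
    obtain ⟨γ, hγ, he⟩ := h
    obtain ⟨X, hX, -, hXc, x, hx, hXa⟩ := hRep_mem_heckeSet (K := (⊥ : Subgroup (ZMod N)ˣ)) i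
    obtain ⟨Y, hY, -, hYc, y, hy, hYa⟩ := hRep_mem_heckeSet (K := (⊥ : Subgroup (ZMod N)ˣ)) j
    rw [Subgroup.mem_bot] at hx hy
    subst hx hy
    have heq : hRep N n i * mapGL ℝ (midRep K K' p) =
        mapGL ℝ γ * (hRep N n j * mapGL ℝ (midRep K K' p')) := by
      rw [he, inv_mul_cancel_right]
    have e := congrArg (fun m : Matrix (Fin 2) (Fin 2) ℤ => (m 0 0 : ZMod N))
      ((hX.mul (isIntMat_mapGL _)).unique
        (heq ▸ (isIntMat_mapGL γ).mul (hY.mul (isIntMat_mapGL _))))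
    obtain ⟨hγc, u, hu, hua⟩ := hγ
    have hs : ∀ p : K' ⧸ K.subgroupOf K', ((midRep K K' p) 1 0 : ZMod N) = 0 := fun p =>
      gamma0Elt_lowerLeft _
    obtain rfl : p = p' := by
      refine midRep_eq_of_upperLeft hu ?_
      simpa [Matrix.mul_apply, Fin.sum_univ_two, hXa, hYa, hXc, hYc, hs, hua] using e
    refine Prod.ext (hRep_injective_mod (Γ := gammaH N K) i j ⟨γ, ⟨hγc, u, hu, hua⟩, ?_⟩) rfl
    rw [← mul_assoc] at heq
    rw [eq_mul_inv_iff_mul_eq]
    exact (mul_right_cancel heq).symm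

omit [Fintype (K' ⧸ K.subgroupOf K')] in
theorem alSet_mono (hle : K ≤ K') {q M e : ℕ} (h : ALLevel N q M) {g : GLR}
    (hg : g ∈ alSet h K e) : g ∈ alSet h K' e := by
  obtain ⟨x, y, z, w, hgA, hA, ⟨v, hv, hxv⟩, ⟨u, hu, hyu⟩⟩ := hg
  exact ⟨x, y, z, w, hgA, hA, ⟨v, Subgroup.map_mono hle hv, hxv⟩,
    ⟨u, Subgroup.map_mono hle hu, hyu⟩⟩

omit [Fintype (K' ⧸ K.subgroupOf K')] in
theorem wOp_resMid (hle : K ≤ K') {q M e : ℕ} (h : ALLevel N q M) (hK : TwistSub N K e)
    (hK' : TwistSub N K' e) (φ : Additive (gammaH N K') →+ A) :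
    wOp R h hK (resMid R hle φ) = resMid R hle (wOp R h hK' φ) := by
  rw [wOp_eq R h hK' (alSet_mono hle h (wElt_mem h K e))]
  unfold wOp resMid
  rw [res_eq_opOf, opOf_comp, opOf_comp]
  exact LinearMap.congr_fun (opOf_congr _ _ (Equiv.prodComm Unit Unit) fun p => by
    simp) φ

theorem coresMid_wOp (hle : K ≤ K') {q M e : ℕ} (h : ALLevel N q M) (hK : TwistSub N K e)
    (hK' : TwistSub N K' e) (φ : Additive (gammaH N K) →+ A) :
    coresMid R hle (wOp R h hK φ) = wOp R h hK' (coresMid R hle φ) := by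
  rw [wOp_eq R h hK' (alSet_mono hle h (wElt_mem h K e))]
  obtain ⟨E, hE⟩ := exists_twist_equiv (isCoreps_midRep hle).isReps (wElt h K e)
    (fun g hg => (alSet_conj_mem h hK' (alSet_mono hle h (wElt_mem h K e)) hg).1)
    (fun g hg => (alSet_conj_mem h hK (wElt_mem h K e) hg).2)
  unfold coresMid IsCoreps.cores wOp
  rw [opOf_comp, opOf_comp]
  refine (LinearMap.congr_fun (opOf_congr _ _
    ((E.prodCongr (Equiv.refl Unit)).trans (Equiv.prodComm _ _)) fun p => ?_) φ).symm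
  simpa [mul_assoc] using hE p.1

theorem coresTop_coresMid (hle : K ≤ K') [Fintype ((ZMod N)ˣ ⧸ K)] [Fintype ((ZMod N)ˣ ⧸ K')]
    (φ : Additive (gammaH N K) →+ A) :
    coresTop R K' (coresMid R hle φ) = coresTop R K φ := by
  unfold coresTop coresMid IsCoreps.cores
  rw [opOf_comp]
  exact LinearMap.congr_fun (opOf_eq_of_isReps (D := (img (gammaH N ⊤) : Set GLR)) _ _
    (RT.Lift.isReps_tower (gammaH_mono hle) (isCoreps_midRep hle).isReps
      (isCoreps_deltaRep (K := K')).isReps fun g hg y hy =>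
        mul_mem (img_mono le_top_gammaH hg) hy)
    (isCoreps_deltaRep (K := K)).isReps) φ

omit [Fintype (K' ⧸ K.subgroupOf K')] in
theorem resMid_resTop (hle : K ≤ K') (φ : Additive (gammaH N (⊤ : Subgroup (ZMod N)ˣ)) →+ A) :
    resMid R hle (resTop R K' φ) = resTop R K φ := rfl

end Fermat.Agent.Lifting.Degeneracy
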