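import Fermat.Agent.Lifting.Degeneracy.OldIso
import Fermat.Agent.Lifting.Eigen.NewKernel
import Fermat.Agent.RT.GammaH.Embed

/-!
# The old iso when no congruent newform has an auxiliary prime in its level
-/

set_option autoImplicit false
set_option linter.overlappingInstances false

noncomputable section

open CongruenceSubgroup ModularFormClass IsLocalRing
open scoped ModularForm

namespace Fermat.Agent.Lifting.Degeneracy

open Fermat.Agent.RT.GammaH Fermat.Agent.RT.Lift
open Fermat.Agent.RT (IsCongruentForm)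

variable {O : Type} [CommRing O] {S : Finset ℕ}

section Composite

variable [IsDomain O] [IsDiscreteValuationRing O] [IsAdicComplete (maximalIdeal O) O]
  [Finite (ResidueField O)] [CharZero O] {abar : ℕ → ResidueField O}

/-- **The localised part of `Γ₀(L₀ ∏ Q)` is `2 ^ |Q|` copies of that of `Γ₀(L₀)`** when no
congruent newform has a prime of `Q` in its level. -/
theorem exists_oldIso_of_newforms {L₀ N : ℕ} [NeZero L₀] [NeZero N] (Q : Finset ℕ)
    (hQ : ∀ q ∈ Q, q.Prime ∧ ¬ q ∣ L₀) (hN : N = L₀ * ∏ q ∈ Q, q) (hd : L₀ ∣ N)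
    (hsq : Squarefree N) (hS : ∀ v : ℕ, v.Prime → v ∣ N → v ∈ S)
    (hEis : ∃ ℓ : ℕ, ℓ.Prime ∧ ℓ ∉ S ∧ abar ℓ ≠ 1 + (ℓ : ResidueField O))
    (hdet : ∀ q ∈ Q, ∀ [Fact q.Prime], ∀ x ∈ locSub O S abar (⊤ : Subgroup (ZMod L₀)ˣ),
      ∃ y ∈ locSub O S abar (⊤ : Subgroup (ZMod L₀)ˣ), crossDet O S q y = x)
    (hold : ∀ q ∈ Q, ∀ (M' : ℕ) (g : CuspForm (Gamma0 M') 2), g.IsNewform → M' ∣ N →
      IsCongruentForm S abar g → ¬ q ∣ M') :
    Nonempty (OldIso O S abar hd Q) :=
  have hqS : ∀ q ∈ Q, q ∈ S := fun q hq => hS q (hQ q hq).1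
    (hN ▸ (Finset.dvd_prod_of_mem (fun q => q) hq).trans (dvd_mul_left _ L₀))
  exists_oldIso Q (fun q hq => ⟨(hQ q hq).1, (hQ q hq).2, hqS q hq⟩) hN hd hdet
    fun q hq M _ _ _ h _ hMN _ x hx h0 => by
      obtain ⟨σ, hσ⟩ := exists_injective_complex (O := O)
      let _ : Algebra O ℂ := σ.toAlgebra
      have hK : liftSub q (⊤ : Subgroup (ZMod M)ˣ) = ⊤ := liftSub_top
      set x' := (congrH O S O hK).symm x
      have hx' : x' ∈ locSub O S abar (liftSub q (⊤ : Subgroup (ZMod M)ˣ)) :=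
        map_mem_locSub_of_linear (congrH O S O hK).symm.toLinearMap hx
      by_contra hne
      have hne' : x' ≠ 0 := fun hz => hne (by
        simpa [x'] using congrArg (congrH O S O hK) hz)
      obtain ⟨R, g, hR, hqR, hg, hcong⟩ := Eigen.exists_newform_of_kernel (q := q) (M := M) hσ
        ⟨h.prime, rfl, h.not_dvd⟩ (hsq.squarefree_of_dvd hMN)
        (fun v hv hd' => hS v hv (hd'.trans hMN)) hEis
        (isLocalizer_locElt O S abar (liftSub q (⊤ : Subgroup (ZMod M)ˣ))) hx'
        (congrArg Prod.fst h0)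
        ((diamond_top O _ _).symm.trans (congrArg Prod.snd h0)) hne'
      exact hold q hq R g hg (hR.trans hMN) hcong hqR

end Composite

end Fermat.Agent.Lifting.Degeneracy
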