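import Fermat.Agent.RT.Lift.Degeneracy

/-!
# Levels with a distinguished prime and subgroups which split there

`ALLevel N q M` says `N = M q` with `q ∤ M`. A subgroup `K` of `(ℤ/N)ˣ` is a `TwistSub` for the
exponent `e` if it is the product of its components at every such prime and contains every
`u ^ (2 e + 1)`. Then `u ^ e` is the inverse of the square root of `u` modulo `K`.
-/

set_option autoImplicit false

noncomputable section

namespace Fermat.Agent.Lifting.Degeneracy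

open Fermat.Agent.RT.GammaH
open Fermat.Agent.LevelRaising (RaiseData)
open scoped MatrixGroups

/-- `N = M q` with `q` prime and prime to `M`. -/
structure ALLevel (N q M : ℕ) : Prop where
  prime : q.Prime
  eq : N = M * q
  not_dvd : ¬ q ∣ M

namespace ALLevel

variable {N q M : ℕ} (h : ALLevel N q M)

include h

theorem raise : RaiseData q M := ⟨h.prime, h.not_dvd⟩

theorem dvdM : M ∣ N := h.eq ▸ dvd_mul_right M q

theorem dvdQ : q ∣ N := h.eq ▸ dvd_mul_left q M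

theorem coprime : M.Coprime q := ((Nat.Prime.coprime_iff_not_dvd h.prime).2 h.not_dvd).symm

theorem ne_zero : N ≠ 0 := by
  rw [h.eq]
  exact Nat.mul_ne_zero h.raise.level_ne_zero h.prime.ne_zero

theorem natCast_eq : (N : ℤ) = M * q := by rw [h.eq, Nat.cast_mul]

/-- The component away from `q`. -/
def toM : (ZMod N)ˣ →* (ZMod M)ˣ := ZMod.unitsMap h.dvdM

/-- The component at `q`. -/
def toQ : (ZMod N)ˣ →* (ZMod q)ˣ := ZMod.unitsMap h.dvdQ

theorem intCast_toM {a : ℤ} {u : (ZMod N)ˣ} (hu : (a : ZMod N) = u) :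
    (a : ZMod M) = h.toM u := by
  rw [← map_intCast (ZMod.castHom h.dvdM (ZMod M)), hu]
  rfl

theorem intCast_toQ {a : ℤ} {u : (ZMod N)ˣ} (hu : (a : ZMod N) = u) :
    (a : ZMod q) = h.toQ u := by
  rw [← map_intCast (ZMod.castHom h.dvdQ (ZMod q)), hu]
  rfl

theorem natCast_toM {a : ℕ} {u : (ZMod N)ˣ} (hu : (a : ZMod N) = u) :
    (a : ZMod M) = h.toM u := by
  simpa using h.intCast_toM (a := (a : ℤ)) (by simpa using hu)

theorem natCast_toQ {a : ℕ} {u : (ZMod N)ˣ} (hu : (a : ZMod N) = u) :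
    (a : ZMod q) = h.toQ u := by
  simpa using h.intCast_toQ (a := (a : ℤ)) (by simpa using hu)

theorem exists_unit (a : (ZMod M)ˣ) (b : (ZMod q)ˣ) :
    ∃ u : (ZMod N)ˣ, h.toM u = a ∧ h.toQ u = b := by
  obtain ⟨rfl, hM⟩ := And.intro h.eq h.coprime
  let E : ZMod (M * q) ≃+* ZMod M × ZMod q := ZMod.chineseRemainder hM
  let P : ZMod M × ZMod q := ((a : ZMod M), (b : ZMod q))
  have hP : IsUnit P := Prod.isUnit_iff.2 ⟨a.isUnit, b.isUnit⟩
  refine ⟨(hP.map E.symm).unit, Units.ext ?_, Units.ext ?_⟩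
  · show ZMod.castHom h.dvdM (ZMod M) (E.symm P) = _
    rw [show ZMod.castHom h.dvdM (ZMod M) =
      (RingHom.fst (ZMod M) (ZMod q)).comp E.toRingHom from Subsingleton.elim _ _]
    simp [P]
  · show ZMod.castHom h.dvdQ (ZMod q) (E.symm P) = _
    rw [show ZMod.castHom h.dvdQ (ZMod q) =
      (RingHom.snd (ZMod M) (ZMod q)).comp E.toRingHom from Subsingleton.elim _ _]
    simp [P]

/-- A chosen unit with given components. -/
def unit (a : (ZMod M)ˣ) (b : (ZMod q)ˣ) : (ZMod N)ˣ := (h.exists_unit a b).choose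

theorem toM_unit (a : (ZMod M)ˣ) (b : (ZMod q)ˣ) : h.toM (h.unit a b) = a :=
  (h.exists_unit a b).choose_spec.1

theorem toQ_unit (a : (ZMod M)ˣ) (b : (ZMod q)ˣ) : h.toQ (h.unit a b) = b :=
  (h.exists_unit a b).choose_spec.2

theorem intCast_ext {a b : ℤ} (hM : (a : ZMod M) = b) (hQ : (a : ZMod q) = b) :
    (a : ZMod N) = b := by
  rw [← sub_eq_zero, ← Int.cast_sub, ZMod.intCast_zmod_eq_zero_iff_dvd] at *
  rw [h.natCast_eq]
  exact h.raise.isCoprime.symm.mul_dvd hM hQ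

theorem intCast_eq_unit {a : ℤ} {u : (ZMod N)ˣ} (hM : (a : ZMod M) = h.toM u)
    (hQ : (a : ZMod q) = h.toQ u) : (a : ZMod N) = u := by
  obtain ⟨b, hb⟩ := ZMod.intCast_surjective (u : ZMod N)
  rw [← hb]
  exact h.intCast_ext (hM.trans (h.intCast_toM hb).symm) (hQ.trans (h.intCast_toQ hb).symm)

theorem unit_ext {u v : (ZMod N)ˣ} (hM : h.toM u = h.toM v) (hQ : h.toQ u = h.toQ v) : u = v := by
  obtain ⟨a, ha⟩ := ZMod.intCast_surjective (u : ZMod N)
  refine Units.ext ?_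
  rw [← ha]
  exact h.intCast_eq_unit (by rw [h.intCast_toM ha, hM]) (by rw [h.intCast_toQ ha, hQ])

/-- Inversion of the component at `q`. -/
def iota : (ZMod N)ˣ →* (ZMod N)ˣ where
  toFun u := h.unit (h.toM u) (h.toQ u)⁻¹
  map_one' := h.unit_ext (by simp [h.toM_unit]) (by simp [h.toQ_unit])
  map_mul' u v := h.unit_ext (by simp [h.toM_unit]) (by simp [h.toQ_unit, mul_comm])

theorem toM_iota (u : (ZMod N)ˣ) : h.toM (h.iota u) = h.toM u := h.toM_unit _ _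

theorem toQ_iota (u : (ZMod N)ˣ) : h.toQ (h.iota u) = (h.toQ u)⁻¹ := h.toQ_unit _ _

theorem iota_iota (u : (ZMod N)ˣ) : h.iota (h.iota u) = u :=
  h.unit_ext (by rw [h.toM_iota, h.toM_iota]) (by rw [h.toQ_iota, h.toQ_iota, inv_inv])

end ALLevel

/-- `K` is the product of its local components and its quotient has exponent dividing
`2 e + 1`. -/
structure TwistSub (N : ℕ) (K : Subgroup (ZMod N)ˣ) (e : ℕ) : Prop where
  split : ∀ {q M : ℕ} (h : ALLevel N q M) (u : (ZMod N)ˣ),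
    h.toM u ∈ K.map h.toM → h.toQ u ∈ K.map h.toQ → u ∈ K
  pow : ∀ u : (ZMod N)ˣ, u ^ (2 * e + 1) ∈ K

namespace TwistSub

variable {N q M e : ℕ} {K : Subgroup (ZMod N)ˣ} (hK : TwistSub N K e) (h : ALLevel N q M)

include hK

omit h in
theorem neg_one_mem : (-1 : (ZMod N)ˣ) ∈ K := by
  simpa [pow_succ, pow_mul] using hK.pow (-1)

theorem pow_mem_map {M' : ℕ} [NeZero N] (hd : M' ∣ N) (u : (ZMod M')ˣ) :
    u ^ (2 * e + 1) ∈ K.map (ZMod.unitsMap hd) := by
  obtain ⟨v, rfl⟩ := ZMod.unitsMap_surjective hd u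
  exact ⟨_, hK.pow v, map_pow _ _ _⟩

theorem pow_mem_toM (u : (ZMod M)ˣ) : u ^ (2 * e + 1) ∈ K.map h.toM :=
  haveI : NeZero N := ⟨h.ne_zero⟩
  hK.pow_mem_map h.dvdM u

theorem pow_mem_toQ (u : (ZMod q)ˣ) : u ^ (2 * e + 1) ∈ K.map h.toQ :=
  haveI : NeZero N := ⟨h.ne_zero⟩
  hK.pow_mem_map h.dvdQ u

theorem neg_one_mem_toQ : (-1 : (ZMod q)ˣ) ∈ K.map h.toQ :=
  ⟨-1, hK.neg_one_mem, Units.ext (by simp [ALLevel.toQ, ZMod.unitsMap])⟩

omit hK in
theorem toM_mem {u : (ZMod N)ˣ} (hu : u ∈ K) : h.toM u ∈ K.map h.toM :=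
  Subgroup.mem_map_of_mem _ hu

omit hK in
theorem toQ_mem {u : (ZMod N)ˣ} (hu : u ∈ K) : h.toQ u ∈ K.map h.toQ :=
  Subgroup.mem_map_of_mem _ hu

/-- The congruence criterion for `a ∈ s K`. -/
theorem exists_mem_eq (s : (ZMod N)ˣ) {a : ℤ} {uM : (ZMod M)ˣ} (huM : uM ∈ K.map h.toM)
    {uQ : (ZMod q)ˣ} (huQ : uQ ∈ K.map h.toQ) (haM : (a : ZMod M) = h.toM s * uM)
    (haQ : (a : ZMod q) = h.toQ s * uQ) : ∃ k ∈ K, (a : ZMod N) = s * k := by
  refine ⟨h.unit uM uQ, hK.split h _ (by rwa [h.toM_unit]) (by rwa [h.toQ_unit]), ?_⟩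
  rw [← Units.val_mul]
  refine h.intCast_eq_unit ?_ ?_
  · rw [map_mul, h.toM_unit, haM, Units.val_mul]
  · rw [map_mul, h.toQ_unit, haQ, Units.val_mul]

/-- The congruence criterion for membership of `gammaH N K`. -/
theorem mem_gammaH {g : SL(2, ℤ)} (hc : (N : ℤ) ∣ g 1 0) {uM : (ZMod M)ˣ}
    (huM : uM ∈ K.map h.toM) {uQ : (ZMod q)ˣ} (huQ : uQ ∈ K.map h.toQ)
    (haM : (g 0 0 : ZMod M) = uM) (haQ : (g 0 0 : ZMod q) = uQ) : g ∈ gammaH N K := by
  obtain ⟨k, hk, hgk⟩ := hK.exists_mem_eq h 1 huM huQ (by simpa using haM) (by simpa using haQ)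
  exact ⟨(ZMod.intCast_zmod_eq_zero_iff_dvd _ _).2 hc, k, hk, by simpa using hgk⟩

theorem iota_mem {u : (ZMod N)ˣ} (hu : u ∈ K) : h.iota u ∈ K :=
  hK.split h _ (by rw [h.toM_iota]; exact toM_mem h hu)
    (by rw [h.toQ_iota]; exact inv_mem (toQ_mem h hu))

/-- The image at level `M` is again split. -/
theorem map_toM : TwistSub M (K.map h.toM) e := by
  refine ⟨fun {q' M'} h' u hM hQ => ?_, fun u => hK.pow_mem_toM h u⟩
  have hne : q' ≠ q := fun hc => h.not_dvd (hc ▸ h'.dvdQ)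
  have hN : ALLevel N q' (M' * q) :=
    ⟨h'.prime, by rw [h.eq, h'.eq]; ring, fun hd => (h'.prime.dvd_mul.1 hd).elim h'.not_dvd
      fun hd' => hne ((Nat.prime_dvd_prime_iff_eq h'.prime h.prime).1 hd')⟩
  have hin : ALLevel (M' * q) q M' :=
    ⟨h.prime, rfl, fun hd => h.not_dvd (hd.trans h'.dvdM)⟩
  have cM : ∀ v, hin.toM (hN.toM v) = h'.toM (h.toM v) := fun v => by
    simp only [ALLevel.toM]
    rw [← MonoidHom.comp_apply, ← MonoidHom.comp_apply, ZMod.unitsMap_comp, ZMod.unitsMap_comp]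
  have cQ : ∀ v, hin.toQ (hN.toM v) = h.toQ v := fun v => by
    simp only [ALLevel.toM, ALLevel.toQ]
    rw [← MonoidHom.comp_apply, ZMod.unitsMap_comp]
  have cQ' : ∀ v, hN.toQ v = h'.toQ (h.toM v) := fun v => by
    simp only [ALLevel.toM, ALLevel.toQ]
    rw [← MonoidHom.comp_apply, ZMod.unitsMap_comp]
  obtain ⟨_, ⟨k₁, hk₁, rfl⟩, e₁⟩ := hM
  obtain ⟨_, ⟨k₂, hk₂, rfl⟩, e₂⟩ := hQ
  -- a lift of `u` with component `1` at `q`
  set v := h.unit u 1
  set k₁' := h.unit (h.toM k₁) 1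
  have hk₁' : k₁' ∈ K := hK.split h _ (by rw [h.toM_unit]; exact toM_mem h hk₁)
    (by rw [h.toQ_unit]; exact one_mem _)
  refine ⟨v, hK.split hN v ⟨k₁', hk₁', ?_⟩ ⟨k₂, hk₂, ?_⟩, h.toM_unit _ _⟩
  · refine hin.unit_ext ?_ ?_
    · rw [cM, cM, h.toM_unit, h.toM_unit, e₁]
    · rw [cQ, cQ, h.toQ_unit, h.toQ_unit]
  · rw [cQ', cQ', h.toM_unit, e₂]

omit hK in
theorem le_liftSub {M' q' : ℕ} {K' : Subgroup (ZMod (M' * q'))ˣ}
    (h' : ALLevel (M' * q') q' M') : K' ≤ RT.Lift.liftSub q' (K'.map h'.toM) :=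
  fun _ hu => Subgroup.mem_map_of_mem _ hu

end TwistSub

theorem twistSub_top (N e : ℕ) : TwistSub N (⊤ : Subgroup (ZMod N)ˣ) e :=
  ⟨fun _ _ _ _ => trivial, fun _ => trivial⟩

/-- The pull back to level `M q` of a split subgroup is split. -/
theorem TwistSub.liftSub {M q e : ℕ} {K : Subgroup (ZMod M)ˣ} (hK : TwistSub M K e)
    (h : ALLevel (M * q) q M) : TwistSub (M * q) (RT.Lift.liftSub q K) e := by
  refine ⟨fun {q' M'} h' u hM hQ => ?_, fun u => ?_⟩
  · show h.toM u ∈ K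
    rcases eq_or_ne q' q with rfl | hne
    · obtain rfl : M' = M := Nat.eq_of_mul_eq_mul_right h.prime.pos h'.eq.symm
      obtain ⟨k, hk, he⟩ := hM
      rw [← he]
      exact hk
    · obtain ⟨R, rfl⟩ : q ∣ M' := ((Nat.prime_iff.1 h.prime).dvd_or_dvd
        (show q ∣ M' * q' from h'.eq ▸ dvd_mul_left q M)).resolve_right fun hd =>
          hne ((Nat.prime_dvd_prime_iff_eq h.prime h'.prime).1 hd).symm
      obtain rfl : M = R * q' := Nat.eq_of_mul_eq_mul_right h.prime.pos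
        (by rw [h'.eq]; ring)
      have hR : ALLevel (R * q') q' R := ⟨h'.prime, rfl, fun hd => h'.not_dvd (hd.mul_left q)⟩
      obtain ⟨k₁, hk₁, e₁⟩ := hM
      obtain ⟨k₂, hk₂, e₂⟩ := hQ
      refine hK.split hR _ ⟨_, hk₁, ?_⟩ ⟨_, hk₂, ?_⟩
      · have := congrArg (ZMod.unitsMap (dvd_mul_left R q)) e₁
        simp only [ALLevel.toM] at this ⊢
        simpa only [← MonoidHom.comp_apply, ZMod.unitsMap_comp] using this
      · simp only [ALLevel.toM, ALLevel.toQ] at e₂ ⊢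
        rwa [← MonoidHom.comp_apply, ← MonoidHom.comp_apply, ZMod.unitsMap_comp]
  · show h.toM (u ^ (2 * e + 1)) ∈ K
    rw [map_pow]
    exact hK.pow _

end Fermat.Agent.Lifting.Degeneracy
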