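import Fermat.Agent.Lifting.Degeneracy.Deg

/-!
# One raising step

For `K` split of level `N = M q` and `K_M` its component away from `q`: `stepDelta eps` sends a
class of level `M` to `res + eps W res` restricted to `Γ_K`, and `stepCor` is `corDeg` after the
corestriction to `K_M` pulled back. Their composite is `#Δ_q ((q + 1) + eps T'_q)`.
-/

set_option autoImplicit false

noncomputable section

namespace Fermat.Agent.Lifting.Degeneracy

open Fermat.Agent.RT.GammaH Fermat.Agent.RT.Lift
open scoped MatrixGroups

/-- Quotients by subgroups of finite groups are finite types. -/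
@[instance_reducible]
def quotientFintype {G : Type*} [Group G] [Finite G] (H : Subgroup G) : Fintype (G ⧸ H) :=
  Fintype.ofFinite _

variable {M q : ℕ} (h : ALLevel (M * q) q M) {K : Subgroup (ZMod (M * q))ˣ} {e : ℕ}
  (hK : TwistSub (M * q) K e) {A : Type*} [AddCommGroup A] (R : Type*) [CommRing R] [Module R A]

/-- The subgroup at level `M`. -/
abbrev lowSub (K : Subgroup (ZMod (M * q))ˣ) : Subgroup (ZMod M)ˣ := K.map h.toM

/-- Its pull back. -/
abbrev pullSub (K : Subgroup (ZMod (M * q))ˣ) : Subgroup (ZMod (M * q))ˣ :=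
  liftSub q (lowSub h K)

theorem le_pullSub : K ≤ pullSub h K := TwistSub.le_liftSub h

/-- The order of the component at `q` of the quotient by `K`. -/
def stepIndex (K : Subgroup (ZMod (M * q))ˣ) : ℕ :=
  Nat.card (pullSub h K ⧸ K.subgroupOf (pullSub h K))

include hK in
theorem twistSub_pullSub : TwistSub (M * q) (pullSub h K) e := (hK.map_toM h).liftSub h

/-- The map `res + eps W res` to level `M q`. -/
def stepDelta (eps : R) :
    (Additive (gammaH M (lowSub h K)) →+ A) →ₗ[R] (Additive (gammaH (M * q) K) →+ A) :=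
  resMid R (le_pullSub h) ∘ₗ
    (resDeg R q (lowSub h K) +
      eps • wOp R h (twistSub_pullSub h hK) ∘ₗ resDeg R q (lowSub h K))

/-- Corestriction to level `M`. -/
def stepCor : (Additive (gammaH (M * q) K) →+ A) →ₗ[R] (Additive (gammaH M (lowSub h K)) →+ A) :=
  letI := quotientFintype (K.subgroupOf (pullSub h K))
  corDeg h.raise R (lowSub h K) ∘ₗ coresMid R (le_pullSub h)

variable {R}

theorem stepDelta_apply (eps : R) (φ : Additive (gammaH M (lowSub h K)) →+ A) :
    stepDelta h hK R eps φ = resMid R (le_pullSub h)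
      (resDeg R q (lowSub h K) φ +
        eps • wOp R h (twistSub_pullSub h hK) (resDeg R q (lowSub h K) φ)) := rfl

theorem stepDelta_eq_degMap (eps : R) (φ : Additive (gammaH M (lowSub h K)) →+ A) :
    stepDelta h hK R eps φ =
      resMid R (le_pullSub h) (degMap h.raise R (lowSub h K) e (φ, eps • φ)) := by
  rw [stepDelta_apply, wOp_resDeg R h (hK.map_toM h), degMap_apply, map_smul (diamond M _ R _),
    map_smul (conjDeg h.raise R _)]

theorem wOp_stepDelta {eps : R} (he : eps * eps = 1)
    (φ : Additive (gammaH M (lowSub h K)) →+ A) :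
    wOp R h hK (stepDelta h hK R eps φ) = eps • stepDelta h hK R eps φ := by
  rw [stepDelta_apply, wOp_resMid R _ h hK (twistSub_pullSub h hK), map_add (wOp R h _),
    map_smul (wOp R h _), wOp_wOp, ← map_smul (resMid R _) eps, smul_add, smul_smul, he,
    one_smul, add_comm]

theorem stepDelta_diamond (eps : R) (u : (ZMod (M * q))ˣ)
    (φ : Additive (gammaH M (lowSub h K)) →+ A) :
    stepDelta h hK R eps (diamond M (lowSub h K) R (h.toM u) φ) =
      diamond (M * q) K R u (stepDelta h hK R eps φ) := by
  rw [stepDelta_eq_degMap, stepDelta_eq_degMap, diamond_resMid, diamond_degMap h.raise R u,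
    map_smul (diamond M _ R _)]
  rfl

theorem stepDelta_hecke (eps : R) {n : ℕ} [Fact n.Prime] (hnq : n ≠ q)
    (φ : Additive (gammaH M (lowSub h K)) →+ A) :
    stepDelta h hK R eps (hecke M (lowSub h K) n R φ) =
      hecke (M * q) K n R (stepDelta h hK R eps φ) := by
  rw [stepDelta_eq_degMap, stepDelta_eq_degMap, hecke_resMid, hecke_degMap h.raise R hnq,
    map_smul (hecke M _ n R)]

theorem unitOfCoprime_toM {n : ℕ} (hn : n.Coprime (M * q)) :
    h.toM (ZMod.unitOfCoprime n hn) =
      ZMod.unitOfCoprime n (hn.coprime_dvd_right (dvd_mul_right M q)) := by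
  refine Units.ext ?_
  rw [ZMod.coe_unitOfCoprime, ← h.natCast_toM (ZMod.coe_unitOfCoprime n hn).symm]

omit h in
theorem ne_of_coprime {n : ℕ} [hn' : Fact n.Prime] (hn : n.Coprime (M * q)) : n ≠ q :=
  fun hnq => hn'.out.ne_one (Nat.dvd_one.1 (hn ▸ Nat.dvd_gcd dvd_rfl (hnq ▸ dvd_mul_left q M)))

theorem stepDelta_twHecke (eps : R) {n : ℕ} [Fact n.Prime] (hn : n.Coprime (M * q))
    (φ : Additive (gammaH M (lowSub h K)) →+ A) :
    stepDelta h hK R eps
        (twHecke R M (lowSub h K) e (hn.coprime_dvd_right (dvd_mul_right M q)) φ) =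
      twHecke R (M * q) K e hn (stepDelta h hK R eps φ) := by
  simp only [twHecke, Module.End.mul_apply]
  rw [← stepDelta_hecke h hK eps (ne_of_coprime hn), ← stepDelta_diamond, map_pow,
    unitOfCoprime_toM]

theorem stepDelta_wOp (eps : R) {q' M' R' : ℕ} (h' : ALLevel (M * q) q' M')
    (hM : ALLevel M q' R') (hne : q' ≠ q) (φ : Additive (gammaH M (lowSub h K)) →+ A) :
    stepDelta h hK R eps (wOp R hM (hK.map_toM h) φ) =
      wOp R h' hK (stepDelta h hK R eps φ) := by
  rw [stepDelta_apply, stepDelta_apply, wOp_resMid R _ h' hK (twistSub_pullSub h hK),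
    map_add (wOp R h' _), map_smul (wOp R h' _), wOp_comm R h' h hne.symm,
    wOp_resDeg_old R h h' hM (hK.map_toM h)]

theorem stepCor_diamond (u : (ZMod (M * q))ˣ) (φ : Additive (gammaH (M * q) K) →+ A) :
    stepCor h R (diamond (M * q) K R u φ) =
      diamond M (lowSub h K) R (h.toM u) (stepCor h R φ) := by
  let := quotientFintype (K.subgroupOf (pullSub h K))
  show corDeg h.raise R _ (coresMid R (le_pullSub h) _) = _
  rw [coresMid_diamond, corDeg_diamond h.raise R u]
  rfl

theorem stepCor_hecke {n : ℕ} [Fact n.Prime] (hnq : n ≠ q)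
    (φ : Additive (gammaH (M * q) K) →+ A) :
    stepCor h R (hecke (M * q) K n R φ) = hecke M (lowSub h K) n R (stepCor h R φ) := by
  let := quotientFintype (K.subgroupOf (pullSub h K))
  show corDeg h.raise R _ (coresMid R (le_pullSub h) _) = _
  rw [coresMid_hecke, corDeg_hecke h.raise R hnq]
  rfl

theorem stepCor_twHecke {n : ℕ} [Fact n.Prime] (hn : n.Coprime (M * q))
    (φ : Additive (gammaH (M * q) K) →+ A) :
    stepCor h R (twHecke R (M * q) K e hn φ) =
      twHecke R M (lowSub h K) e (hn.coprime_dvd_right (dvd_mul_right M q)) (stepCor h R φ) := by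
  simp only [twHecke, Module.End.mul_apply]
  rw [stepCor_diamond, stepCor_hecke h (ne_of_coprime hn), map_pow, unitOfCoprime_toM]

theorem stepCor_wOp {q' M' R' : ℕ} (h' : ALLevel (M * q) q' M') (hM : ALLevel M q' R')
    (φ : Additive (gammaH (M * q) K) →+ A) :
    stepCor h R (wOp R h' hK φ) = wOp R hM (hK.map_toM h) (stepCor h R φ) := by
  let := quotientFintype (K.subgroupOf (pullSub h K))
  show corDeg h.raise R _ (coresMid R (le_pullSub h) _) = _
  rw [coresMid_wOp R _ h' hK (twistSub_pullSub h hK), corDeg_wOp_old R h h' hM (hK.map_toM h)]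
  rfl

include h in
theorem coprime_of_level : q.Coprime M := h.coprime.symm

theorem stepCor_stepDelta [Fact q.Prime] (eps : R)
    (φ : Additive (gammaH M (lowSub h K)) →+ A) :
    stepCor h R (stepDelta h hK R eps φ) =
      stepIndex h K • ((q + 1) • φ + eps • twHecke R M (lowSub h K) e (coprime_of_level h) φ) := by
  let := quotientFintype (K.subgroupOf (pullSub h K))
  rw [stepDelta_apply]
  show corDeg h.raise R _ (coresMid R (le_pullSub h) _) = _
  rw [coresMid_resMid, map_nsmul, map_add, map_smul, corDeg_resDeg, corDeg_wOp R h (hK.map_toM h),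
    starDeg_resDeg]
  rw [stepIndex, Nat.card_eq_fintype_card]
  rfl

/-- The symmetrised corestriction is the pair of the degeneracy maps. -/
theorem stepCor_symm (eps : R) (x : Additive (gammaH (M * q) K) →+ A) :
    stepCor h R (x + eps • wOp R h hK x) =
      letI := quotientFintype (K.subgroupOf (pullSub h K))
      (degStar h.raise R (lowSub h K) e (coresMid R (le_pullSub h) x)).1 +
        eps • (degStar h.raise R (lowSub h K) e (coresMid R (le_pullSub h) x)).2 := by
  let := quotientFintype (K.subgroupOf (pullSub h K))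
  show corDeg h.raise R _ (coresMid R (le_pullSub h) _) = _
  rw [map_add, map_smul, coresMid_wOp R _ h hK (twistSub_pullSub h hK), map_add, map_smul,
    corDeg_wOp R h (hK.map_toM h)]
  rfl

end Fermat.Agent.Lifting.Degeneracy
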