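import Fermat.Agent.Lifting.Degeneracy.Equiv
import Fermat.Agent.Lifting.Degeneracy.Inj

/-!
# The raising corestriction is surjective on the localised parts

The pair of degeneracy maps is onto modulo the residual ideal by the lemma of Ihara and the
coinvariants of the diamond operators, hence onto; symmetrising gives a preimage in the eigenspace
of the involution.
-/

set_option autoImplicit false
set_option linter.overlappingInstances false

noncomputable section

namespace Fermat.Agent.Lifting.Degeneracy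

open IsLocalRing MvPolynomial
open scoped Pointwise
open Fermat.Agent.RT.GammaH Fermat.Agent.RT.Lift
open Fermat.Agent.LevelRaising (AuxPrime)

variable {M q e : ℕ} (h : ALLevel (M * q) q M) {K : Subgroup (ZMod (M * q))ˣ}
  (hK : TwistSub (M * q) K e) {O : Type} [CommRing O] {S : Finset ℕ}

/-- The module of the lower level. -/
abbrev LowHom (O : Type) (S : Finset ℕ) (K : Subgroup (ZMod (M * q))ˣ) [CommRing O] : Type :=
  HomMod O S (lowSub h K) O

variable (O S) in
/-- The pair of the degeneracy maps from level `M q`. -/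
def pairCor (e : ℕ) : HomMod O S K O →ₗ[O] HomMod O S (lowSub h K) O × HomMod O S (lowSub h K) O :=
  letI := quotientFintype (K.subgroupOf (pullSub h K))
  degStarH O S h.raise (lowSub h K) e ∘ₗ
    (coresMidH O S O (le_pullSub h (K := K))).restrictScalars O

theorem pairCor_smul (hq : q ∈ S) (e : ℕ) (a : OpRing O (M * q) S) (x : HomMod O S K O) :
    pairCor h O S e (a • x) = lowerOp O M q S a • pairCor h O S e x := by
  let := quotientFintype (K.subgroupOf (pullSub h K))
  show degStarH O S h.raise (lowSub h K) e (coresMidH O S O (le_pullSub h) (a • x)) = _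
  rw [map_smul]
  exact degStarH_smul h.raise hq e a _

theorem stepCorH_symm (eps : O) (x : HomMod O S K O) :
    stepCorH O S h (x + eps • wOpH O S h hK x) =
      (pairCor h O S e x).1 + eps • (pairCor h O S e x).2 :=
  stepCor_symm h hK eps x

theorem coresTop_pairCor [NeZero M] [Fintype ((ZMod M)ˣ ⧸ lowSub h K)]
    [Fintype ((ZMod (M * q))ˣ ⧸ K)] [Fintype ((ZMod (M * q))ˣ ⧸ pullSub h K)]
    (e : ℕ) (x : HomMod O S K O) :
    (coresLin S (lowSub h K) O (pairCor h O S e x).1,
        coresLin S (lowSub h K) O (pairCor h O S e x).2) =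
      degStarH O S h.raise ⊤ e (coresLin S K O x) := by
  let := quotientFintype (K.subgroupOf (pullSub h K))
  have h1 := degStar_coresTop h.raise O (K := lowSub h K) e
    (coresMid O (le_pullSub h) ((toHomMod (O := O) (S := S) (K := K)).symm x))
  have h2 := coresTop_coresMid O (le_pullSub h) ((toHomMod (O := O) (S := S) (K := K)).symm x)
  exact (h1.symm.trans (congrArg (degStar h.raise O ⊤ e) h2))

variable [IsDomain O] [IsDiscreteValuationRing O] [IsAdicComplete (maximalIdeal O) O]
  [Finite (ResidueField O)] [CharZero O] {abar : ℕ → ResidueField O}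
  {p : ℕ} [Fact p.Prime] [CharP (ResidueField O) p] [NeZero M] [NeZero (M * q)]
  {ℓ : ℕ} (a : AuxPrime q M ℓ) (hℓS : ℓ ∉ S) (hℓ : abar ℓ ≠ 1 + (ℓ : ResidueField O))
  (hp2 : p ≠ 2) (hfree : Module.FreeLevel p M) (hS : ∀ v : ℕ, v.Prime → v ∣ M * q → v ∈ S)

omit [Finite (ResidueField O)] [CharZero O] [NeZero M] [NeZero (M * q)]
  [IsAdicComplete (maximalIdeal O) O] in
theorem mem_resIdeal_diamond_sub_one {N : ℕ} (u : (ZMod N)ˣ) :
    (X (Sum.inl u) - 1 : OpRing O N S) ∈ resIdeal S abar N := by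
  rw [mem_resIdeal, map_sub, opRes_inl, map_one, sub_self]

include hK hfree a hℓS hℓ hp2 hS in
omit [Finite (ResidueField O)] in
/-- The pair of degeneracy maps is onto the localised parts. -/
theorem exists_pairCor_eq {z : HomMod O S (lowSub h K) O × HomMod O S (lowSub h K) O}
    (hz1 : z.1 ∈ locSub O S abar (lowSub h K)) (hz2 : z.2 ∈ locSub O S abar (lowSub h K)) :
    ∃ x ∈ locSub O S abar K, pairCor h O S e x = z := by
  classical
  let := Fintype.ofFinite ((ZMod M)ˣ ⧸ lowSub h K)
  let := Fintype.ofFinite ((ZMod (M * q))ˣ ⧸ K)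
  let := Fintype.ofFinite ((ZMod (M * q))ˣ ⧸ pullSub h K)
  have hq : q ∈ S := hS q h.prime h.dvdQ
  obtain ⟨ϖ, hϖ⟩ := IsDiscreteValuationRing.exists_irreducible O
  set 𝔪 := resIdeal S abar M
  -- the target and the image
  let Lsub : Submodule (OpRing O M S) ((LowHom h O S K) × (LowHom h O S K)) :=
    { carrier := {w | w.1 ∈ locSub O S abar (lowSub h K) ∧ w.2 ∈ locSub O S abar (lowSub h K)}
      zero_mem' := ⟨zero_mem _, zero_mem _⟩
      add_mem' := fun u v => ⟨add_mem u.1 v.1, add_mem u.2 v.2⟩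
      smul_mem' := fun c w hw => ⟨smul_mem_locSub c hw.1, smul_mem_locSub c hw.2⟩ }
  let I : Submodule (OpRing O M S) ((LowHom h O S K) × (LowHom h O S K)) :=
    { carrier := {w | ∃ x ∈ locSub O S abar K, pairCor h O S e x = w}
      zero_mem' := ⟨0, zero_mem _, map_zero _⟩
      add_mem' := fun ⟨u, hu, hu'⟩ ⟨v, hv, hv'⟩ => ⟨u + v, add_mem hu hv, by rw [map_add, hu', hv']⟩
      smul_mem' := fun c w ⟨u, hu, hu'⟩ => by
        obtain ⟨c', rfl⟩ := lowerOp_surjective (O := O) (S := S) (M := M) (q := q) c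
        exact ⟨c' • u, smul_mem_locSub c' hu, by rw [pairCor_smul h hq, hu']⟩ }
  have hmem : ∀ x ∈ locSub O S abar K, pairCor h O S e x ∈ Lsub := fun x hx =>
    ⟨map_mem_locSub (σ := lowerOp O M q S) lowerOp_surjective opRes_lowerOp
        (fun y => (pairCor h O S e y).1) (fun c y => congrArg Prod.fst (pairCor_smul h hq e c y)) hx,
      map_mem_locSub (σ := lowerOp O M q S) lowerOp_surjective opRes_lowerOp
        (fun y => (pairCor h O S e y).2) (fun c y => congrArg Prod.snd (pairCor_smul h hq e c y)) hx⟩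
  -- Ihara and the coinvariants
  have hstep : Lsub ≤ I ⊔ 𝔪 • Lsub := by
    rintro w ⟨hw1, hw2⟩
    obtain ⟨e', he', he'₀⟩ := exists_isLocalizer_map (N := M * q) (N' := M)
      (σ := lowerOp O M q S) (K := liftSub q (⊤ : Subgroup (ZMod M)ˣ))
      (K' := (⊤ : Subgroup (ZMod M)ˣ)) (abar := abar) lowerOp_surjective opRes_lowerOp
    obtain ⟨f, hf, hf₀⟩ := exists_isLocalizer_map (N := M * q) (N' := M * q)
      (σ := AlgHom.id O (OpRing O (M * q) S)) (K := K) (abar := abar)
      (K' := (⊤ : Subgroup (ZMod (M * q))ˣ)) Function.surjective_id fun _ => rfl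
    obtain ⟨g, hg, hg₀⟩ := exists_isLocalizer_map (N := M) (N' := M)
      (σ := AlgHom.id O (OpRing O M S)) (K := lowSub h K) (abar := abar)
      (K' := (⊤ : Subgroup (ZMod M)ˣ)) Function.surjective_id fun _ => rfl
    have hw1' : coresLin S (lowSub h K) O w.1 ∈ locSub O S abar (⊤ : Subgroup (ZMod M)ˣ) :=
      map_mem_locSub_of_linear _ hw1
    have hw2' : coresLin S (lowSub h K) O w.2 ∈ locSub O S abar (⊤ : Subgroup (ZMod M)ˣ) :=
      map_mem_locSub_of_linear _ hw2
    rw [locSub_eq he'₀] at hw1' hw2'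
    obtain ⟨x₀, hx₀, χ, hχ1, hχ2, hχ⟩ := exists_degStarH_sub_eq_smul h.raise a Fact.out hp2 hℓS hℓ
      hϖ hq he' he'₀ e (w := (coresLin S (lowSub h K) O w.1, coresLin S (lowSub h K) O w.2))
      hw1' hw2'
    rw [← locSub_eq he'₀] at hχ1 hχ2
    have hx₀' : x₀ ∈ localPart O f (HomMod O S (⊤ : Subgroup (ZMod (M * q))ˣ) O) :=
      locSub_eq hf₀ ▸ (locSub_eq he' ▸ hx₀ :
        x₀ ∈ locSub O S abar (liftSub q (⊤ : Subgroup (ZMod M)ˣ)))
    obtain ⟨x, hx, hxx⟩ := Module.exists_coresLin_eq (p := p) S abar hf hp2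
      (hfree.mono (dvd_mul_right M q)) hK.neg_one_mem hx₀'
    rw [← locSub_eq hf] at hx
    obtain ⟨hP1, hP2⟩ := hmem x hx
    have hpair := coresTop_pairCor h e x
    have hxx' : degStarH O S h.raise ⊤ e (coresLin S K O x) = degStarH O S h.raise ⊤ e x₀ :=
      congrArg (degStarH O S h.raise ⊤ e) hxx
    rw [hxx'] at hpair
    -- one component
    have comp : ∀ (v P : (LowHom h O S K)) (χ₀ : HomMod O S (⊤ : Subgroup (ZMod M)ˣ) O),
        v ∈ locSub O S abar (lowSub h K) → P ∈ locSub O S abar (lowSub h K) →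
        χ₀ ∈ locSub O S abar (⊤ : Subgroup (ZMod M)ˣ) →
        coresLin S (lowSub h K) O P - coresLin S (lowSub h K) O v = ϖ • χ₀ →
        ∃ (c : (LowHom h O S K)) (y : (ZMod M)ˣ ⧸ lowSub h K → (LowHom h O S K)), c ∈ locSub O S abar (lowSub h K) ∧
          (∀ i, y i ∈ locSub O S abar (lowSub h K)) ∧
          v = P - ϖ • c - ∑ i, (X (Sum.inl i.out) - 1 : OpRing O M S) • y i := by
      intro v P χ₀ hv hP hχ₀ heq
      rw [locSub_eq hg₀] at hχ₀
      have hneg : (-1 : (ZMod M)ˣ) ∈ lowSub h K := (hK.map_toM h).neg_one_mem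
      obtain ⟨c, hc, hcc⟩ := Module.exists_coresLin_eq (p := p) S abar hg hp2 hfree hneg hχ₀
      rw [← locSub_eq hg] at hc
      have hd : P - v - ϖ • c ∈ localPart O g (LowHom h O S K) :=
        locSub_eq hg ▸ sub_mem (sub_mem hP hv) (Submodule.smul_mem _ _ hc)
      obtain ⟨y, hy, hsum⟩ := Module.exists_eq_sum_of_coresLin_eq_zero (p := p) S abar hg hp2
        hfree hneg hd (by
          rw [map_sub, map_sub, LinearMap.map_smul_of_tower, hcc, heq, sub_self])
      refine ⟨c, y, hc, fun i => locSub_eq hg ▸ hy i, ?_⟩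
      simp only [sub_smul, one_smul, ← hsum]
      abel
    have e1 : coresLin S (lowSub h K) O (pairCor h O S e x).1 -
        coresLin S (lowSub h K) O w.1 = ϖ • χ.1 := by
      have hp := congrArg Prod.fst hpair
      simp only at hp
      rw [hp]
      exact congrArg Prod.fst hχ
    have e2 : coresLin S (lowSub h K) O (pairCor h O S e x).2 -
        coresLin S (lowSub h K) O w.2 = ϖ • χ.2 := by
      have hp := congrArg Prod.snd hpair
      simp only at hp
      rw [hp]
      exact congrArg Prod.snd hχ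
    obtain ⟨c₁, y₁, hc₁, hy₁, hw₁⟩ := comp _ _ _ hw1 hP1 hχ1 e1
    obtain ⟨c₂, y₂, hc₂, hy₂, hw₂⟩ := comp _ _ _ hw2 hP2 hχ2 e2
    have hw : w = pairCor h O S e x + (-((C ϖ : OpRing O M S) • ((c₁, c₂) : (LowHom h O S K) × (LowHom h O S K))) -
        ∑ i, (X (Sum.inl i.out) - 1 : OpRing O M S) • ((y₁ i, y₂ i) : (LowHom h O S K) × (LowHom h O S K))) := by
      have hC : ∀ c : (LowHom h O S K), (C ϖ : OpRing O M S) • c = ϖ • c := fun c => by
        rw [← algebraMap_eq, algebraMap_smul]
      refine Prod.ext ?_ ?_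
      · simp only [Prod.fst_add, Prod.fst_sub, Prod.fst_neg, Prod.fst_sum, Prod.smul_fst, hC]
        rw [hw₁]
        abel
      · simp only [Prod.snd_add, Prod.snd_sub, Prod.snd_neg, Prod.snd_sum, Prod.smul_snd, hC]
        rw [hw₂]
        abel
    rw [hw]
    refine Submodule.add_mem_sup ⟨x, hx, rfl⟩ (sub_mem (neg_mem ?_) (sum_mem fun i _ => ?_))
    · refine Submodule.smul_mem_smul ?_ ⟨hc₁, hc₂⟩
      rw [mem_resIdeal, ← algebraMap_eq, AlgHom.commutes, ResidueField.algebraMap_eq,
        residue_eq_zero_iff]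
      exact hϖ.not_isUnit
    · exact Submodule.smul_mem_smul (mem_resIdeal_diamond_sub_one _) ⟨hy₁ i, hy₂ i⟩
  -- Nakayama
  have : IsNoetherian (OpRing O M S) ((LowHom h O S K) × (LowHom h O S K)) := isNoetherian_of_tower O inferInstance
  obtain ⟨r, hr, hrle⟩ := Submodule.exists_sub_one_mem_and_smul_le_of_fg_of_le_sup
    (IsNoetherian.noetherian Lsub) le_rfl hstep
  have hrz : r • z ∈ I := hrle (Submodule.smul_mem_pointwise_smul _ r _ ⟨hz1, hz2⟩)
  have he := isLocalizer_locElt O S abar (lowSub h K)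
  obtain ⟨t', ht'⟩ := he.invert r fun hc => resIdeal_ne_top S abar
    ((Ideal.eq_top_iff_one _).2 (by simpa using sub_mem hc hr))
  have hz : (t' * locElt O S abar (lowSub h K)) • r • z = z := by
    have hid : ∀ v ∈ locSub O S abar (lowSub h K),
        (t' * locElt O S abar (lowSub h K)) • r • v = v := fun v hv => by
      have hv' : locElt O S abar (lowSub h K) • v = v := hv
      rw [smul_smul, show t' * locElt O S abar (lowSub h K) * r =
        r * t' * locElt O S abar (lowSub h K) by ring, ht', hv']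
    exact Prod.ext (hid _ hz1) (hid _ hz2)
  exact hz ▸ I.smul_mem _ hrz

include hK hfree a hℓS hℓ hp2 hS in
omit [Finite (ResidueField O)] in
/-- **The raising corestriction is onto**, already on the eigenspace of the involution. -/
theorem exists_stepCorH_eq {eps : O} (heps : eps * eps = 1) {z : HomMod O S (lowSub h K) O}
    (hz : z ∈ locSub O S abar (lowSub h K)) :
    ∃ y ∈ locSub O S abar K, wOpH O S h hK y = eps • y ∧ stepCorH O S h y = z := by
  obtain ⟨x, hx, hxz⟩ := exists_pairCor_eq h hK a hℓS hℓ hp2 hfree hS (z := (z, 0)) hz (zero_mem _)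
  refine ⟨x + eps • wOpH O S h hK x,
    add_mem hx (Submodule.smul_mem _ _ (wOpH_mem_locSub h hS hK hx)), ?_, ?_⟩
  · rw [map_add, map_smul, wOpH_wOpH, smul_add, smul_smul, heps, one_smul, add_comm]
  · rw [stepCorH_symm, hxz, smul_zero, add_zero]

end Fermat.Agent.Lifting.Degeneracy
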