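import Fermat.Agent.GaloisReps.Models
import Fermat.Agent.RT.Glue.Approx
import Fermat.Agent.Lifting.Galois.SubRep

/-!
# A Frobenius trace at a prime outside the level of a congruent form

If the traces of a representation over a finite algebra, read at a point, are the coefficients of
an eigenform at almost all primes, they are so at every prime not dividing the level times `p`.
-/

set_option autoImplicit false
set_option linter.style.haveILetI false

noncomputable section

namespace Fermat.Agent.Lifting.Degeneracy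

open IsLocalRing ModularFormClass
open Fermat.Agent.Deform (Gal M2 matOf mapM mapM_apply isCont_matOf)
open Fermat.Agent.RT.Glue (KBar)
open Fermat.Agent.GaloisReps (FullHecke)

variable {O : Type} [CommRing O] [IsDomain O] [IsDiscreteValuationRing O]
  [IsAdicComplete (maximalIdeal O) O] [Finite (ResidueField O)] [CharZero O]

omit [IsAdicComplete (maximalIdeal O) O] [Finite (ResidueField O)] in
/-- A power of the maximal ideal of a finite local algebra lies in the ideal of `p ^ n`. -/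
theorem exists_pow_le_natCast_pow {T : Type} [CommRing T] [IsLocalRing T] [Algebra O T]
    [Module.Finite O T] [IsLocalHom (algebraMap O T)] {p : ℕ} (hp : p ≠ 0) (n : ℕ) :
    ∃ N, maximalIdeal T ^ N ≤ Ideal.span {(p : T) ^ n} := by
  obtain ⟨j, hj⟩ := RT.Assembly.exists_pow_le_map (O := O) (A := T)
  obtain ⟨ϖ, hϖ⟩ := IsDiscreteValuationRing.exists_irreducible O
  obtain ⟨k, hk⟩ := IsDiscreteValuationRing.ideal_eq_span_pow_irreducible
    (s := Ideal.span {(p : O) ^ n})
    (by simp [hp]) hϖ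
  refine ⟨j * k, ?_⟩
  rw [pow_mul]
  refine (Ideal.pow_right_mono hj k).trans ?_
  rw [← Ideal.map_pow, hϖ.maximalIdeal_eq, Ideal.span_singleton_pow, ← hk, Ideal.map_span,
    Set.image_singleton, map_pow, map_natCast]

variable {p : ℕ} [Fact p.Prime]

/-- **The trace at `q` is the coefficient at `q`.** -/
theorem trace_eq_qCoeff (hp : (p : O) ∈ maximalIdeal O) {T : Type} [CommRing T] [IsLocalRing T]
    [Algebra O T] [Module.Finite O T] [IsLocalHom (algebraMap O T)] (ρ : GaloisRepAdic T)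
    (θ : T →ₐ[O] KBar O) (e : KBar O ≃+* ℂ) {M : ℕ} [NeZero M]
    {g : CuspForm (CongruenceSubgroup.Gamma0 M) 2} (hg : g.IsNormalizedEigenform) (S0 : Finset ℕ)
    (htr : ∀ ℓ : ℕ, ℓ.Prime → ℓ ∉ S0 → ∀ P : ValuationSubring (AlgebraicClosure ℚ),
      P.LiesOverPrime ℓ → ∀ σ : Gal, P.IsFrobeniusAt σ ℓ → e (θ (ρ.trace σ)) = qCoeff g ℓ)
    {q : ℕ} (hq : q.Prime) (hqM : ¬ q ∣ M * p) {A : ValuationSubring (AlgebraicClosure ℚ)}
    (hA : A.LiesOverPrime q) {σ : Gal} (hσ : A.IsFrobeniusAt σ q) :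
    e (θ (ρ.trace σ)) = qCoeff g q := by
  classical
  have : Module.Finite ℤ (FullHecke M) := IntegralStructure.heckeAlgebra_finite M 2 ∅
  obtain ⟨R, i1, i2, i3, i4, i5, i6, i7, i8, i9, j, θ', -, hjinj, hcomm, hθ'⟩ :=
    GaloisReps.exists_coeffExt O (e.symm.toRingHom.comp (ConductorLevel.eigenChar hg ∅))
  have hpR : (p : R) ∈ maximalIdeal R := by
    rw [← map_natCast (algebraMap O R) p]
    exact map_nonunit (algebraMap O R) _ hp
  obtain ⟨ι⟩ := GaloisReps.exists_padicHom R hpR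
  let D : ∀ (M : ℕ) [NeZero M], GaloisReps.HeckeGaloisModel M p :=
    fun M _ => GaloisReps.heckeGaloisModel M p
  let t : Gal → KBar O := fun s => j (((D M).eigenMatrix ι θ' s).trace)
  have hfrob : ∀ ℓ : ℕ, ∀ hℓ : ℓ.Prime, ¬ ℓ ∣ M * p →
      ∀ P : ValuationSubring (AlgebraicClosure ℚ), P.LiesOverPrime ℓ →
        ∀ s : Gal, P.IsFrobeniusAt s ℓ → e (t s) = qCoeff g ℓ := by
    intro ℓ hℓ hℓM P hP s hs
    have key := (D M).charpoly_eigenAction_frobenius ι θ' GaloisReps.frobeniusDensity hpR hℓ hℓM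
      hP hs
    have htr' : ((D M).eigenMatrix ι θ' s).trace = θ' (HeckeDuality.heckeOp M 2 ℓ hℓ) := by
      rw [GaloisReps.HeckeGaloisModel.eigenMatrix, Matrix.trace_eq_neg_charpoly_coeff,
        LinearMap.charpoly_toMatrix, key]
      simp [Fintype.card_fin]
    have hℓM' : ¬ ℓ ∣ M := fun h => hℓM (h.mul_right p)
    show e (j _) = _
    rw [htr', ← RingHom.comp_apply j θ', hθ', RingHom.comp_apply, RingEquiv.toRingHom_eq_coe,
      RingEquiv.coe_toRingHom, RingEquiv.apply_symm_apply, HeckeDuality.heckeOp, dif_neg hℓM',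
      ConductorLevel.eigenChar_T hg hℓ hℓM']
  suffices h : θ (ρ.trace σ) = t σ by rw [h, hfrob q hq hqM A hA σ hσ]
  refine sub_eq_zero.1 (RT.Glue.eq_zero_of_forall_integral hp fun n => ?_)
  let b := Module.finBasisOfFinrankEq T ρ.V ρ.finrank_eq
  obtain ⟨N, hN⟩ := exists_pow_le_natCast_pow (O := O) (T := T)
    (Fact.out : p.Prime).ne_zero n
  obtain ⟨L₁, hL₁, hL₁'⟩ := isCont_matOf ρ b N
  haveI := hL₁
  obtain ⟨L₂, hL₂, hL₂'⟩ := RT.Glue.exists_levelField (L := M) D n
  haveI := hL₂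
  set qN := Ideal.Quotient.mk (maximalIdeal T ^ N)
  let f : Gal →* M2 (T ⧸ maximalIdeal T ^ N) × _ := (mapM qN (matOf ρ b)).prod
    ((PadicInt.toZModPow n).mapMatrix.toMonoidHom.comp (D M).gal)
  have hf : ∀ s : Gal, (∀ x ∈ L₁ ⊔ L₂, s x = x) → f s = 1 := fun s hs => by
    refine Prod.ext ?_ ?_
    · ext i k
      show mapM qN (matOf ρ b) s i k = (1 : M2 (T ⧸ maximalIdeal T ^ N)) i k
      rw [mapM_apply, show (1 : M2 (T ⧸ maximalIdeal T ^ N)) i k = qN ((1 : M2 T) i k) by
        simp only [Matrix.one_apply, apply_ite qN, map_one, map_zero], Ideal.Quotient.eq]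
      exact hL₁' s (fun x hx => hs x (le_sup_left (b := L₂) hx)) i k
    · exact hL₂' s (fun x hx => hs x (le_sup_right (a := L₁) hx)) M (dvd_pow_self M two_ne_zero)
  obtain ⟨ℓ, hℓ, hℓS, P, hP, s, hs, heq⟩ :=
    Arith.Chebotarev.exists_frobenius_eq f (L₁ ⊔ L₂) hf σ (S0 ∪ (M * p).primeFactors)
  rw [Finset.notMem_union] at hℓS
  have hℓM : ¬ ℓ ∣ M * p := fun h => hℓS.2 (Nat.mem_primeFactors.mpr
    ⟨hℓ, h, mul_ne_zero (NeZero.ne M) (Fact.out : p.Prime).ne_zero⟩)
  have hst : θ (ρ.trace s) = t s :=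
    e.injective ((htr ℓ hℓ hℓS.1 P hP s hs).trans (hfrob ℓ hℓ hℓM P hP s hs).symm)
  -- the representation
  obtain ⟨c, hc⟩ : ∃ c : T, ρ.trace σ - ρ.trace s = (p : T) ^ n * c := by
    refine (Ideal.mem_span_singleton.1 (hN ?_))
    have he : ∀ i, matOf ρ b σ i i - matOf ρ b s i i ∈ maximalIdeal T ^ N := fun i =>
      Ideal.Quotient.eq.mp (congrFun (congrFun (congrArg Prod.fst heq) i) i).symm
    show LinearMap.trace T ρ.V (ρ.ρ σ) - LinearMap.trace T ρ.V (ρ.ρ s) ∈ _
    rw [LinearMap.trace_eq_matrix_trace T b, LinearMap.trace_eq_matrix_trace T b,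
      Matrix.trace_fin_two, Matrix.trace_fin_two, add_sub_add_comm]
    exact add_mem (he 0) (he 1)
  -- the model
  have hg' : ((D M).gal (s⁻¹ * σ)).map (PadicInt.toZModPow n) = 1 := by
    have h1 : f (s⁻¹ * σ) = 1 := by rw [map_mul, ← heq, ← map_mul, inv_mul_cancel, map_one]
    exact congrArg Prod.snd h1
  obtain ⟨a, ha⟩ := (D M).eigenMatrix_congr ι θ' hg' 0 0
  obtain ⟨d, hd⟩ := (D M).eigenMatrix_congr ι θ' hg' 1 1
  have ht : t σ - t s = (p : KBar O) ^ n * j (a + d) := by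
    show j _ - j _ = _
    rw [← map_sub, ← map_natCast j, ← map_pow, ← map_mul, Matrix.trace_fin_two,
      Matrix.trace_fin_two, add_sub_add_comm, ha, hd, mul_add]
  let jA : R →ₐ[O] KBar O := { j with commutes' := RingHom.congr_fun hcomm }
  refine ⟨θ c - j (a + d), ((Algebra.IsIntegral.isIntegral (R := O) c).map θ).sub
    ((Algebra.IsIntegral.isIntegral (R := O) (a + d)).map jA), ?_⟩
  have hθ : θ (ρ.trace σ) - θ (ρ.trace s) = (p : KBar O) ^ n * θ c := by
    rw [← map_sub, hc, map_mul, map_pow, map_natCast]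
  linear_combination hθ - ht + hst

end Fermat.Agent.Lifting.Degeneracy
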