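import Fermat.Agent.Lifting.Degeneracy.ALCoset

/-!
# The Atkin–Lehner involution on `Hom(Γ_H, A)`

`wOp` is an involution. It turns `⟨u⟩` into `⟨iota u⟩`, commutes with the twisted operators
`⟨n⟩ ^ e T_n` and with the involutions at the other primes.
-/

set_option autoImplicit false

noncomputable section

namespace Fermat.Agent.Lifting.Degeneracy

open CongruenceSubgroup Matrix.SpecialLinearGroup
open Fermat.Agent.RT.GammaH
open scoped MatrixGroups

variable {N q M : ℕ} {K : Subgroup (ZMod N)ˣ} {e : ℕ}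

/-- A chosen normalised Atkin–Lehner matrix. -/
def wElt (h : ALLevel N q M) (K : Subgroup (ZMod N)ˣ) (e : ℕ) : GLR :=
  (exists_mem_alSet h K e).choose

theorem wElt_mem (h : ALLevel N q M) (K : Subgroup (ZMod N)ˣ) (e : ℕ) :
    wElt h K e ∈ alSet h K e := (exists_mem_alSet h K e).choose_spec

theorem admissible_alSet (h : ALLevel N q M) (hK : TwistSub N K e) {g : GLR}
    (hg : g ∈ alSet h K e) : Admissible (gammaH N K) (gammaH N K) fun _ : Unit => g := fun γ =>
  ⟨id, Function.bijective_id, fun _ => (alSet_conj_mem h hK hg (mapGL_mem_img.2 γ.2)).1⟩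

variable {A : Type*} [AddCommGroup A] (R : Type*) [Semiring R] [Module R A]

/-- The Atkin–Lehner involution. -/
def wOp (h : ALLevel N q M) (hK : TwistSub N K e) :
    Module.End R (Additive (gammaH N K) →+ A) :=
  opOf (admissible_alSet h hK (wElt_mem h K e)) R

theorem wOp_eq (h : ALLevel N q M) (hK : TwistSub N K e) {g : GLR} (hg : g ∈ alSet h K e) :
    wOp (A := A) R h hK = opOf (admissible_alSet h hK hg) R :=
  opOf_congr _ _ (Equiv.refl Unit) fun _ => alSet_mul_inv_mem h hK (wElt_mem h K e) hg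

/-- Conjugation by an element which normalises `Γ'` permutes the cosets in a stable set. -/
theorem exists_twist_equiv {Γ' : Subgroup SL(2, ℤ)} {ι : Type*} [Finite ι] {D : Set GLR}
    {rep : ι → GLR} (hr : IsReps Γ' D rep) (w : GLR) (hD : ∀ g ∈ D, w * g * w⁻¹ ∈ D)
    (hΓ : ∀ g ∈ img Γ', w⁻¹ * g * w ∈ img Γ') :
    ∃ E : ι ≃ ι, ∀ i, rep i * w * (w * rep (E i))⁻¹ ∈ img Γ' := by
  obtain ⟨E, hE⟩ := hr.exists_equiv (hr.of_card (rep' := fun i => w * rep i * w⁻¹)
    (fun i => hD _ (hr.mem i))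
    (fun i j hij => hr.inj i j (by simpa [mul_assoc] using hΓ _ hij)) le_rfl)
  exact ⟨E, fun i => by simpa [mul_assoc] using hE i⟩

theorem wOp_wOp (h : ALLevel N q M) (hK : TwistSub N K e) (φ : Additive (gammaH N K) →+ A) :
    wOp R h hK (wOp R h hK φ) = φ := by
  unfold wOp
  rw [opOf_comp]
  refine (LinearMap.congr_fun (opOf_congr _
    ((admissible_id (M := N) (K := K)).mul_central (RT.Lift.scalar_comm h.raise))
    (Equiv.prodUnique Unit Unit) fun _ => alSet_sq h hK (wElt_mem h K e)) φ).trans ?_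
  rw [opOf_mul_central (RT.Lift.scalar_comm h.raise) admissible_id, opOf_id]

theorem wOp_diamond (h : ALLevel N q M) (hK : TwistSub N K e) (u : (ZMod N)ˣ)
    (φ : Additive (gammaH N K) →+ A) :
    wOp R h hK (diamond N K R u φ) = diamond N K R (h.iota u) (wOp R h hK φ) := by
  unfold wOp diamond
  rw [opOf_comp, opOf_comp]
  refine LinearMap.congr_fun (opOf_congr _ _ (Equiv.prodComm Unit Unit) fun _ => ?_) φ
  set g := wElt h K e
  set σ := gamma0Elt (M := N) u⁻¹
  set σ' := gamma0Elt (M := N) (h.iota u)⁻¹ with hσ'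
  show mapGL ℝ σ * g * (g * mapGL ℝ σ')⁻¹ ∈ _
  rw [mul_inv_rev, show mapGL ℝ σ * g * ((mapGL ℝ σ')⁻¹ * g⁻¹) =
    mapGL ℝ σ * (g * mapGL ℝ σ' * g⁻¹)⁻¹ by group]
  obtain ⟨x, y, z, w, hgA, hA, -⟩ := wElt_mem h K e
  obtain ⟨a, b, c, d, hse⟩ :=
    exists_entries (B := (σ' : Matrix (Fin 2) (Fin 2) ℤ)) (gamma0Elt_lowerLeft (M := N) _)
  have hdet : a * d - b * ((N : ℤ) * c) = 1 := by
    rw [← Matrix.det_fin_two_of, ← hse]
    exact σ'.det_coe
  have ha : (a : ZMod N) = ((h.iota u)⁻¹ : (ZMod N)ˣ) := by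
    have e0 := gamma0Elt_upperLeft (h.iota u)⁻¹
    rw [← hσ', hse] at e0
    simpa using e0
  have hd := lowerRight_toQ h hdet ha
  rw [Int.cast_one, mul_one, map_inv, inv_inv, h.toQ_iota] at hd
  have hC := isIntMat_conj h hA hgA (hse ▸ isIntMat_mapGL σ')
  set C := conjInt N q M x y z w a b c d
  have hCd : C.det = 1 := by rw [det_conjInt h hA, hdet]
  let τ : SL(2, ℤ) := ⟨C, hCd⟩
  rw [← (isIntMat_mapGL τ).ext hC, ← map_inv (mapGL ℝ) τ, ← map_mul, mapGL_mem_img]
  refine gamma0_mul_inv_mem (gamma0Elt_mem _)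
    (Gamma0_mem.2 (show ((C 1 0 : ℤ) : ZMod N) = 0 by simp [C, conjInt])) (one_mem K) ?_
  rw [gamma0Elt_upperLeft, Units.val_one, one_mul, eq_comm]
  refine h.intCast_eq_unit ?_ ?_
  · rw [(conjInt_classes h hA a b c d).1, h.intCast_toM ha, map_inv, h.toM_iota, map_inv]
  · rw [(conjInt_classes h hA a b c d).2, hd, map_inv]

theorem wOp_comm {q' M' : ℕ} (h : ALLevel N q M) (h' : ALLevel N q' M') (hne : q' ≠ q)
    (hK : TwistSub N K e) (φ : Additive (gammaH N K) →+ A) :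
    wOp R h hK (wOp R h' hK φ) = wOp R h' hK (wOp R h hK φ) := by
  unfold wOp
  rw [opOf_comp, opOf_comp]
  refine LinearMap.congr_fun (opOf_congr _ _ (Equiv.prodComm Unit Unit) fun _ => ?_) φ
  have := alSet_mul_inv_mem h hK
    (alSet_conj_alSet h h' hne hK (wElt_mem h K e) (wElt_mem h' K e)) (wElt_mem h K e)
  simpa [mul_assoc] using this

/-! ### Hecke operators -/

/-- The upper left congruence class `s` in the double coset set of determinant `n`. -/
def heckeCls (N : ℕ) (K : Subgroup (ZMod N)ˣ) (n : ℕ) (s : (ZMod N)ˣ) : Set GLR :=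
  {g | ∃ a b c d : ℤ, IsIntMat g !![a, b; (N : ℤ) * c, d] ∧
    a * d - b * ((N : ℤ) * c) = (n : ℤ) ∧ ∃ k ∈ K, (a : ZMod N) = s * k}

theorem heckeSet_mul_mapGL {n : ℕ} {g : GLR} (hg : g ∈ heckeSet N K n) {σ : SL(2, ℤ)}
    (hσ : σ ∈ Gamma0 N) {s : (ZMod N)ˣ} (hs : (σ 0 0 : ZMod N) = s) :
    g * mapGL ℝ σ ∈ heckeCls N K n s := by
  obtain ⟨B, hB, hd, hc, k, hk, ha⟩ := hg
  have hσc := Gamma0_mem.1 hσ
  have hc' : (((B * (σ : Matrix (Fin 2) (Fin 2) ℤ)) 1 0 : ℤ) : ZMod N) = 0 := by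
    simp [Matrix.mul_apply, Fin.sum_univ_two, hc, hσc]
  obtain ⟨a, b, c, d, he⟩ := exists_entries hc'
  refine ⟨a, b, c, d, he ▸ hB.mul (isIntMat_mapGL σ), ?_, k, hk, ?_⟩
  · rw [← Matrix.det_fin_two_of, ← he, Matrix.det_mul, hd, σ.det_coe, mul_one]
  · have e0 : a = (B * (σ : Matrix (Fin 2) (Fin 2) ℤ)) 0 0 := by rw [he]; simp
    rw [e0]
    simp [Matrix.mul_apply, Fin.sum_univ_two, hσc, hs, ha, mul_comm]

theorem isReps_hRep_mul_mapGL {n : ℕ} [Fact n.Prime] {σ : SL(2, ℤ)} (hσ : σ ∈ Gamma0 N)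
    {s : (ZMod N)ˣ} (hs : (σ 0 0 : ZMod N) = s) :
    IsReps (gammaH N K) (heckeCls N K n s) fun i => hRep N n i * mapGL ℝ σ where
  mem i := heckeSet_mul_mapGL (hRep_mem_heckeSet i) hσ hs
  inj i j hij := (isReps_hRep (M := N) (K := K)).inj i j (by simpa [mul_assoc] using hij)
  surj g hg := by
    obtain ⟨a, b, c, d, hgA, hdet, k, hk, ha⟩ := hg
    have hσ' := inv_mem hσ
    have hσc := Gamma0_mem.1 hσ'
    have hmem : g * mapGL ℝ σ⁻¹ ∈ heckeSet N K n := by
      refine ⟨!![a, b; (N : ℤ) * c, d] * ((σ⁻¹ : SL(2, ℤ)) : Matrix (Fin 2) (Fin 2) ℤ),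
        hgA.mul (isIntMat_mapGL σ⁻¹), ?_, ?_, k, hk, ?_⟩
      · rw [Matrix.det_mul, Matrix.det_fin_two_of, hdet, (σ⁻¹).det_coe, mul_one]
      · rw [Matrix.mul_apply, Fin.sum_univ_two]
        push_cast
        rw [hσc]
        simp
      · have e0 := gamma0_mul_apply_upperLeft σ⁻¹ σ hσ
        rw [inv_mul_cancel, hs] at e0
        rw [show ((1 : SL(2, ℤ)) 0 0) = 1 from rfl, Int.cast_one] at e0
        rw [Matrix.mul_apply, Fin.sum_univ_two]
        push_cast
        rw [hσc, mul_zero, add_zero]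
        simp only [Matrix.cons_val', Matrix.cons_val_zero, Matrix.of_apply,
          Matrix.cons_val_fin_one, ha]
        linear_combination (-(k : ZMod N)) * e0
    obtain ⟨i, hi⟩ := (isReps_hRep (M := N) (K := K)).surj _ hmem
    exact ⟨i, by simpa [map_inv, mul_assoc] using hi⟩

theorem conj_mem_heckeCls (h : ALLevel N q M) (hK : TwistSub N K e) {g : GLR}
    (hg : g ∈ alSet h K e) {n : ℕ} {s lam : (ZMod N)ˣ} (hlam : (n : ZMod N) = lam)
    (hs : h.toQ (lam * (s⁻¹) ^ 2) ∈ K.map h.toQ) {t : GLR} (ht : t ∈ heckeCls N K n s) :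
    g * t * g⁻¹ ∈ heckeCls N K n s := by
  obtain ⟨a, b, c, d, htA, hdet, k, hk, ha⟩ := ht
  obtain ⟨x, y, z, w, hgA, hA, -⟩ := hg
  set C := conjInt N q M x y z w a b c d with hC
  obtain ⟨a', b', c', d', he⟩ := exists_entries (B := C) (N := N)
    (intCast_eq_zero_of_dvd (by simp [hC, conjInt]))
  refine ⟨a', b', c', d', he ▸ isIntMat_conj h hA hgA htA, ?_, ?_⟩
  · rw [← Matrix.det_fin_two_of, ← he, hC, det_conjInt h hA, hdet]
  have e0 : a' = C 0 0 := by rw [he]; simp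
  rw [← Units.val_mul] at ha
  have hd := lowerRight_toQ h hdet ha
  refine hK.exists_mem_eq h s (uM := h.toM k) (TwistSub.toM_mem h hk)
    (uQ := (h.toQ k)⁻¹ * h.toQ (lam * (s⁻¹) ^ 2))
    (mul_mem (inv_mem (TwistSub.toQ_mem h hk)) hs) ?_ ?_
  · rw [e0, hC, (conjInt_classes h hA a b c d).1, ← Units.val_mul, ← map_mul]
    exact h.intCast_toM ha
  · rw [e0, hC, (conjInt_classes h hA a b c d).2, hd, Int.cast_natCast,
      h.natCast_toQ hlam, ← Units.val_mul, ← Units.val_mul]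
    congr 1
    simp only [map_mul, map_inv, map_pow, mul_inv_rev]
    refine Additive.ofMul.injective ?_
    simp only [ofMul_mul, ofMul_pow, ofMul_inv]
    abel

/-- `⟨n⟩ ^ e T_n` for `n` prime to the level. -/
def twHecke (N : ℕ) (K : Subgroup (ZMod N)ˣ) (e : ℕ) {n : ℕ} [Fact n.Prime]
    (hn : n.Coprime N) : Module.End R (Additive (gammaH N K) →+ A) :=
  diamond N K R (ZMod.unitOfCoprime n hn ^ e) * hecke N K n R

theorem wOp_twHecke (h : ALLevel N q M) (hK : TwistSub N K e) {n : ℕ} [Fact n.Prime]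
    (hn : n.Coprime N) (φ : Additive (gammaH N K) →+ A) :
    wOp R h hK (twHecke R N K e hn φ) = twHecke R N K e hn (wOp R h hK φ) := by
  set v := ZMod.unitOfCoprime n hn ^ e with hv
  set g := wElt h K e
  have hg := wElt_mem h K e
  obtain ⟨E, hE⟩ := exists_twist_equiv
    (isReps_hRep_mul_mapGL (K := K) (n := n) (gamma0Elt_mem v⁻¹) (gamma0Elt_upperLeft v⁻¹)) g
    (fun t ht => conj_mem_heckeCls h hK hg
      (lam := ZMod.unitOfCoprime n hn) (ZMod.coe_unitOfCoprime n hn).symm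
      (by
        rw [inv_inv, hv, ← pow_mul, ← pow_succ', mul_comm e 2]
        exact TwistSub.toQ_mem h (hK.pow _)) ht)
    (fun t ht => (alSet_conj_mem h hK hg ht).2)
  unfold twHecke wOp hecke diamond
  simp only [Module.End.mul_apply, opOf_comp]
  refine LinearMap.congr_fun (opOf_congr _ _
    (({ toFun := fun p => (((), (E p.1.1)), ())
        invFun := fun p => ((E.symm p.1.2, ()), ())
        left_inv := fun p => by simp
        right_inv := fun p => by simp } :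
      (HIdx N n × Unit) × Unit ≃ (Unit × HIdx N n) × Unit)) fun p => ?_) φ
  have := hE p.1.1
  simpa [diaRep, hv, mul_assoc] using this

end Fermat.Agent.Lifting.Degeneracy
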